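import Mathlib

/-!
An elementary Hilbert irreducibility statement: if the quartic
`w ^ 4 - 6 C(z) w ^ 2 - 8 D(z) w - 3 C(z) ^ 2`, with simple roots at `z = 0`, has a root
`X / m ^ d` with `X` an integer at `z = 1 / m` for all large integers `m`, then it has a
root of the shape `P(t) / t ^ d` at `z = 1 / t` for a polynomial `P` of degree `≤ d`.
The proof uses a homothetic monochromatic set (van der Waerden) and iterated differences.
-/

open Filter Topology Polynomial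

namespace Fermat.Agent.Switch

/-- The quartic whose rational roots detect a stable line in the 3-torsion. -/
def quartic {R : Type*} [CommRing R] (c d w : R) : R :=
  w ^ 4 - 6 * c * w ^ 2 - 8 * d * w - 3 * c ^ 2

/-- Off `c ^ 3 = d ^ 2` the roots of the quartic are simple. -/
theorem quartic_simple_root {K : Type*} [Field K] [CharZero K] {c d w : K} (h : c ^ 3 ≠ d ^ 2)
    (hw : quartic c d w = 0) : 4 * w ^ 3 - 12 * c * w - 8 * d ≠ 0 := by
  intro h'
  unfold quartic at hw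
  have h1 : w ^ 3 - 3 * c * w - 2 * d = 0 := by linear_combination h' / 4
  have h2 : c * w ^ 2 + 2 * d * w + c ^ 2 = 0 := by
    linear_combination -(1 / 3 : K) * hw + (1 / 3 : K) * w * h1
  have h3 : d * w ^ 2 + 2 * c ^ 2 * w + c * d = 0 := by
    linear_combination (-1 / 2 : K) * c * h1 + (1 / 2 : K) * w * h2
  have h4 : (d ^ 2 - c ^ 3) * w = 0 := by linear_combination (d / 2) * h2 - (c / 2) * h3
  have hne : d ^ 2 - c ^ 3 ≠ 0 := sub_ne_zero.2 (Ne.symm h)
  have hw0 : w = 0 := by simpa [hne] using h4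
  subst hw0
  have hd : d = 0 := by linear_combination -(1 / 2 : K) * h1
  have hc : c ^ 2 = 0 := by linear_combination h2
  exact h (by simp [hd, pow_eq_zero_iff two_ne_zero |>.1 hc])

/-- Finite differences with step `h`. -/
def fdiff (h : ℝ) : ℕ → (ℝ → ℝ) → ℝ → ℝ
  | 0, g, x => g x
  | n + 1, g, x => fdiff h n (fun y => g (y + h) - g y) x

/-- Iterated differences of integral values are integral. -/
theorem fdiff_isInt (h : ℝ) : ∀ (n : ℕ) (g : ℝ → ℝ) (x : ℝ),
    (∀ i : ℕ, i ≤ n → ∃ z : ℤ, g (x + i * h) = z) → ∃ z : ℤ, fdiff h n g x = z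
  | 0, g, x, hg => by simpa [fdiff] using hg 0 le_rfl
  | n + 1, g, x, hg => by
    refine fdiff_isInt h n _ x fun i hi => ?_
    obtain ⟨z, hz⟩ := hg i (hi.trans (Nat.le_succ n))
    obtain ⟨z', hz'⟩ := hg (i + 1) (Nat.succ_le_succ hi)
    refine ⟨z' - z, ?_⟩
    push_cast at hz' ⊢
    rw [show x + i * h + h = x + (i + 1) * h by ring, hz', hz]

/-- Mean value theorem for iterated differences. -/
theorem exists_fdiff_eq {h T : ℝ} (hh : 0 < h) : ∀ (n : ℕ) (g : ℕ → ℝ → ℝ),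
    (∀ k, k < n → ∀ x, T ≤ x → HasDerivAt (g k) (g (k + 1) x) x) →
    ∀ x, T ≤ x → ∃ ξ, x ≤ ξ ∧ fdiff h n (g 0) x = h ^ n * g n ξ
  | 0, g, _, x, _ => ⟨x, le_rfl, by simp [fdiff]⟩
  | n + 1, g, hg, x, hx => by
    obtain ⟨ξ, hξ, e⟩ := exists_fdiff_eq hh n (fun k y => g k (y + h) - g k y)
      (fun k hk y hy =>
        ((hg k (hk.trans (Nat.lt_succ_self n)) (y + h) (by linarith)).comp_add_const y h).sub
          (hg k (hk.trans (Nat.lt_succ_self n)) y hy)) x hx
    have hd : ∀ y ∈ Set.Icc ξ (ξ + h), HasDerivAt (g n) (g (n + 1) y) y := fun y hy =>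
      hg n (Nat.lt_succ_self n) y (le_trans (hx.trans hξ) hy.1)
    obtain ⟨η, hη, hηe⟩ := exists_hasDerivAt_eq_slope (g n) (g (n + 1)) (by linarith : ξ < ξ + h)
      (fun y hy => (hd y hy).continuousAt.continuousWithinAt)
      (fun y hy => hd y ⟨hy.1.le, hy.2.le⟩)
    refine ⟨η, hξ.trans hη.1.le, ?_⟩
    show fdiff h n (fun y => g 0 (y + h) - g 0 y) x = _
    rw [e, hηe, show ξ + h - ξ = h by ring, pow_succ]
    field_simp

/-- A monochromatic progression with bounded step. -/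
theorem exists_progression (κ : Type) [Finite κ] (n : ℕ) :
    ∃ A : ℕ, ∀ col : ℕ → κ, ∃ a, 0 < a ∧ a ≤ A ∧ ∃ b c, ∀ i ≤ n, col (b + a * i) = c := by
  classical
  obtain ⟨ι, _inst, hι⟩ := Combinatorics.Line.exists_mono_in_high_dimension (Fin (n + 1)) κ
  refine ⟨Fintype.card ι, fun col => ?_⟩
  obtain ⟨l, c, hl⟩ := hι fun v => col (∑ j, (v j).val)
  set s : Finset ι := {j | l.idxFun j = none} with hs
  refine ⟨s.card, Finset.card_pos.2 ⟨l.proper.choose, by
      rw [hs, Finset.mem_filter]; exact ⟨Finset.mem_univ _, l.proper.choose_spec⟩⟩,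
    Finset.card_le_univ s, ∑ j ∈ sᶜ, ((l.idxFun j).map Fin.val).getD 0, c, fun i hi => ?_⟩
  rw [← hl ⟨i, Nat.lt_succ_of_le hi⟩]
  show col _ = col _
  congr 1
  rw [← Finset.sum_compl_add_sum s]
  congr 1
  · refine Finset.sum_congr rfl fun j hj => ?_
    simp only [hs, Finset.mem_compl, Finset.mem_filter, Finset.mem_univ, true_and] at hj
    obtain ⟨y, hy⟩ := Option.ne_none_iff_exists'.1 hj
    simp [hy]
  · rw [Finset.sum_congr rfl (g := fun _ => i), Finset.sum_const, smul_eq_mul]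
    intro j hj
    simp only [hs, Finset.mem_filter, Finset.mem_univ, true_and] at hj
    simp [hj]

/-- A polynomial has a polynomial antiderivative. -/
theorem exists_antiderivative (P : ℝ[X]) {n : ℕ} (hP : P.natDegree ≤ n) :
    ∃ Q : ℝ[X], Q.natDegree ≤ n + 1 ∧ ∀ x, HasDerivAt (fun t => Q.eval t) (P.eval x) x := by
  refine ⟨∑ i ∈ Finset.range (n + 1), Polynomial.C (P.coeff i / (i + 1)) * Polynomial.X ^ (i + 1),
    natDegree_sum_le_of_forall_le _ _ fun i hi => (natDegree_C_mul_X_pow_le _ _).trans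
      (by simpa using hi), fun x => ?_⟩
  rw [eval_eq_sum_range' (Nat.lt_succ_of_le hP)]
  refine HasDerivAt.congr_deriv (Polynomial.hasDerivAt _ x) ?_
  simp only [map_sum, eval_finsetSum, derivative_C_mul_X_pow, eval_C, eval_mul, eval_pow, eval_X]
  refine Finset.sum_congr rfl fun i _ => ?_
  have : (i : ℝ) + 1 ≠ 0 := by positivity
  push_cast
  field_simp

/-- A function whose `(n+1)`-st derivative vanishes on a half-line is a polynomial there. -/
theorem eq_poly_of_deriv_zero {T : ℝ} : ∀ (n : ℕ) (g : ℕ → ℝ → ℝ),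
    (∀ k, k ≤ n → ∀ x, T < x → HasDerivAt (g k) (g (k + 1) x) x) →
    (∀ x, T < x → g (n + 1) x = 0) →
    ∃ P : ℝ[X], P.natDegree ≤ n ∧ ∀ x, T < x → g 0 x = P.eval x
  | 0, g, hg, hz => by
    refine ⟨Polynomial.C (g 0 (T + 1)), (natDegree_C _).le, fun x hx => ?_⟩
    rw [eval_C]
    refine (convex_Ioi T).is_const_of_fderivWithin_eq_zero (𝕜 := ℝ)
      (fun y hy => (hg 0 le_rfl y hy).differentiableAt.differentiableWithinAt) (fun y hy => ?_)
      hx (show T < T + 1 by linarith)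
    rw [fderivWithin_of_isOpen isOpen_Ioi hy, (hg 0 le_rfl y hy).hasFDerivAt.fderiv, hz y hy]
    ext; simp
  | n + 1, g, hg, hz => by
    obtain ⟨P, hP, he⟩ := eq_poly_of_deriv_zero n (fun k => g (k + 1))
      (fun k hk => hg (k + 1) (Nat.succ_le_succ hk)) hz
    obtain ⟨Q, hQ, hQd⟩ := exists_antiderivative P hP
    refine ⟨Q + Polynomial.C (g 0 (T + 1) - Q.eval (T + 1)),
      (natDegree_add_C).le.trans hQ, fun x hx => ?_⟩
    have hd : ∀ y, T < y → HasDerivAt (fun t => g 0 t - Q.eval t) 0 y := fun y hy => by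
      have := (hg 0 (Nat.zero_le _) y hy).sub (hQd y)
      rwa [he y hy, sub_self] at this
    have := (convex_Ioi T).is_const_of_fderivWithin_eq_zero (𝕜 := ℝ)
      (f := fun t => g 0 t - Q.eval t)
      (fun y hy => (hd y hy).differentiableAt.differentiableWithinAt) (fun y hy => by
        rw [fderivWithin_of_isOpen isOpen_Ioi hy, (hd y hy).hasFDerivAt.fderiv]; ext; simp)
      hx (show T < T + 1 by linarith)
    rw [eval_add, eval_C]; linarith

/-- Successive derivatives of `t ↦ t ^ d * w (1 / t)`, as functions of `1 / t`. -/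
noncomputable def opSeq (d : ℕ) (w : ℝ → ℝ) : ℕ → ℝ → ℝ
  | 0 => w
  | k + 1 => fun z => ((d : ℝ) - k) * opSeq d w k z - z * deriv (opSeq d w k) z

theorem analyticAt_opSeq (d : ℕ) {w : ℝ → ℝ} {z : ℝ} (hw : AnalyticAt ℝ w z) :
    ∀ k, AnalyticAt ℝ (opSeq d w k) z
  | 0 => hw
  | k + 1 =>
    ((analyticAt_const.mul (analyticAt_opSeq d hw k)).sub
      (analyticAt_id.mul (analyticAt_opSeq d hw k).deriv))

/-- `t ↦ t ^ (d - k) * wₖ(1 / t)`. -/
noncomputable def derivSeq (d : ℕ) (w : ℝ → ℝ) (k : ℕ) (t : ℝ) : ℝ :=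
  t ^ ((d : ℤ) - k) * opSeq d w k t⁻¹

theorem hasDerivAt_derivSeq (d : ℕ) {w : ℝ → ℝ} {t : ℝ} (ht : 0 < t)
    (hw : AnalyticAt ℝ w t⁻¹) (k : ℕ) :
    HasDerivAt (derivSeq d w k) (derivSeq d w (k + 1) t) t := by
  have h1 := hasDerivAt_zpow ((d : ℤ) - k) t (Or.inl ht.ne')
  have h2 : HasDerivAt (fun s => opSeq d w k s⁻¹)
      (deriv (opSeq d w k) t⁻¹ * (-(t ^ 2)⁻¹)) t :=
    (analyticAt_opSeq d hw k).differentiableAt.hasDerivAt.comp t (hasDerivAt_inv ht.ne')
  refine (h1.mul h2).congr_deriv ?_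
  simp only [derivSeq, opSeq]
  push_cast
  rw [show (d : ℤ) - k = ((d : ℤ) - (k + 1)) + 1 by ring, add_sub_cancel_right,
      zpow_add_one₀ ht.ne']
  field_simp
  ring

/-- The analytic branch of roots through a simple root of the quartic. -/
theorem exists_branch (C D : ℝ[X]) {w₀ : ℝ} (hroot : quartic (C.eval 0) (D.eval 0) w₀ = 0)
    (hsimple : 4 * w₀ ^ 3 - 12 * C.eval 0 * w₀ - 8 * D.eval 0 ≠ 0) :
    ∃ w : ℝ → ℝ, AnalyticAt ℝ w 0 ∧
      (∀ᶠ z in 𝓝 0, quartic (C.eval z) (D.eval z) (w z) = 0) ∧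
      ∀ᶠ p : ℝ × ℝ in 𝓝 (0, w₀), quartic (C.eval p.1) (D.eval p.1) p.2 = 0 → p.2 = w p.1 := by
  set b := 4 * w₀ ^ 3 - 12 * C.eval 0 * w₀ - 8 * D.eval 0 with hb
  set a := -6 * C.derivative.eval 0 * w₀ ^ 2 - 8 * D.derivative.eval 0 * w₀
    - 6 * C.eval 0 * C.derivative.eval 0 with ha
  set G : ℝ × ℝ → ℝ × ℝ := fun p => (p.1, quartic (C.eval p.1) (D.eval p.1) p.2) with hG
  set fs := ContinuousLinearMap.fst ℝ ℝ ℝ with hfs
  set sn := ContinuousLinearMap.snd ℝ ℝ ℝ with hsn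
  have hGa : AnalyticAt ℝ G (0, w₀) := by
    have hC : AnalyticAt ℝ (fun p : ℝ × ℝ => C.eval p.1) (0, w₀) :=
      (AnalyticOnNhd.eval_polynomial C 0 trivial).comp_of_eq analyticAt_fst rfl
    have hD : AnalyticAt ℝ (fun p : ℝ × ℝ => D.eval p.1) (0, w₀) :=
      (AnalyticOnNhd.eval_polynomial D 0 trivial).comp_of_eq analyticAt_fst rfl
    have h2 : AnalyticAt ℝ (fun p : ℝ × ℝ => p.2) (0, w₀) := analyticAt_snd
    refine analyticAt_fst.prod ?_
    exact (((h2.pow 4).sub ((analyticAt_const.mul hC).mul (h2.pow 2))).sub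
      ((analyticAt_const.mul hD).mul h2)).sub (analyticAt_const.mul (hC.pow 2))
  have hderiv : HasStrictFDerivAt G (fs.prod (a • fs + b • sn)) (0, w₀) := by
    have hC : HasStrictFDerivAt (fun p : ℝ × ℝ => C.eval p.1) (C.derivative.eval 0 • fs) (0, w₀) :=
      (C.hasStrictDerivAt 0).comp_hasStrictFDerivAt (f := fun p : ℝ × ℝ => p.1) (0, w₀)
        hasStrictFDerivAt_fst
    have hD : HasStrictFDerivAt (fun p : ℝ × ℝ => D.eval p.1) (D.derivative.eval 0 • fs) (0, w₀) :=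
      (D.hasStrictDerivAt 0).comp_hasStrictFDerivAt (f := fun p : ℝ × ℝ => p.1) (0, w₀)
        hasStrictFDerivAt_fst
    have h2 : HasStrictFDerivAt (fun p : ℝ × ℝ => p.2) sn (0, w₀) := hasStrictFDerivAt_snd
    refine hasStrictFDerivAt_fst.prodMk ?_
    refine ((((h2.pow 4).fun_sub ((hC.const_mul (6 : ℝ)).fun_mul (h2.pow 2))).fun_sub
      ((hD.const_mul (8 : ℝ)).fun_mul h2)).fun_sub ((hC.pow 2).const_mul (3 : ℝ))).congr_fderiv
      ?_
    ext <;> simp [hfs, hsn, ha, hb] <;> ring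
  set L := fs.prod (a • fs + b • sn) with hL
  set L' := fs.prod ((b⁻¹) • sn + (-(b⁻¹ * a)) • fs) with hL'
  set eL : (ℝ × ℝ) ≃L[ℝ] (ℝ × ℝ) := ContinuousLinearEquiv.equivOfInverse L L'
    (fun p => by
      apply Prod.ext
      · simp [hL, hL', hfs]
      · simp [hL, hL', hfs, hsn]; field_simp; ring)
    (fun p => by
      apply Prod.ext
      · simp [hL, hL', hfs]
      · simp [hL, hL', hfs, hsn]; field_simp; ring) with heL
  have hf : HasStrictFDerivAt G (eL : ℝ × ℝ →L[ℝ] ℝ × ℝ) (0, w₀) := hderiv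
  have hG0 : G (0, w₀) = (0, 0) := Prod.ext rfl hroot
  refine ⟨fun z => (hf.localInverse G eL (0, w₀) (z, 0)).2, ?_, ?_, ?_⟩
  · have hsym : AnalyticAt ℝ (hf.localInverse G eL (0, w₀)) (0, 0) := by
      rw [← hG0, hf.localInverse_def]
      exact (hf.toOpenPartialHomeomorph G).analyticAt_symm' hf.mem_toOpenPartialHomeomorph_source
        hGa (by rw [hf.toOpenPartialHomeomorph_coe]; exact hf.hasFDerivAt.fderiv)
    exact analyticAt_snd.comp
      (hsym.comp_of_eq (analyticAt_id.prod analyticAt_const) rfl)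
  · have h := hf.eventually_right_inverse
    rw [hG0] at h
    have hcont : Tendsto (fun z : ℝ => (z, (0 : ℝ))) (𝓝 0) (𝓝 ((0 : ℝ), (0 : ℝ))) :=
      (continuous_id.prodMk continuous_const).tendsto 0
    filter_upwards [hcont.eventually h] with z hz
    have h1 : (hf.localInverse G eL (0, w₀) (z, 0)).1 = z := congrArg Prod.fst hz
    have h2 := congrArg Prod.snd hz
    simp only [hG] at h1 h2 ⊢
    rw [h1] at h2
    exact h2
  · filter_upwards [hf.eventually_left_inverse] with p hp hroot'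
    have : G p = (p.1, 0) := Prod.ext rfl hroot'
    rw [this] at hp
    exact (congrArg Prod.snd hp).symm

/-- A bound for the real roots of the quartic. -/
theorem abs_le_of_quartic {c d y : ℝ} (h : quartic c d y = 0) :
    |y| ≤ 1 + (6 * |c| + 8 * |d| + 3 * c ^ 2) := by
  unfold quartic at h
  by_contra hcon
  have hy : 1 + (6 * |c| + 8 * |d| + 3 * c ^ 2) < |y| := not_le.1 hcon
  set S := 6 * |c| + 8 * |d| + 3 * c ^ 2 with hS
  have hS0 : 0 ≤ S := by positivity
  have h1 : (1 : ℝ) ≤ |y| := by linarith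
  have e : y ^ 4 = 6 * c * y ^ 2 + 8 * d * y + 3 * c ^ 2 := by linarith
  have e1 : 6 * c * y ^ 2 ≤ 6 * |c| * |y| ^ 2 := by
    rw [sq_abs]; nlinarith [le_abs_self c, sq_nonneg y]
  have e2 : 8 * d * y ≤ 8 * |d| * |y| ^ 2 := by
    have : d * y ≤ |d| * |y| := by rw [← abs_mul]; exact le_abs_self _
    nlinarith [mul_le_mul_of_nonneg_left h1 (mul_nonneg (abs_nonneg d) (abs_nonneg y))]
  have e3 : 3 * c ^ 2 ≤ 3 * c ^ 2 * |y| ^ 2 :=
    le_mul_of_one_le_right (by positivity) (one_le_pow₀ h1)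
  have e4 : |y| ^ 4 ≤ S * |y| ^ 2 := by
    rw [show |y| ^ 4 = y ^ 4 by rw [← abs_pow, abs_of_nonneg (by positivity)], e, hS]
    nlinarith
  have e5 : S * |y| ^ 2 < |y| ^ 4 := by
    have : S < |y| ^ 2 := by nlinarith
    nlinarith [show 0 < |y| ^ 2 by positivity]
  linarith

/-- Near `z = 0` every root of the quartic lies on one of the analytic branches. -/
theorem eventually_root_mem_branch (C D : ℝ[X])
    (w : {y : ℝ | quartic (C.eval 0) (D.eval 0) y = 0} → ℝ → ℝ)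
    (hwuniq : ∀ y : {y : ℝ | quartic (C.eval 0) (D.eval 0) y = 0},
      ∀ᶠ p : ℝ × ℝ in 𝓝 (0, (y : ℝ)),
        quartic (C.eval p.1) (D.eval p.1) p.2 = 0 → p.2 = w y p.1) :
    ∀ᶠ z in 𝓝 (0 : ℝ), ∀ y : ℝ, quartic (C.eval z) (D.eval z) y = 0 → ∃ r, y = w r z := by
  let B := 2 + (6 * |C.eval 0| + 8 * |D.eval 0| + 3 * C.eval 0 ^ 2)
  have hK : ∀ᶠ z in 𝓝 (0 : ℝ), ∀ y ∈ Set.Icc (-B) B,
      quartic (C.eval z) (D.eval z) y = 0 → ∃ r, y = w r z := by
    refine isCompact_Icc.eventually_forall_of_forall_eventually fun y _ => ?_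
    by_cases hy : quartic (C.eval 0) (D.eval 0) y = 0
    · filter_upwards [hwuniq ⟨y, hy⟩] with p hp hp'
      exact ⟨⟨y, hy⟩, hp hp'⟩
    · have hc : Continuous fun p : ℝ × ℝ => quartic (C.eval p.1) (D.eval p.1) p.2 := by
        unfold quartic; fun_prop
      filter_upwards [hc.continuousAt.eventually_ne hy] with p hp hp'
      exact absurd hp' hp
  have hbd : ∀ᶠ z in 𝓝 (0 : ℝ),
      1 + (6 * |C.eval z| + 8 * |D.eval z| + 3 * C.eval z ^ 2) < B := by
    have hc : Continuous fun z => 1 + (6 * |C.eval z| + 8 * |D.eval z| + 3 * C.eval z ^ 2) := by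
      fun_prop
    exact hc.continuousAt.eventually_lt continuousAt_const (by simp only [B]; linarith)
  filter_upwards [hK, hbd] with z hz hzb y hy
  refine hz y ?_ hy
  rw [Set.mem_Icc, ← abs_le]
  exact (abs_le_of_quartic hy).trans hzb.le

/-- A branch whose derived sequence vanishes near `0` is given by a polynomial. -/
theorem exists_polynomial_of_opSeq_eq_zero (d : ℕ) (C D : ℝ[X]) {w : ℝ → ℝ}
    (hwa : AnalyticAt ℝ w 0) (hwroot : ∀ᶠ z in 𝓝 0, quartic (C.eval z) (D.eval z) (w z) = 0)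
    (hr : ∀ᶠ z in 𝓝 (0 : ℝ), opSeq d w (d + 1) z = 0) :
    ∃ P : ℝ[X], P.natDegree ≤ d ∧ ∀ᶠ t : ℝ in atTop,
      quartic (C.eval t⁻¹) (D.eval t⁻¹) (P.eval t / t ^ d) = 0 := by
  have hev := tendsto_inv_atTop_zero.eventually
    ((hr.and hwa.eventually_analyticAt).and hwroot)
  obtain ⟨T, hT⟩ := eventually_atTop.1 (hev.and (eventually_gt_atTop (0 : ℝ)))
  obtain ⟨P, hP, hPe⟩ := eq_poly_of_deriv_zero (T := T) d (derivSeq d w)
    (fun k _ x hx => hasDerivAt_derivSeq d (hT x hx.le).2 (hT x hx.le).1.1.2 k)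
    (fun x hx => by simp [derivSeq, (hT x hx.le).1.1.1])
  refine ⟨P, hP, ?_⟩
  filter_upwards [eventually_gt_atTop T] with t ht
  have ht0 : 0 < t := (hT t ht.le).2
  have e : P.eval t / t ^ d = w t⁻¹ := by
    rw [← hPe t ht]
    simp only [derivSeq, opSeq, Nat.cast_zero, sub_zero, zpow_natCast]
    field_simp
  rw [e]
  exact (hT t ht.le).1.2

/-- Elementary Hilbert irreducibility for the quartic. -/
theorem exists_polynomial_root (d : ℕ) (C D : ℝ[X]) (hdisc : C.eval 0 ^ 3 ≠ D.eval 0 ^ 2)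
    (hX : ∀ᶠ m : ℕ in atTop, ∃ X : ℤ,
      quartic (C.eval (m : ℝ)⁻¹) (D.eval (m : ℝ)⁻¹) ((X : ℝ) / (m : ℝ) ^ d) = 0) :
    ∃ P : ℝ[X], P.natDegree ≤ d ∧ ∀ᶠ t : ℝ in atTop,
      quartic (C.eval t⁻¹) (D.eval t⁻¹) (P.eval t / t ^ d) = 0 := by
  classical
  set S : Set ℝ := {y | quartic (C.eval 0) (D.eval 0) y = 0} with hS
  have hSfin : S.Finite := by
    refine (Polynomial.finite_setOfPred_isRoot (p := Polynomial.X ^ 4
      - Polynomial.C (6 * C.eval 0) * Polynomial.X ^ 2 - Polynomial.C (8 * D.eval 0) * Polynomial.X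
      - Polynomial.C (3 * C.eval 0 ^ 2)) fun h => ?_).subset fun y hy => ?_
    · have := congrArg (fun p => Polynomial.coeff p 4) h
      norm_num [coeff_sub, coeff_X_pow, coeff_C_mul, coeff_C, coeff_X, -map_mul, -map_pow] at this
    · simpa [hS, quartic] using hy
  have : Finite S := hSfin.to_subtype
  choose w hwa hwroot hwuniq using fun y : S =>
    exists_branch C D y.2 (quartic_simple_root hdisc y.2)
  have hcover := eventually_root_mem_branch C D w hwuniq
  by_cases hzero : ∃ r : S, ∀ᶠ z in 𝓝 (0 : ℝ), opSeq d (w r) (d + 1) z = 0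
  · obtain ⟨r, hr⟩ := hzero
    exact exists_polynomial_of_opSeq_eq_zero d C D (hwa r) (hwroot r) hr
  · exfalso
    simp only [not_exists] at hzero
    have hne : ∀ r : S, ∀ᶠ z in 𝓝[≠] (0 : ℝ), opSeq d (w r) (d + 1) z ≠ 0 := fun r =>
      ((analyticAt_opSeq d (hwa r) (d + 1)).eventually_eq_zero_or_eventually_ne_zero).resolve_left
        (hzero r)
    have hX' : ∀ᶠ m : ℕ in atTop, ∃ r : S, ∃ X : ℤ, (X : ℝ) = (m : ℝ) ^ d * w r (m : ℝ)⁻¹ := by
      have := (tendsto_inv_atTop_zero.comp tendsto_natCast_atTop_atTop).eventually hcover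
      filter_upwards [hX, this, eventually_ge_atTop 1] with m ⟨X, hXm⟩ hm hm1
      obtain ⟨r, hr⟩ := hm _ hXm
      refine ⟨r, X, ?_⟩
      simp only [Function.comp] at hr
      have : (m : ℝ) ≠ 0 := by positivity
      rw [← hr]; field_simp
    obtain ⟨M₁, hM₁⟩ := eventually_atTop.1 hX'
    have hS0 : Nonempty S := ⟨(hM₁ M₁ le_rfl).choose⟩
    obtain ⟨A, hA⟩ := exists_progression S (d + 1)
    -- the `d + 1`-st derivatives are small and non-zero far out
    have hev : ∀ᶠ t : ℝ in atTop, 0 < t ∧ ∀ r : S, opSeq d (w r) (d + 1) t⁻¹ ≠ 0 ∧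
        AnalyticAt ℝ (w r) t⁻¹ ∧
        ((A : ℝ) ^ (d + 1)) * |derivSeq d (w r) (d + 1) t| < 1 := by
      refine (eventually_gt_atTop (0 : ℝ)).and (eventually_all.2 fun r => ?_)
      have h1 : ∀ᶠ t : ℝ in atTop, opSeq d (w r) (d + 1) t⁻¹ ≠ 0 :=
        (tendsto_inv_atTop_nhdsGT_zero.mono_right
          (nhdsWithin_mono _ fun x hx => ne_of_gt hx)).eventually (hne r)
      have h2 : ∀ᶠ t : ℝ in atTop, AnalyticAt ℝ (w r) t⁻¹ :=
        tendsto_inv_atTop_zero.eventually (hwa r).eventually_analyticAt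
      have h3 : Tendsto (fun t : ℝ => ((A : ℝ) ^ (d + 1)) * |derivSeq d (w r) (d + 1) t|)
          atTop (𝓝 0) := by
        have e : (fun t : ℝ => ((A : ℝ) ^ (d + 1)) * |derivSeq d (w r) (d + 1) t|) =
            fun t => ((A : ℝ) ^ (d + 1)) * |t⁻¹ * opSeq d (w r) (d + 1) t⁻¹| := by
          funext t
          simp only [derivSeq]
          push_cast
          rw [show (d : ℤ) - (d + 1) = -1 by ring, zpow_neg_one]
        rw [e]
        have := ((analyticAt_opSeq d (hwa r) (d + 1)).continuousAt.tendsto.comp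
          tendsto_inv_atTop_zero)
        simpa using ((tendsto_inv_atTop_zero.mul this).abs.const_mul ((A : ℝ) ^ (d + 1)))
      filter_upwards [h1, h2, h3.eventually (gt_mem_nhds one_pos)] with t a b c using ⟨a, b, c⟩
    obtain ⟨T, hT⟩ := eventually_atTop.1 hev
    obtain ⟨M₀, hM₀⟩ : ∃ M₀ : ℕ, T ≤ M₀ ∧ M₁ ≤ M₀ :=
      ⟨max ⌈T⌉₊ M₁, (Nat.le_ceil T).trans (Nat.cast_le.2 (le_max_left _ _)), le_max_right _ _⟩
    obtain ⟨a, ha0, haA, b, c, hc⟩ :=
      hA fun i => (hM₁ (M₀ + i) (hM₀.2.trans (Nat.le_add_right _ _))).choose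
    set x : ℝ := ((M₀ + b : ℕ) : ℝ) with hx
    have hxT : T ≤ x := hM₀.1.trans (Nat.cast_le.2 (Nat.le_add_right _ _))
    have hint : ∃ z : ℤ, fdiff (a : ℝ) (d + 1) (derivSeq d (w c) 0) x = z := by
      refine fdiff_isInt _ _ _ _ fun i hi => ?_
      have hm := (hM₁ (M₀ + (b + a * i)) (hM₀.2.trans (Nat.le_add_right _ _))).choose_spec
      rw [hc i hi] at hm
      obtain ⟨X, hXe⟩ := hm
      refine ⟨X, ?_⟩
      rw [hXe, show x + i * (a : ℝ) = ((M₀ + (b + a * i) : ℕ) : ℝ) by rw [hx]; push_cast; ring]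
      simp [derivSeq, opSeq]
    obtain ⟨ξ, hξ, heq⟩ := exists_fdiff_eq (h := (a : ℝ)) (T := T) (by exact_mod_cast ha0) (d + 1)
      (derivSeq d (w c)) (fun k _ y hy => hasDerivAt_derivSeq d (hT y hy).1 ((hT y hy).2 c).2.1 k)
      x hxT
    obtain ⟨z, hz⟩ := hint
    obtain ⟨hpos, hall⟩ := hT ξ (hxT.trans hξ)
    obtain ⟨hne0, -, hsmall⟩ := hall c
    have hlt : |(z : ℝ)| < 1 := by
      rw [← hz, heq, abs_mul, abs_pow, Nat.abs_cast]
      refine lt_of_le_of_lt ?_ hsmall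
      exact mul_le_mul_of_nonneg_right
        (pow_le_pow_left₀ (Nat.cast_nonneg a) (Nat.cast_le.2 haA) _) (abs_nonneg _)
    have hz0 : z = 0 := Int.abs_lt_one_iff.1 (by exact_mod_cast hlt)
    rw [hz0, Int.cast_zero, heq, mul_eq_zero] at hz
    rcases hz with h | h
    · exact ha0.ne' (by exact_mod_cast pow_eq_zero_iff (Nat.succ_ne_zero d) |>.1 h)
    · simp only [derivSeq, mul_eq_zero] at h
      exact h.elim (zpow_ne_zero _ hpos.ne') hne0

end Fermat.Agent.Switch
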