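import Fermat.Prelude.Def_FLTPrelim_ModularRep
import Fermat.Agent.EC.TorsionCard
import Fermat.Agent.Switch.Hilbert

/-!
A criterion for irreducibility of the 3-torsion: the quartic
`U ^ 4 - 6 c₄ U ^ 2 - 8 c₆ U - 3 c₄ ^ 2` has no integral root.
-/

open WeierstrassCurve
open scoped WeierstrassCurve.Affine

namespace Fermat.Agent.Switch

section field

variable {K : Type*} [Field K] [CharZero K] [DecidableEq K]

/-- The abscissa of a point of order three is a root of the quartic. -/
theorem quartic_of_three_torsion {E : WeierstrassCurve K} {x y : K}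
    (h : E.toAffine.Nonsingular x y)
    (h3 : 3 • (Affine.Point.some x y h : E.toAffine.Point) = 0) :
    quartic E.c₄ E.c₆ (12 * x + E.b₂) = 0 := by
  have hy : y ≠ E.toAffine.negY x y := by
    intro e
    have h2 : (Affine.Point.some x y h : E.toAffine.Point) + .some x y h = 0 :=
      Affine.Point.add_of_Y_eq rfl e
    rw [show (3 : ℕ) = 2 + 1 from rfl, add_nsmul, two_nsmul, h2, zero_add, one_nsmul] at h3
    exact Affine.Point.some_ne_zero _ h3
  have hneg : (Affine.Point.some x y h : E.toAffine.Point) + .some x y h =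
      -Affine.Point.some x y h := by
    rw [eq_neg_iff_add_eq_zero, ← two_nsmul, ← succ_nsmul]
    exact h3
  rw [Affine.Point.add_self_of_Y_ne hy, Affine.Point.neg_some] at hneg
  simp only [Affine.Point.some.injEq] at hneg
  obtain ⟨hx, -⟩ := hneg
  set l := E.toAffine.slope x x y y with hl
  have hd : y - E.toAffine.negY x y ≠ 0 := sub_ne_zero.2 hy
  have hs : l * (y - E.toAffine.negY x y) =
      3 * x ^ 2 + 2 * E.a₂ * x + E.a₄ - E.a₁ * y := by
    rw [hl, Affine.slope_of_Y_ne rfl hy]; exact div_mul_cancel₀ _ hd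
  have heq := (E.toAffine.equation_iff x y).1 h.left
  simp only [Affine.addX] at hx
  simp only [Affine.negY] at hs
  set X := 36 * x + 3 * E.b₂ with hX
  set Y := 108 * (2 * y + E.a₁ * x + E.a₃) with hY
  set L := 3 * (2 * l + E.a₁) with hL
  have eY : Y ^ 2 = X ^ 3 - 27 * E.c₄ * X - 54 * E.c₆ := by
    simp only [hX, hY, c₄, c₆, b₂, b₄, b₆]
    linear_combination 46656 * heq
  have eL : 2 * L * Y = 3 * X ^ 2 - 27 * E.c₄ := by
    simp only [hX, hY, hL, c₄, b₂, b₄]
    linear_combination 1296 * hs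
  have eX : L ^ 2 = 3 * X := by
    simp only [hX, hL, b₂]
    linear_combination 36 * hx
  have key : 12 * X * (X ^ 3 - 27 * E.c₄ * X - 54 * E.c₆) - (3 * X ^ 2 - 27 * E.c₄) ^ 2 = 0 := by
    rw [← eY, ← eL]; linear_combination -4 * Y ^ 2 * eX
  have hXU : X = 3 * (12 * x + E.b₂) := by rw [hX]; ring
  rw [hXU] at key
  have : (243 : K) * quartic E.c₄ E.c₆ (12 * x + E.b₂) = 0 := by
    rw [quartic]; linear_combination key
  simpa using this

end field

/-- If the quartic has no integral root, the mod 3 representation is irreducible. -/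
theorem modRepIsIrreducible_three (W : WeierstrassCurve ℤ) (hΔ : W.Δ ≠ 0)
    (h : ∀ U : ℤ, quartic W.c₄ W.c₆ U ≠ 0) : W.ModRepIsIrreducible 3 := by
  classical
  set E := W.map (Int.castRingHom ℚ) with hE
  have : E.IsElliptic :=
    ⟨by rw [hE, map_Δ]; exact (Int.cast_ne_zero.2 hΔ : (W.Δ : ℚ) ≠ 0).isUnit⟩
  have : Fact (Nat.Prime 3) := ⟨by norm_num⟩
  have h3K : ((3 : ℕ) : AlgebraicClosure ℚ) ≠ 0 := Nat.cast_ne_zero.2 (by norm_num)
  refine ⟨EC.nontrivial_torsionBy E 3 h3K, fun N hN => ?_⟩
  by_contra hcon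
  rw [not_or] at hcon
  obtain ⟨hbot, htop⟩ := hcon
  obtain ⟨P, hPN, hP0⟩ := (Submodule.ne_bot_iff _).1 hbot
  have := EC.finite_torsionBy (K := AlgebraicClosure ℚ) E 3 h3K
  have hfr : Module.finrank (ZMod 3) N = 1 := by
    have h1 := EC.finrank_torsionBy (K := AlgebraicClosure ℚ) E 3 h3K
    have h2 : Module.finrank (ZMod 3) N < 2 := h1 ▸ Submodule.finrank_lt htop
    have h3 : 0 < Module.finrank (ZMod 3) N := Submodule.one_le_finrank_iff.2 hbot
    omega
  have hspan : ∀ Q ∈ N, ∃ c : ZMod 3, c • P = Q := fun Q hQ => by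
    obtain ⟨c, hc⟩ := (finrank_eq_one_iff_of_nonzero' (⟨P, hPN⟩ : N)
      (fun e => hP0 (congrArg Subtype.val e))).1 hfr ⟨Q, hQ⟩
    exact ⟨c, congrArg Subtype.val hc⟩
  obtain ⟨P, hP⟩ := P
  have hP' : 3 • P = 0 := by rwa [Submodule.mem_torsionBy_iff, natCast_zsmul] at hP
  cases P with
  | zero => exact hP0 (Subtype.ext rfl)
  | some x y hxy =>
    have hfix : ∀ σ : AlgebraicClosure ℚ ≃ₐ[ℚ] AlgebraicClosure ℚ, σ x = x := by
      intro σ
      obtain ⟨c, hc⟩ := hspan _ (hN σ _ hPN)
      rw [← ZMod.natCast_zmod_val c, Nat.cast_smul_eq_nsmul] at hc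
      have hc' : c.val • (Affine.Point.some x y hxy) = σ • (Affine.Point.some x y hxy) :=
        congrArg Subtype.val hc
      rw [Affine.Point.algEquiv_smul_def, Affine.Point.map_some] at hc'
      have hlt := ZMod.val_lt c
      interval_cases hv : c.val
      · rw [zero_nsmul] at hc'
        exact absurd hc'.symm (Affine.Point.some_ne_zero _)
      · rw [one_nsmul] at hc'
        simp only [Affine.Point.some.injEq] at hc'
        exact hc'.1.symm
      · have : (2 : ℕ) • Affine.Point.some x y hxy = -Affine.Point.some x y hxy := by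
          rw [eq_neg_iff_add_eq_zero, ← succ_nsmul]; exact hP'
        rw [this, Affine.Point.neg_some] at hc'
        simp only [Affine.Point.some.injEq] at hc'
        exact hc'.1.symm
    have : Algebra.IsAlgebraic ℚ (AlgebraicClosure ℚ) := AlgebraicClosure.isAlgebraic ℚ
    have : IsAlgClosure ℚ (AlgebraicClosure ℚ) := ⟨inferInstance, inferInstance⟩
    have : Normal ℚ (AlgebraicClosure ℚ) := IsAlgClosure.normal ℚ _
    have : IsGalois ℚ (AlgebraicClosure ℚ) :=
      { to_isSeparable := Algebra.IsAlgebraic.isSeparable_of_perfectField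
        to_normal := inferInstance }
    obtain ⟨q, hq⟩ := (InfiniteGalois.mem_range_algebraMap_iff_fixed x).2 hfix
    have h4 := quartic_of_three_torsion hxy hP'
    have hroot : quartic (W.c₄ : ℚ) (W.c₆ : ℚ) (12 * q + (W.b₂ : ℚ)) = 0 := by
      refine (algebraMap ℚ (AlgebraicClosure ℚ)).injective ?_
      rw [map_zero, ← h4]
      simp [quartic, ← hq, baseChange]
    have hint : _root_.IsIntegral ℤ (12 * q + (W.b₂ : ℚ)) := by
      refine ⟨Polynomial.X ^ 4 - Polynomial.C (6 * W.c₄) * Polynomial.X ^ 2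
        - Polynomial.C (8 * W.c₆) * Polynomial.X - Polynomial.C (3 * W.c₄ ^ 2), ?_, ?_⟩
      · monicity!
      · rw [quartic] at hroot
        simp only [Polynomial.eval₂_sub, Polynomial.eval₂_mul, Polynomial.eval₂_pow,
          Polynomial.eval₂_C, Polynomial.eval₂_X, algebraMap_int_eq, Int.coe_castRingHom]
        push_cast
        linear_combination hroot
    obtain ⟨U, hU⟩ := IsIntegrallyClosed.isIntegral_iff.1 hint
    rw [← hU, eq_intCast] at hroot
    refine h U ?_
    have : ((quartic W.c₄ W.c₆ U : ℤ) : ℚ) = 0 := by rw [← hroot]; simp [quartic]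
    exact_mod_cast this

end Fermat.Agent.Switch
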