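import Fermat.Agent.Switch.Line
import Fermat.Agent.Switch.ThreeTorsion

/-!
A semistable member of the Rubin–Silverberg line with irreducible mod 3 representation.
-/

open Polynomial Filter Topology

namespace Fermat.Agent.Switch

/-- Change `a₄` and `a₆`. -/
def shiftCurve (W : WeierstrassCurve ℤ) (d₄ d₆ : ℤ) : WeierstrassCurve ℤ :=
  ⟨W.a₁, W.a₂, W.a₃, W.a₄ + d₄, W.a₆ + d₆⟩

theorem exists_curve_of_invariants (W : WeierstrassCurve ℤ) {z₄ z₆ : ℤ}
    (h₄ : (864 * 48 : ℤ) ∣ z₄ - W.c₄) (h₆ : (864 * 48 : ℤ) ∣ z₆ - W.c₆) :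
    ∃ W' : WeierstrassCurve ℤ, W'.c₄ = z₄ ∧ W'.c₆ = z₆ := by
  obtain ⟨x, hx⟩ := h₄
  obtain ⟨y, hy⟩ := h₆
  refine ⟨shiftCurve W (-(864 * x)) (-(72 * W.b₂ * x) - 48 * y), ?_, ?_⟩
  · simp only [shiftCurve, WeierstrassCurve.c₄, WeierstrassCurve.b₂, WeierstrassCurve.b₄] at hx ⊢
    linear_combination -hx
  · simp only [shiftCurve, WeierstrassCurve.c₆, WeierstrassCurve.b₂, WeierstrassCurve.b₄,
      WeierstrassCurve.b₆] at hy ⊢
    linear_combination -hy

section line

variable {K : Type*} [Field K] [CharZero K] [IsAlgClosed K] {u v : K}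

/-- Rational binary forms giving `gH`, `gF / gF u v` and `gT` along the line through `(u, v)`, with
`gF u v ≠ 0`. -/
structure LineData (u v : K) (a b c : ℕ → ℚ) : Prop where
  hf : gF u v ≠ 0
  hb0 : b 0 = 1
  hH : ∀ r s : K, gH (lineX u v r s) (lineY u v r s) = homForm 20 (fun i => (a i : K)) r s
  hF : ∀ r s : K,
    gF (lineX u v r s) (lineY u v r s) = gF u v * homForm 12 (fun i => (b i : K)) r s
  hT : ∀ r s : K, gT (lineX u v r s) (lineY u v r s) = homForm 30 (fun i => (c i : K)) r s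

variable {a b c : ℕ → ℚ}

theorem isCoprime_of_no_root {p q : ℚ[X]} (h : ∀ x : K, aeval x p ≠ 0 ∨ aeval x q ≠ 0) :
    IsCoprime p q :=
  (isCoprime_map (algebraMap ℚ K)).1
    ((Polynomial.isCoprime_iff_aeval_ne_zero_of_isAlgClosed K K _ _).2 fun x => by
      simpa [aeval_def, eval₂_map] using h x)

omit [IsAlgClosed K] in
theorem cast_homForm (n : ℕ) (a : ℕ → ℚ) (r s : ℚ) :
    ((homForm n a r s : ℚ) : K) = homForm n (fun i => (a i : K)) (r : K) (s : K) := by
  show Rat.castHom K (homForm n a r s) = _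
  rw [map_homForm]
  simp

omit [IsAlgClosed K] in
/-- The forms of degree `20` and `12` have no common zero on the line. -/
theorem homForm_twelve_ne_zero (D : LineData u v a b c) {r s : K} (h : r ≠ 0 ∨ s ≠ 0)
    (h1 : homForm 20 (fun i => (a i : K)) r s = 0) :
    homForm 12 (fun i => (b i : K)) r s ≠ 0 := by
  intro h2
  have e1 := D.hH r s
  have e2 := D.hF r s
  rw [h1] at e1
  rw [h2, mul_zero] at e2
  obtain ⟨hx, hy⟩ := eq_zero_of_gF_gH e2 e1
  rcases line_ne_zero D.hf h with h' | h'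
  exacts [h' hx, h' hy]

theorem isCoprime_dehom (D : LineData u v a b c) : IsCoprime (dehom 20 a) (dehom 12 b) := by
  refine isCoprime_of_no_root (K := K) ?_
  intro x
  have e : ∀ (n : ℕ) (g : ℕ → ℚ),
      aeval x (dehom n g) = homForm n (fun i => (g i : K)) x 1 := fun n g => by
    simp [aeval_def, ← eval_map, map_dehom, eval_dehom]
  rw [e, e]
  by_cases h : homForm 20 (fun i => (a i : K)) x 1 = 0
  · exact Or.inr (homForm_twelve_ne_zero D (Or.inr one_ne_zero) h)
  · exact Or.inl h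

omit [IsAlgClosed K] in
theorem lead_ne_zero (D : LineData u v a b c) : a 20 ≠ 0 ∨ b 12 ≠ 0 := by
  by_contra h
  simp only [not_or, not_not] at h
  refine homForm_twelve_ne_zero D (r := (1 : K)) (s := 0) (Or.inl one_ne_zero) ?_ ?_ <;>
    simp [homForm_zero, h.1, h.2]

omit [IsAlgClosed K] [CharZero K] in
/-- Some integral slope avoids the zeros of the form `gF` on the line. -/
theorem exists_good_slope (D : LineData u v a b c) : ∃ k : ℕ, homForm 12 b 1 (k : ℚ) ≠ 0 := by
  set P : ℚ[X] := homForm 12 (fun i => Polynomial.C (b i)) 1 Polynomial.X with hP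
  have hev : ∀ x : ℚ, P.eval x = homForm 12 b 1 x := fun x => by
    rw [hP, ← coe_evalRingHom, map_homForm]; simp
  have hP0 : P ≠ 0 := by
    intro h0
    have hz : dehom 12 b = 0 := by
      refine eq_zero_of_infinite_isRoot _ ((Set.finite_singleton (0 : ℚ)).infinite_compl.mono ?_)
      intro t (ht : t ≠ 0)
      show (dehom 12 b).eval t = 0
      rw [eval_dehom, show homForm 12 b t 1 = homForm 12 b (t * 1) (t * t⁻¹) by
          rw [mul_one, mul_inv_cancel₀ ht],
        homForm_scale, ← hev, h0, eval_zero, mul_zero]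
    have h1 := congrArg (Polynomial.eval (0 : ℚ)) hz
    rw [eval_dehom, eval_zero] at h1
    have h2 : homForm 12 b (0 : ℚ) 1 = b 0 := by simp [homForm, Finset.sum_range_succ]
    rw [h2, D.hb0] at h1
    exact one_ne_zero h1
  obtain ⟨k, hk⟩ := exists_natCast_ne_root hP0
  exact ⟨k, hev _ ▸ hk⟩

theorem homForm_slope {R : Type*} [CommRing R] (n : ℕ) (b : ℕ → R) (N k : R) :
    homForm n b N (k * N) = N ^ n * homForm n b 1 k := by
  rw [← homForm_scale, mul_one, mul_comm N k]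

/-- The coefficient polynomials along `t ↦ (N t, 1 + k N t)`. -/
noncomputable def pathPoly (n : ℕ) (g : ℕ → ℚ) (N k : ℚ) : ℚ[X] :=
  homForm n (fun i => Polynomial.C (g i)) (Polynomial.C N * Polynomial.X)
    (1 + Polynomial.C (k * N) * Polynomial.X)

omit [IsAlgClosed K] in
theorem aeval_pathPoly (n : ℕ) (g : ℕ → ℚ) (N k : ℚ) (x : K) :
    aeval x (pathPoly n g N k) =
      homForm n (fun i => (g i : K)) ((N : K) * x) (1 + (k : K) * N * x) := by
  rw [pathPoly, ← AlgHom.coe_toRingHom, map_homForm]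
  simp

theorem eval_map_pathPoly (n : ℕ) (g : ℕ → ℚ) (N k : ℚ) (x : ℝ) :
    ((pathPoly n g N k).map (Rat.castHom ℝ)).eval x =
      homForm n (fun i => (g i : ℝ)) ((N : ℝ) * x) (1 + (k : ℝ) * N * x) := by
  rw [← coe_evalRingHom, ← coe_mapRingHom, pathPoly, map_homForm, map_homForm]
  simp

theorem natDegree_pathPoly_le (n : ℕ) (g : ℕ → ℚ) (N k : ℚ) :
    (pathPoly n g N k).natDegree ≤ n := by
  rw [pathPoly, homForm]
  refine natDegree_sum_le_of_forall_le _ _ fun i hi => ?_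
  have hi : i ≤ n := Nat.lt_succ_iff.1 (Finset.mem_range.1 hi)
  refine natDegree_mul_le.trans ?_
  have h1 : ((Polynomial.C (g i)) * (Polynomial.C N * Polynomial.X) ^ i).natDegree ≤ i := by
    refine (natDegree_C_mul_le _ _).trans (natDegree_pow_le.trans ?_)
    exact (Nat.mul_le_mul_left i ((natDegree_C_mul_le _ _).trans natDegree_X_le)).trans
      (Nat.mul_one i).le
  have h2 : ((1 + Polynomial.C (k * N) * Polynomial.X) ^ (n - i)).natDegree ≤ n - i := by
    refine natDegree_pow_le.trans ((Nat.mul_le_mul_left _ ?_).trans (Nat.mul_one _).le)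
    compute_degree
  omega

theorem coeff_pathPoly (n : ℕ) (g : ℕ → ℚ) (N k : ℚ) :
    (pathPoly n g N k).coeff n = homForm n g N (k * N) := by
  rw [pathPoly, homForm, homForm, finsetSum_coeff]
  refine Finset.sum_congr rfl fun i hi => ?_
  have hi : i ≤ n := Nat.lt_succ_iff.1 (Finset.mem_range.1 hi)
  have e : Polynomial.C (g i) * (Polynomial.C N * Polynomial.X) ^ i *
      (1 + Polynomial.C (k * N) * Polynomial.X) ^ (n - i) =
    Polynomial.C (g i * N ^ i) * ((1 + Polynomial.C (k * N) * Polynomial.X) ^ (n - i) *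
      Polynomial.X ^ i) := by
    simp only [map_mul, map_pow, mul_pow]; ring
  rw [e, coeff_C_mul, coeff_mul_X_pow', if_pos hi]
  have h1 : (1 + Polynomial.C (k * N) * Polynomial.X).natDegree ≤ 1 := by compute_degree
  have h2 := coeff_pow_of_natDegree_le (m := n - i) h1
  rw [mul_one] at h2
  rw [h2]
  simp [coeff_one]

/-- The restriction of `gF` to the path is separable. -/
theorem separable_pathPoly (D : LineData u v a b c) {N k : ℚ} (hN : N ≠ 0) :
    (pathPoly 12 b N k).Separable := by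
  set Q := pathPoly 12 b N k with hQ
  rw [separable_def]
  refine isCoprime_of_no_root (K := K) ?_
  intro x
  by_contra hcon
  simp only [not_or, not_not] at hcon
  obtain ⟨h0, h1⟩ := hcon
  set d₁ : K := (k : K) * N * u + (N : K) * gFv u v with hd₁
  set d₂ : K := (k : K) * N * v + (N : K) * -gFu u v with hd₂
  set U : K[X] := Polynomial.C u + Polynomial.X * Polynomial.C d₁ with hU
  set V : K[X] := Polynomial.C v + Polynomial.X * Polynomial.C d₂ with hV
  have hUx : ∀ y : K, U.eval y = lineX u v ((N : K) * y) (1 + (k : K) * N * y) := fun y => by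
    simp only [hU, hd₁, lineX, eval_add, eval_mul, eval_C, eval_X]; ring
  have hVx : ∀ y : K, V.eval y = lineY u v ((N : K) * y) (1 + (k : K) * N * y) := fun y => by
    simp only [hV, hd₂, lineY, eval_add, eval_mul, eval_C, eval_X]; ring
  have hpoly : gF U V = Polynomial.C (gF u v) * Q.map (algebraMap ℚ K) := by
    refine Polynomial.funext fun y => ?_
    rw [← coe_evalRingHom, map_gF, coe_evalRingHom, hUx, hVx, D.hF, eval_mul, eval_C,
      eval_map_algebraMap, hQ, aeval_pathPoly]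
  have hder := congrArg (fun p => (derivative p).eval x) hpoly
  have e1 : derivative (gF U V) = gFu U V * Polynomial.C d₁ + gFv U V * Polynomial.C d₂ := by
    have := der_gF ((Polynomial.derivative' (R := K)).restrictScalars ℚ) U V
    simpa [hU, hV] using this
  simp only [e1, derivative_C_mul, derivative_map, eval_mul, eval_C, eval_add,
    eval_map_algebraMap, h1, mul_zero, ← coe_evalRingHom, map_gFu, map_gFv] at hder
  simp only [coe_evalRingHom] at hder
  have hval := congrArg (Polynomial.eval x) hpoly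
  rw [← coe_evalRingHom, map_gF, coe_evalRingHom, eval_mul, eval_C, eval_map_algebraMap, h0,
    mul_zero] at hval
  set X₁ := U.eval x with hX₁
  set X₂ := V.eval x with hX₂
  have heul := gF_euler X₁ X₂
  rw [hval, mul_zero] at heul
  have hdet : X₁ * d₂ - X₂ * d₁ = -(12 : K) * N * gF u v := by
    simp only [hX₁, hX₂, hU, hV, hd₁, hd₂, eval_add, eval_mul, eval_C, eval_X]
    linear_combination (-(N : K)) * gF_euler u v
  have hne : -(12 : K) * N * gF u v ≠ 0 :=
    mul_ne_zero (mul_ne_zero (by norm_num) (Rat.cast_ne_zero.2 hN)) D.hf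
  have hu0 : gFu X₁ X₂ = 0 := by
    have : gFu X₁ X₂ * (X₁ * d₂ - X₂ * d₁) = 0 := by linear_combination d₂ * heul - X₂ * hder
    rw [hdet] at this
    exact (mul_eq_zero.1 this).resolve_right hne
  have hv0 : gFv X₁ X₂ = 0 := by
    have : gFv X₁ X₂ * (X₁ * d₂ - X₂ * d₁) = 0 := by linear_combination X₁ * hder - d₁ * heul
    rw [hdet] at this
    exact (mul_eq_zero.1 this).resolve_right hne
  obtain ⟨e2, e3⟩ := eq_zero_of_grad hu0 hv0
  rw [e2, e3] at hdet
  simp only [zero_mul, sub_zero] at hdet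
  exact hne hdet.symm

theorem isCoprime_pathPoly (D : LineData u v a b c) (N k : ℚ) :
    IsCoprime (pathPoly 20 a N k) (pathPoly 12 b N k) := by
  refine isCoprime_of_no_root (K := K) ?_
  intro x
  rw [aeval_pathPoly, aeval_pathPoly]
  by_cases h : homForm 20 (fun i => (a i : K)) ((N : K) * x) (1 + (k : K) * N * x) = 0
  · refine Or.inr (homForm_twelve_ne_zero D ?_ h)
    by_cases hr : (N : K) * x = 0
    · exact Or.inr (by rw [mul_assoc, hr, mul_zero, add_zero]; exact one_ne_zero)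
    · exact Or.inl hr
  · exact Or.inl h

omit [IsAlgClosed K] in
theorem homForm_relation (D : LineData u v a b c) {δ : ℚ}
    (hδ : gH u v ^ 3 - gT u v ^ 2 = 1728 * (δ : K)) (r s : ℚ) :
    homForm 20 a r s ^ 3 - homForm 30 c r s ^ 2 = 1728 * δ * homForm 12 b r s ^ 5 := by
  apply (Rat.cast_injective : Function.Injective ((↑) : ℚ → K))
  push_cast
  rw [cast_homForm, cast_homForm, cast_homForm, ← D.hH, ← D.hT, gH_cube_sub_gT_sq, D.hF]
  rw [gH_cube_sub_gT_sq] at hδ
  have h : gF u v ^ 5 = (δ : K) := mul_left_cancel₀ (by norm_num) hδ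
  rw [← h]; ring

/-- The quartic resolvent cannot have an integral root at all large parameters. -/
theorem not_eventually_root (D : LineData u v a b c) {δ : ℚ} (hδ0 : δ ≠ 0)
    (hδ : gH u v ^ 3 - gT u v ^ 2 = 1728 * (δ : K)) {N k : ℚ} (hN : N ≠ 0)
    (hk : homForm 12 b 1 k ≠ 0) :
    ¬ ∀ᶠ m : ℕ in atTop, ∃ U : ℤ, quartic (homForm 20 a (N * m) (1 + k * N * m))
      (homForm 30 c (N * m) (1 + k * N * m)) (U : ℚ) = 0 := by
  intro hroots
  -- the reversed polynomials in `z = 1 / m`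
  let rev : ℕ → (ℕ → ℚ) → ℝ[X] := fun n g =>
    homForm n (fun i => Polynomial.C (g i : ℝ)) (Polynomial.C (N : ℝ))
      (Polynomial.C ((k : ℝ) * N) + Polynomial.X)
  have hrev : ∀ (n : ℕ) (g : ℕ → ℚ) (z : ℝ),
      (rev n g).eval z = homForm n (fun i => (g i : ℝ)) (N : ℝ) ((k : ℝ) * N + z) := fun n g z => by
    simp only [rev, ← coe_evalRingHom, map_homForm]; simp
  have hcast : ∀ (n : ℕ) (g : ℕ → ℚ) (r s : ℚ),
      ((homForm n g r s : ℚ) : ℝ) = homForm n (fun i => (g i : ℝ)) (r : ℝ) (s : ℝ) := by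
    intro n g r s
    show Rat.castHom ℝ (homForm n g r s) = _
    rw [map_homForm]; simp
  have hscale : ∀ (n : ℕ) (g : ℕ → ℚ) (t : ℝ), t ≠ 0 →
      homForm n (fun i => (g i : ℝ)) ((N : ℝ) * t) (1 + (k : ℝ) * N * t) =
        t ^ n * (rev n g).eval t⁻¹ := fun n g t ht => by
    rw [hrev, ← homForm_scale]; congr 1 <;> field_simp; ring
  have hdisc : (rev 20 a).eval 0 ^ 3 ≠ (rev 30 c).eval 0 ^ 2 := by
    intro e
    rw [hrev, hrev, add_zero, ← Rat.cast_mul, ← hcast, ← hcast] at e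
    have e' : homForm 20 a N (k * N) ^ 3 = homForm 30 c N (k * N) ^ 2 := by exact_mod_cast e
    have h := homForm_relation D hδ N (k * N)
    rw [e', sub_self, homForm_slope] at h
    simp [hδ0, hN, hk] at h
  obtain ⟨P, hP, hPev⟩ := exists_polynomial_root 10 (rev 20 a) (rev 30 c) hdisc (by
    filter_upwards [hroots, eventually_ge_atTop 1] with m ⟨U, hU⟩ hm
    refine ⟨U, ?_⟩
    have hm0 : (m : ℝ) ≠ 0 := by positivity
    have hU' := congrArg (fun q : ℚ => (q : ℝ)) hU
    simp only [quartic, Rat.cast_sub, Rat.cast_mul, Rat.cast_pow, Rat.cast_ofNat, Rat.cast_zero,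
      Rat.cast_intCast, hcast, Rat.cast_add, Rat.cast_one, Rat.cast_natCast,
      hscale _ _ _ hm0] at hU'
    simp only [quartic]
    field_simp
    simp only [one_div] at *
    linear_combination hU')
  set φ := Rat.castHom ℝ with hφ
  set Ct := (pathPoly 20 a N k).map φ with hCt
  set Dt := (pathPoly 30 c N k).map φ with hDt
  set Qt := (pathPoly 12 b N k).map φ with hQt
  have hev : ∀ (n : ℕ) (g : ℕ → ℚ) (t : ℝ), t ≠ 0 →
      ((pathPoly n g N k).map φ).eval t = t ^ n * (rev n g).eval t⁻¹ := fun n g t ht => by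
    rw [hφ, eval_map_pathPoly, hscale n g t ht]
  have hrootP : quartic Ct Dt P = 0 := by
    obtain ⟨T, hT⟩ := eventually_atTop.1 (hPev.and (eventually_gt_atTop 0))
    refine Polynomial.eq_zero_of_infinite_isRoot _ ((Set.Ici_infinite T).mono fun t ht => ?_)
    obtain ⟨h1, h2⟩ := hT t ht
    show (quartic Ct Dt P).eval t = 0
    simp only [quartic, eval_sub, eval_mul, eval_pow, eval_ofNat, hCt, hDt, hev _ _ t h2.ne']
    simp only [quartic] at h1
    field_simp at h1
    simp only [one_div] at *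
    linear_combination h1
  have hrel : Ct ^ 3 - Dt ^ 2 = Polynomial.C ((1728 * δ : ℚ) : ℝ) * Qt ^ 5 := by
    have h : pathPoly 20 a N k ^ 3 - pathPoly 30 c N k ^ 2 =
        Polynomial.C (1728 * δ) * pathPoly 12 b N k ^ 5 := by
      refine Polynomial.funext fun x => ?_
      simp only [eval_sub, eval_pow, eval_mul, eval_C]
      have e : ∀ (n : ℕ) (g : ℕ → ℚ),
          (pathPoly n g N k).eval x = homForm n g (N * x) (1 + k * N * x) := fun n g => by
        rw [pathPoly, ← coe_evalRingHom, map_homForm]; simp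
      rw [e, e, e, homForm_relation D hδ]
    have h' := congrArg (Polynomial.map φ) h
    simpa [hCt, hDt, hQt, hφ, Polynomial.map_sub, Polynomial.map_mul, Polynomial.map_pow] using h'
  refine quartic_ne_zero_of_coprime (Rat.cast_ne_zero.2 (mul_ne_zero (by norm_num) hδ0)) hrel
    ((isCoprime_pathPoly D N k).map (mapRingHom φ)) ((separable_pathPoly D hN).map) ?_
    (natDegree_map_le.trans (natDegree_pathPoly_le _ _ _ _)) hP hrootP
  rw [hQt, natDegree_map]
  refine le_antisymm (natDegree_pathPoly_le _ _ _ _) (le_natDegree_of_ne_zero ?_)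
  rw [coeff_pathPoly, homForm_slope]
  exact mul_ne_zero (pow_ne_zero _ hN) hk

omit [IsAlgClosed K] in
/-- `gF` does not vanish at a point of the line where its form does not. -/
theorem gF_line_ne_zero (D : LineData u v a b c) {r s : ℚ} (h : homForm 12 b r s ≠ 0) :
    gF (lineX u v (r : K) s) (lineY u v (r : K) s) ≠ 0 := by
  rw [D.hF, ← cast_homForm]
  exact mul_ne_zero D.hf (Rat.cast_ne_zero.2 h)

/-- At large parameters on a good slope the discriminant does not vanish. -/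
theorem eventually_homForm_ne_zero {n : ℕ} {b : ℕ → ℚ} {N k : ℚ} (hN : N ≠ 0)
    (hk : homForm n b 1 k ≠ 0) :
    ∀ᶠ m : ℕ in atTop, homForm n b (N * m) (1 + k * N * m) ≠ 0 := by
  have hP : pathPoly n b N k ≠ 0 := by
    intro h0
    have := coeff_pathPoly n b N k
    rw [h0, coeff_zero, homForm_slope] at this
    exact mul_ne_zero (pow_ne_zero _ hN) hk this.symm
  have hfin := (Polynomial.finite_setOfPred_isRoot hP).preimage
    (Nat.cast_injective (R := ℚ)).injOn
  rw [← Nat.cofinite_eq_atTop]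
  filter_upwards [hfin.compl_mem_cofinite] with m hm
  intro e
  refine hm ?_
  show (pathPoly n b N k).eval (m : ℚ) = 0
  rw [pathPoly, ← coe_evalRingHom, map_homForm]
  simpa using e

/-- A prime dividing two forms at a primitive point divides the resultant or both leading
coefficients. -/
theorem dvd_or_dvd_of_dvd_homForm {p : ℕ} [Fact p.Prime] {A B : ℕ → ℤ} {i j : ℕ} {N₁ : ℤ}
    {UA VB : ℤ[X]} (hbez : UA * dehom i A + VB * dehom j B = Polynomial.C N₁) {x y : ℤ}
    (hxy : (x : ZMod p) ≠ 0 ∨ (y : ZMod p) ≠ 0)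
    (hA : (p : ℤ) ∣ homForm i A x y) (hB : (p : ℤ) ∣ homForm j B x y) :
    (p : ℤ) ∣ N₁ ∨ ((p : ℤ) ∣ A i ∧ (p : ℤ) ∣ B j) := by
  simp only [← ZMod.intCast_zmod_eq_zero_iff_dvd] at hA hB ⊢
  set r : ZMod p := (x : ZMod p)
  set s : ZMod p := (y : ZMod p)
  have red : ∀ (n : ℕ) (G : ℕ → ℤ), ((homForm n G x y : ℤ) : ZMod p) = 0 →
      homForm n (fun i => (G i : ZMod p)) r s = 0 := fun n G hG => by
    rw [← eq_intCast (Int.castRingHom (ZMod p)), map_homForm] at hG
    exact hG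
  have hA' := red i A hA
  have hB' := red j B hB
  by_cases hs0 : s = 0
  · have hr0 : r ≠ 0 := hxy.resolve_right (not_not.mpr hs0)
    rw [hs0, homForm_zero] at hA' hB'
    exact Or.inr ⟨(mul_eq_zero.1 hA').resolve_right (pow_ne_zero _ hr0),
      (mul_eq_zero.1 hB').resolve_right (pow_ne_zero _ hr0)⟩
  · have hdehom : ∀ (n : ℕ) (G : ℕ → ℤ), homForm n (fun i => (G i : ZMod p)) r s = 0 →
        ((dehom n G).map (Int.castRingHom (ZMod p))).eval (r / s) = 0 := fun n G hG => by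
      rw [map_dehom, eval_dehom]
      have e : homForm n (fun i => (G i : ZMod p)) r s =
          s ^ n * homForm n (fun i => (G i : ZMod p)) (r / s) 1 := by
        rw [← homForm_scale, mul_one, mul_div_cancel₀ r hs0]
      rw [e] at hG
      simpa [hs0] using hG
    have h := congrArg (fun q => (q.map (Int.castRingHom (ZMod p))).eval (r / s)) hbez
    simp only [Polynomial.map_add, Polynomial.map_mul, Polynomial.map_C, eval_add, eval_mul,
      hdehom i A hA', hdehom j B hB', mul_zero, add_zero, eval_C, Int.coe_castRingHom] at h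
    exact Or.inl h.symm

/-- Some rational point of the line is given by a semistable integral model with irreducible
mod 3 representation. -/
theorem exists_switch_curve (W : WeierstrassCurve ℤ) (hΔ : W.Δ ≠ 0) (hW : W.IsSemistableModel)
    (h4 : gH u v = (W.c₄ : K)) (h6 : gT u v = (W.c₆ : K)) (D : LineData u v a b c)
    (ha0 : a 0 = W.c₄) (hc0 : c 0 = W.c₆) :
    ∃ (W' : WeierstrassCurve ℤ) (r s : ℚ), W'.Δ ≠ 0 ∧ W'.IsSemistableModel ∧
      W'.ModRepIsIrreducible 3 ∧
      gF (lineX u v (r : K) s) (lineY u v (r : K) s) ≠ 0 ∧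
      (W'.c₄ : K) = gH (lineX u v (r : K) s) (lineY u v (r : K) s) ∧
      (W'.c₆ : K) = gT (lineX u v (r : K) s) (lineY u v (r : K) s) := by
  have hδ : gH u v ^ 3 - gT u v ^ 2 = 1728 * (((W.Δ : ℤ) : ℚ) : K) := by
    rw [h4, h6, Rat.cast_intCast]
    exact_mod_cast W.c_relation.symm
  have hrel := homForm_relation D hδ
  obtain ⟨k, hk⟩ := exists_good_slope D
  obtain ⟨La, hLa, hda⟩ := exists_common_den 20 a
  obtain ⟨Lb, hLb, hdb⟩ := exists_common_den 12 b
  obtain ⟨Lc, hLc, hdc⟩ := exists_common_den 30 c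
  set L : ℕ := La * Lb * Lc with hL
  have hLnat : L ≠ 0 := by positivity
  have hL0 : (L : ℤ) ≠ 0 := Int.natCast_ne_zero.2 hLnat
  obtain ⟨A, hA⟩ := exists_int_coeffs (L := L) fun i hi =>
    (hda i hi).trans ((dvd_mul_right La Lb).trans (dvd_mul_right _ Lc))
  obtain ⟨B, hB⟩ := exists_int_coeffs (L := L) fun i hi =>
    (hdb i hi).trans ((dvd_mul_left Lb La).trans (dvd_mul_right _ Lc))
  obtain ⟨C, hC⟩ := exists_int_coeffs (L := L) fun i hi =>
    (hdc i hi).trans (dvd_mul_left Lc (La * Lb))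
  have hdeh : ∀ (n : ℕ) (g : ℕ → ℚ) (G : ℕ → ℤ), (∀ i ≤ n, (G i : ℚ) = (L : ℤ) * g i) →
      (dehom n G).map (Int.castRingHom ℚ) = Polynomial.C ((L : ℤ) : ℚ) * dehom n g := by
    intro n g G hG
    rw [map_dehom, dehom, dehom, homForm, homForm, Finset.mul_sum]
    refine Finset.sum_congr rfl fun i hi => ?_
    simp only [eq_intCast, hG i (Nat.lt_succ_iff.1 (Finset.mem_range.1 hi)), map_mul]
    ring
  have hLu : IsUnit (Polynomial.C ((L : ℤ) : ℚ)) :=
    Polynomial.isUnit_C.2 (Ne.isUnit (Int.cast_ne_zero.2 hL0))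
  obtain ⟨N₁, hN₁, UA, VB, hbez⟩ := exists_int_bezout
    (P := dehom 20 A) (Q := dehom 12 B) (by
      rw [hdeh 20 a A hA, hdeh 12 b B hB]
      exact (isCoprime_mul_units_left hLu hLu _ _).2 (isCoprime_dehom D))
  obtain ⟨lead, hlead0, hlead⟩ : ∃ lead : ℤ, lead ≠ 0 ∧ (lead = A 20 ∨ lead = B 12) := by
    rcases lead_ne_zero D with h | h
    · refine ⟨A 20, fun e => h ?_, Or.inl rfl⟩
      have := hA 20 le_rfl; rw [e] at this; simpa [hL0, hLnat] using this.symm
    · refine ⟨B 12, fun e => h ?_, Or.inr rfl⟩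
      have := hB 12 le_rfl; rw [e] at this; simpa [hL0, hLnat] using this.symm
  set N₀ : ℤ := 864 * 48 * W.Δ * L * N₁ * lead with hN₀
  have hN₀0 : N₀ ≠ 0 :=
    mul_ne_zero (mul_ne_zero (mul_ne_zero (mul_ne_zero (by norm_num) hΔ) hL0) hN₁) hlead0
  set N : ℤ := (L : ℤ) * N₀ with hN
  have hN0 : N ≠ 0 := mul_ne_zero hL0 hN₀0
  have hmem : ∀ m : ℕ, ∃ z₄ z₆ zq : ℤ,
      (z₄ : ℚ) = homForm 20 a ((N : ℚ) * m) (1 + k * N * m) ∧ N₀ ∣ z₄ - W.c₄ ∧
      (z₆ : ℚ) = homForm 30 c ((N : ℚ) * m) (1 + k * N * m) ∧ N₀ ∣ z₆ - W.c₆ ∧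
      (zq : ℚ) = homForm 12 b ((N : ℚ) * m) (1 + k * N * m) ∧ N₀ ∣ zq - 1 ∧
      homForm 20 A (N * m) (1 + k * N * m) = L * z₄ ∧
      homForm 12 B (N * m) (1 + k * N * m) = L * zq := by
    intro m
    have hr : (L : ℤ) * N₀ ∣ N * m := dvd_mul_right _ _
    have hs : N₀ ∣ (1 + k * N * m : ℤ) - 1 := ⟨k * L * m, by rw [hN]; ring⟩
    obtain ⟨z₄, e4, d4, l4⟩ := exists_int_homForm hL0 hA ha0 hr hs
    obtain ⟨z₆, e6, d6, -⟩ := exists_int_homForm hL0 hC hc0 hr hs
    obtain ⟨zq, eq, dq, lq⟩ :=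
      exists_int_homForm hL0 hB (a₀ := (1 : ℤ)) (by rw [D.hb0, Int.cast_one]) hr hs
    push_cast at e4 e6 eq
    exact ⟨z₄, z₆, zq, e4, d4, e6, d6, eq, dq, l4, lq⟩
  -- eventually the discriminant is non-zero
  have hq : ∀ᶠ m : ℕ in atTop, homForm 12 b ((N : ℚ) * m) (1 + k * N * m) ≠ 0 :=
    eventually_homForm_ne_zero (Int.cast_ne_zero.2 hN0) hk
  obtain ⟨m, hmq, hmroot⟩ : ∃ m : ℕ, homForm 12 b ((N : ℚ) * m) (1 + k * N * m) ≠ 0 ∧
      ∀ U : ℤ, quartic (homForm 20 a ((N : ℚ) * m) (1 + k * N * m))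
        (homForm 30 c ((N : ℚ) * m) (1 + k * N * m)) (U : ℚ) ≠ 0 := by
    by_contra hcon
    simp only [not_exists, not_and, not_forall, not_not] at hcon
    exact not_eventually_root D (Int.cast_ne_zero.2 hΔ) hδ (N := (N : ℚ)) (k := (k : ℚ))
      (Int.cast_ne_zero.2 hN0) hk (hq.mono fun m hm => hcon m hm)
  obtain ⟨z₄, z₆, zq, e4, d4, e6, d6, eq, dq, l4, lq⟩ := hmem m
  have hdvd : (864 * 48 : ℤ) ∣ N₀ := ⟨W.Δ * L * N₁ * lead, by rw [hN₀]; ring⟩
  obtain ⟨W', hW4, hW6⟩ := exists_curve_of_invariants W (hdvd.trans d4) (hdvd.trans d6)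
  have hΔ' : W'.Δ = W.Δ * zq ^ 5 := by
    have h := hrel ((N : ℚ) * m) (1 + k * N * m)
    rw [← e4, ← e6, ← eq] at h
    have h' : z₄ ^ 3 - z₆ ^ 2 = 1728 * W.Δ * zq ^ 5 := by exact_mod_cast h
    have hc := W'.c_relation
    rw [hW4, hW6, h'] at hc
    exact mul_left_cancel₀ (by norm_num : (1728 : ℤ) ≠ 0) (hc.trans (mul_assoc _ _ _))
  have hzq : zq ≠ 0 := fun e => hmq (by rw [← eq, e, Int.cast_zero])
  have hΔ'0 : W'.Δ ≠ 0 := hΔ' ▸ mul_ne_zero hΔ (pow_ne_zero _ hzq)
  refine ⟨W', (N : ℚ) * m, 1 + k * N * m, hΔ'0, ?_, ?_, gF_line_ne_zero D hmq, ?_, ?_⟩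
  · -- semistability
    intro p hp hpΔ hpc
    rw [hW4] at hpc
    have : Fact p.Prime := ⟨hp⟩
    have hpp : Prime (p : ℤ) := Nat.prime_iff_prime_int.1 hp
    by_cases hpN : (p : ℤ) ∣ N₀
    · have h1 : (p : ℤ) ∣ W.c₄ := by
        have := dvd_sub hpc (hpN.trans d4); rwa [sub_sub_cancel] at this
      refine hW p hp ?_ h1
      rw [hΔ'] at hpΔ
      refine (hpp.dvd_or_dvd hpΔ).resolve_right fun h => ?_
      have h2 := dvd_sub (hpp.dvd_of_dvd_pow h) (hpN.trans dq)
      rw [sub_sub_cancel] at h2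
      exact hpp.not_isUnit (isUnit_of_dvd_one h2)
    · have hdiv : ∀ x : ℤ, x ∣ N₀ → (x : ZMod p) ≠ 0 := fun x hx e =>
        hpN (((ZMod.intCast_zmod_eq_zero_iff_dvd x p).1 e).trans hx)
      have hzq' : (p : ℤ) ∣ zq := by
        rw [hΔ'] at hpΔ
        exact hpp.dvd_of_dvd_pow ((hpp.dvd_or_dvd hpΔ).resolve_left fun h =>
          hpN (h.trans ⟨864 * 48 * L * N₁ * lead, by rw [hN₀]; ring⟩))
      have hprim : ((N * m : ℤ) : ZMod p) ≠ 0 ∨ ((1 + k * N * m : ℤ) : ZMod p) ≠ 0 := by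
        by_contra! h
        obtain ⟨h1, h2⟩ := h
        push_cast at h1 h2
        rw [mul_assoc, h1, mul_zero, add_zero] at h2
        exact one_ne_zero h2
      rcases dvd_or_dvd_of_dvd_homForm hbez hprim (l4 ▸ hpc.mul_left _) (lq ▸ hzq'.mul_left _)
        with h | ⟨h, h'⟩
      · exact hdiv N₁ ⟨864 * 48 * W.Δ * L * lead, by rw [hN₀]; ring⟩
          ((ZMod.intCast_zmod_eq_zero_iff_dvd _ p).2 h)
      · refine hdiv lead ⟨864 * 48 * W.Δ * L * N₁, by rw [hN₀]; ring⟩
          ((ZMod.intCast_zmod_eq_zero_iff_dvd _ p).2 ?_)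
        rcases hlead with e | e <;> rw [e] <;> assumption
  · refine modRepIsIrreducible_three W' hΔ'0 fun U hU => hmroot U ?_
    rw [← e4, ← e6, ← hW4, ← hW6]
    have : ((quartic W'.c₄ W'.c₆ U : ℤ) : ℚ) = 0 := by rw [hU, Int.cast_zero]
    simpa [quartic] using this
  · rw [hW4, D.hH, ← cast_homForm, ← e4, Rat.cast_intCast]
  · rw [hW6, D.hT, ← cast_homForm, ← e6, Rat.cast_intCast]

end line

end Fermat.Agent.Switch
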