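import Fermat.Agent.Switch.Torsion

/-!
Points of order five on a Weierstrass curve with `(c₄, c₆) = (gH, gT)(u, v)`, in the
coordinates `X = 36 x + 3 b₂`, `Y = 108 (2 y + a₁ x + a₃)`.
-/

open WeierstrassCurve

namespace Fermat.Agent.Switch

/-- Coordinates of a point and of its double. -/
structure Sec (R : Type*) where
  /-- abscissa -/
  X : R
  /-- ordinate -/
  Y : R
  /-- abscissa of the double -/
  Xd : R
  /-- ordinate of the double -/
  Yd : R

section ring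

variable {R : Type*} [CommRing R] {S : Type*} [CommRing S]

/-- Apply a ring homomorphism to a section. -/
def Sec.map (φ : R →+* S) (s : Sec R) : Sec S := ⟨φ s.X, φ s.Y, φ s.Xd, φ s.Yd⟩

/-- The rational section. -/
def secOne (u v : R) : Sec R := ⟨oneX u v, oneY u v, oneXd u v, oneYd u v⟩

/-- The section defined over `ℚ(e)`. -/
def secTwo (c e u v : R) : Sec R := ⟨twoX c e u v, twoY c e u v, twoXd c e u v, twoYd c e u v⟩

theorem map_secOne (φ : R →+* S) (u v : R) : (secOne u v).map φ = secOne (φ u) (φ v) := by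
  simp [Sec.map, secOne, map_oneX, map_oneY, map_oneXd, map_oneYd]

theorem map_secTwo (φ : R →+* S) (c e u v : R) :
    (secTwo c e u v).map φ = secTwo (φ c) (φ e) (φ u) (φ v) := by
  simp [Sec.map, secTwo, map_twoX, map_twoY, map_twoXd, map_twoYd]

/-- Abscissa of the `i`-th multiple. -/
def Sec.mulX (s : Sec R) : ℕ → R
  | 1 => s.X
  | 2 => s.Xd
  | 3 => s.Xd
  | 4 => s.X
  | _ => 0

/-- Ordinate of the `i`-th multiple. -/
def Sec.mulY (s : Sec R) : ℕ → R
  | 1 => s.Y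
  | 2 => s.Yd
  | 3 => -s.Yd
  | 4 => -s.Y
  | _ => 0

theorem Sec.map_mulX (φ : R →+* S) (s : Sec R) (i : ℕ) : φ (s.mulX i) = (s.map φ).mulX i := by
  unfold Sec.mulX; split <;> simp [Sec.map]

theorem Sec.map_mulY (φ : R →+* S) (s : Sec R) (i : ℕ) : φ (s.mulY i) = (s.map φ).mulY i := by
  unfold Sec.mulY; split <;> simp [Sec.map]

/-- Algebraic expressions that vanish iff `(AX, AY)` is `i` times `o` plus `j` times `t`. -/
def relVals (o t : Sec R) (i j : ℕ) (AX AY : R) : R × R :=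
  if i = 0 then
    if j = 0 then (1, 1) else (AX - t.mulX j, AY - t.mulY j)
  else
    if j = 0 then (AX - o.mulX i, AY - o.mulY i)
    else ((AX + o.mulX i + t.mulX j) * (t.mulX j - o.mulX i) ^ 2 - (t.mulY j - o.mulY i) ^ 2,
      (AY + o.mulY i) * (t.mulX j - o.mulX i) - (t.mulY j - o.mulY i) * (o.mulX i - AX))

/-- `(AX, AY)` is `i` times `o` plus `j` times `t`. -/
def Rel (o t : Sec R) (i j : ℕ) (AX AY : R) : Prop :=
  (relVals o t i j AX AY).1 = 0 ∧ (relVals o t i j AX AY).2 = 0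

/-- The values of the relations commute with ring homomorphisms. -/
theorem map_relVals (φ : R →+* S) (o t : Sec R) (i j : ℕ) (AX AY : R) :
    (φ (relVals o t i j AX AY).1, φ (relVals o t i j AX AY).2) =
      relVals (o.map φ) (t.map φ) i j (φ AX) (φ AY) := by
  unfold relVals
  split_ifs <;> simp [Sec.map_mulX, Sec.map_mulY]

end ring

section field

variable {K : Type*} [Field K]

/-- The affine abscissa attached to a short abscissa. -/
def toX (E : WeierstrassCurve K) (X : K) : K := (X - 3 * E.b₂) / 36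

/-- The affine ordinate attached to short coordinates. -/
def toY (E : WeierstrassCurve K) (X Y : K) : K := (Y / 108 - E.a₁ * toX E X - E.a₃) / 2

/-- `(X, Y)` lies on the short model of `E`. -/
def OnShort (E : WeierstrassCurve K) (X Y : K) : Prop :=
  Y ^ 2 = X ^ 3 - 27 * E.c₄ * X - 54 * E.c₆

theorem OnShort.neg {E : WeierstrassCurve K} {X Y : K} (h : OnShort E X Y) :
    OnShort E X (-Y) := by
  simpa [OnShort] using h

variable [CharZero K]

theorem toX_eq_iff {E : WeierstrassCurve K} {X X' : K} : toX E X = toX E X' ↔ X = X' := by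
  simp only [toX]
  constructor
  · intro h; field_simp at h; linear_combination h
  · rintro rfl; rfl

theorem toY_eq_iff {E : WeierstrassCurve K} {X Y Y' : K} :
    toY E X Y = toY E X Y' ↔ Y = Y' := by
  simp only [toY]
  constructor
  · intro h; field_simp at h; linear_combination h
  · rintro rfl; rfl

theorem negY_toY (E : WeierstrassCurve K) (X Y : K) :
    E.toAffine.negY (toX E X) (toY E X Y) = toY E X (-Y) := by
  simp only [Affine.negY, toY]; field_simp; ring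

theorem equation_of_onShort {E : WeierstrassCurve K} {X Y : K} (h : OnShort E X Y) :
    E.toAffine.Equation (toX E X) (toY E X Y) := by
  rw [Affine.equation_iff]
  simp only [OnShort, c₄, c₆, b₂, b₄, b₆] at h
  simp only [toX, toY, b₂]
  field_simp
  linear_combination 46656 * h

theorem nonsingular_of_onShort {E : WeierstrassCurve K} (hΔ : E.Δ ≠ 0) {X Y : K}
    (h : OnShort E X Y) : E.toAffine.Nonsingular (toX E X) (toY E X Y) :=
  (E.toAffine.equation_iff_nonsingular_of_Δ_ne_zero hΔ).1 (equation_of_onShort h)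

/-- The point with given short coordinates. -/
noncomputable def shortPoint {E : WeierstrassCurve K} (hΔ : E.Δ ≠ 0) (X Y : K) (h : OnShort E X Y) :
    E.toAffine.Point :=
  .some _ _ (nonsingular_of_onShort hΔ h)

theorem shortPoint_ne_zero {E : WeierstrassCurve K} (hΔ : E.Δ ≠ 0) {X Y : K} (h : OnShort E X Y) :
    shortPoint hΔ X Y h ≠ 0 :=
  Affine.Point.some_ne_zero _

theorem shortPoint_eq_iff {E : WeierstrassCurve K} (hΔ : E.Δ ≠ 0) {X Y X' Y' : K}
    (h : OnShort E X Y) (h' : OnShort E X' Y') :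
    shortPoint hΔ X Y h = shortPoint hΔ X' Y' h' ↔ X = X' ∧ Y = Y' := by
  constructor
  · intro e
    simp only [shortPoint, Affine.Point.some.injEq] at e
    obtain ⟨e1, e2⟩ := e
    have := toX_eq_iff.1 e1
    subst this
    exact ⟨rfl, toY_eq_iff.1 e2⟩
  · rintro ⟨rfl, rfl⟩; rfl

variable [DecidableEq K]

omit [DecidableEq K] in
theorem shortPoint_neg {E : WeierstrassCurve K} (hΔ : E.Δ ≠ 0) {X Y : K} (h : OnShort E X Y) :
    -shortPoint hΔ X Y h = shortPoint hΔ X (-Y) h.neg := by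
  simp only [shortPoint, Affine.Point.neg_some, negY_toY]

omit [DecidableEq K] in
theorem ordinate_ne_zero {E : WeierstrassCurve K} (hΔ : E.Δ ≠ 0) {X Y L : K} (h : OnShort E X Y)
    (hL : 2 * L * Y = 3 * X ^ 2 - 27 * E.c₄) : Y ≠ 0 := by
  rintro rfl
  refine hΔ ?_
  have h4 : E.c₄ = X ^ 2 / 9 := by field_simp; linear_combination hL / 3
  have h6 : E.c₆ = -X ^ 3 / 27 := by
    simp only [OnShort, h4] at h
    field_simp at h ⊢
    linear_combination h / 18
  have := E.c_relation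
  rw [h4, h6] at this
  have e : (1728 : K) * E.Δ = 0 := by rw [this]; ring
  simpa using e

/-- Doubling in short coordinates. -/
theorem shortPoint_double {E : WeierstrassCurve K} (hΔ : E.Δ ≠ 0) {X Y L X' Y' : K}
    (h : OnShort E X Y) (hL : 2 * L * Y = 3 * X ^ 2 - 27 * E.c₄) (hX' : X' = L ^ 2 - 2 * X)
    (hY' : Y' = L * (X - X') - Y) (h' : OnShort E X' Y') :
    shortPoint hΔ X Y h + shortPoint hΔ X Y h = shortPoint hΔ X' Y' h' := by
  have hY0 : Y ≠ 0 := ordinate_ne_zero hΔ h hL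
  have hy : toY E X Y ≠ E.toAffine.negY (toX E X) (toY E X Y) := by
    rw [negY_toY, ne_eq, toY_eq_iff]
    intro e; exact hY0 (by linear_combination e / 2)
  have hs : E.toAffine.slope (toX E X) (toX E X) (toY E X Y) (toY E X Y) =
      (L / 3 - E.a₁) / 2 := by
    have hd : toY E X Y - E.toAffine.negY (toX E X) (toY E X Y) = Y / 108 := by
      rw [negY_toY]; simp only [toY]; ring
    rw [Affine.slope_of_Y_ne rfl hy, hd, div_eq_iff (div_ne_zero hY0 (by norm_num))]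
    simp only [toX, toY, b₂]
    simp only [c₄, b₂, b₄] at hL
    field_simp
    linear_combination -648 * hL
  rw [shortPoint, Affine.Point.add_self_of_Y_ne hy]
  simp only [shortPoint, Affine.Point.some.injEq, Affine.addY, Affine.negAddY, Affine.addX, hs]
  subst hY' hX'
  simp only [Affine.negY, toX, toY, b₂]
  constructor <;> field_simp <;> ring

/-- Addition in short coordinates. -/
theorem shortPoint_add {E : WeierstrassCurve K} (hΔ : E.Δ ≠ 0) {X₁ Y₁ X₂ Y₂ X' Y' : K}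
    (h₁ : OnShort E X₁ Y₁) (h₂ : OnShort E X₂ Y₂) (h' : OnShort E X' Y') (hne : X₁ ≠ X₂) :
    shortPoint hΔ X₁ Y₁ h₁ + shortPoint hΔ X₂ Y₂ h₂ = shortPoint hΔ X' Y' h' ↔
      (X' + X₁ + X₂) * (X₂ - X₁) ^ 2 - (Y₂ - Y₁) ^ 2 = 0 ∧
        (Y' + Y₁) * (X₂ - X₁) - (Y₂ - Y₁) * (X₁ - X') = 0 := by
  have hd : X₂ - X₁ ≠ 0 := sub_ne_zero.2 (Ne.symm hne)
  have hx : toX E X₁ ≠ toX E X₂ := fun e => hne (toX_eq_iff.1 e)
  obtain ⟨L, hL⟩ : ∃ L, Y₂ - Y₁ = L * (X₂ - X₁) := ⟨_, (div_mul_cancel₀ _ hd).symm⟩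
  have hs : E.toAffine.slope (toX E X₁) (toX E X₂) (toY E X₁ Y₁) (toY E X₂ Y₂) =
      (L / 3 - E.a₁) / 2 := by
    rw [Affine.slope_of_X_ne hx, div_eq_iff (sub_ne_zero.2 hx)]
    simp only [toY, toX]
    field_simp
    linear_combination -108 * hL
  have e1 : E.toAffine.addX (toX E X₁) (toX E X₂) ((L / 3 - E.a₁) / 2) =
      toX E (L ^ 2 - X₁ - X₂) := by
    simp only [Affine.addX, toX, b₂]; field_simp; ring
  have e2 : E.toAffine.addY (toX E X₁) (toX E X₂) (toY E X₁ Y₁) ((L / 3 - E.a₁) / 2) =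
      toY E (L ^ 2 - X₁ - X₂) (L * (X₁ - (L ^ 2 - X₁ - X₂)) - Y₁) := by
    simp only [Affine.addY, Affine.negAddY, e1]
    simp only [Affine.negY, toY, toX, b₂]
    field_simp
    ring
  rw [shortPoint, shortPoint, Affine.Point.add_of_X_ne hx]
  simp only [shortPoint, Affine.Point.some.injEq, hs, e1, e2, toX_eq_iff]
  rw [hL]
  constructor
  · rintro ⟨rfl, e⟩
    have := toY_eq_iff.1 e
    subst this
    constructor <;> ring
  · rintro ⟨a, b⟩
    have hX' : L ^ 2 - X₁ - X₂ = X' := by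
      refine (mul_right_cancel₀ (pow_ne_zero 2 hd) ?_)
      linear_combination -a
    subst hX'
    refine ⟨rfl, toY_eq_iff.2 (mul_right_cancel₀ hd ?_)⟩
    linear_combination -b

/-- A section gives a point of order five on every curve with the given invariants. -/
def IsFive (E : WeierstrassCurve K) (s : Sec K) : Prop :=
  OnShort E s.X s.Y ∧ OnShort E s.Xd s.Yd ∧
    ∃ L Ld : K, 2 * L * s.Y = 3 * s.X ^ 2 - 27 * E.c₄ ∧ s.Xd = L ^ 2 - 2 * s.X ∧
      s.Yd = L * (s.X - s.Xd) - s.Y ∧ 2 * Ld * s.Yd = 3 * s.Xd ^ 2 - 27 * E.c₄ ∧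
      s.X = Ld ^ 2 - 2 * s.Xd ∧ -s.Y = Ld * (s.Xd - s.X) - s.Yd

omit [CharZero K] [DecidableEq K] in
theorem isFive_of_eqns {E : WeierstrassCurve K} {s : Sec K} {L Ld : K}
    (h1 : s.Y ^ 2 = s.X ^ 3 - 27 * E.c₄ * s.X - 54 * E.c₆)
    (h2 : 2 * L * s.Y = 3 * s.X ^ 2 - 27 * E.c₄) (h3 : s.Xd = L ^ 2 - 2 * s.X)
    (h4 : s.Yd = L * (s.X - s.Xd) - s.Y) (h5 : 2 * Ld * s.Yd = 3 * s.Xd ^ 2 - 27 * E.c₄)
    (h6 : s.X = Ld ^ 2 - 2 * s.Xd) (h7 : -s.Y = Ld * (s.Xd - s.X) - s.Yd) : IsFive E s := by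
  refine ⟨h1, ?_, L, Ld, h2, h3, h4, h5, h6, h7⟩
  rw [OnShort, h4, h3]
  linear_combination h1 - (3 * s.X - L ^ 2) * h2

omit [CharZero K] [DecidableEq K] in
/-- The first section consists of points of order five. -/
theorem isFive_secOne {E : WeierstrassCurve K} {u v : K} (h4 : E.c₄ = gH u v)
    (h6 : E.c₆ = gT u v) : IsFive E (secOne u v) :=
  isFive_of_eqns (L := oneL u v) (Ld := oneLd u v) (by rw [h4, h6]; exact one_eqn u v)
    (by rw [h4]; exact one_slope u v) (one_Xd u v) (one_Yd u v)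
    (by rw [h4]; exact one_slope_d u v) (one_Xdd u v) (one_Ydd u v)

omit [DecidableEq K] in
/-- The second section consists of points of order five. -/
theorem isFive_secTwo {E : WeierstrassCurve K} {e u v : K}
    (he : e ^ 4 + e ^ 3 + e ^ 2 + e + 1 = 0) (h4 : E.c₄ = gH u v) (h6 : E.c₆ = gT u v) :
    IsFive E (secTwo 5⁻¹ e u v) :=
  isFive_of_eqns (L := twoL 5⁻¹ e u v) (Ld := twoLd 5⁻¹ e u v)
    (by rw [h4, h6]; exact two_eqn he u v)
    (by rw [h4]; exact two_slope he u v) (two_Xd he u v) (two_Yd he u v)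
    (by rw [h4]; exact two_slope_d he u v) (two_Xdd he u v) (two_Ydd he u v)

variable {E : WeierstrassCurve K}

/-- The point of order five of a section. -/
noncomputable def secPt (hΔ : E.Δ ≠ 0) {s : Sec K} (hs : IsFive E s) : E.toAffine.Point :=
  shortPoint hΔ s.X s.Y hs.1

theorem two_nsmul_secPt (hΔ : E.Δ ≠ 0) {s : Sec K} (hs : IsFive E s) :
    2 • secPt hΔ hs = shortPoint hΔ s.Xd s.Yd hs.2.1 := by
  obtain ⟨L, Ld, h2, h3, h4, -⟩ := hs.2.2
  rw [two_nsmul]; exact shortPoint_double hΔ hs.1 h2 h3 h4 _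

theorem four_nsmul_secPt (hΔ : E.Δ ≠ 0) {s : Sec K} (hs : IsFive E s) :
    4 • secPt hΔ hs = -secPt hΔ hs := by
  obtain ⟨L, Ld, h2, h3, h4, h5, h6, h7⟩ := hs.2.2
  rw [show (4 : ℕ) = 2 * 2 from rfl, mul_nsmul, two_nsmul_secPt, two_nsmul, secPt, shortPoint_neg]
  exact shortPoint_double hΔ hs.2.1 h5 h6 h7 _

theorem five_nsmul_secPt (hΔ : E.Δ ≠ 0) {s : Sec K} (hs : IsFive E s) :
    5 • secPt hΔ hs = 0 := by
  rw [show (5 : ℕ) = 4 + 1 from rfl, add_nsmul, four_nsmul_secPt, one_nsmul, neg_add_cancel]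

theorem three_nsmul_secPt (hΔ : E.Δ ≠ 0) {s : Sec K} (hs : IsFive E s) :
    3 • secPt hΔ hs = shortPoint hΔ s.Xd (-s.Yd) hs.2.1.neg := by
  rw [← shortPoint_neg hΔ hs.2.1, ← two_nsmul_secPt hΔ hs, eq_neg_iff_add_eq_zero, ← add_nsmul]
  exact five_nsmul_secPt hΔ hs

theorem nsmul_secPt (hΔ : E.Δ ≠ 0) {s : Sec K} (hs : IsFive E s) {i : ℕ} (h0 : i ≠ 0)
    (h5 : i < 5) :
    ∃ h : OnShort E (s.mulX i) (s.mulY i),
      i • secPt hΔ hs = shortPoint hΔ (s.mulX i) (s.mulY i) h := by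
  interval_cases i
  · exact absurd rfl h0
  · exact ⟨hs.1, one_nsmul _⟩
  · exact ⟨hs.2.1, two_nsmul_secPt hΔ hs⟩
  · exact ⟨hs.2.1.neg, three_nsmul_secPt hΔ hs⟩
  · refine ⟨hs.1.neg, ?_⟩
    rw [four_nsmul_secPt, secPt, shortPoint_neg]; rfl

omit [CharZero K] [DecidableEq K] in
/-- Multiples of a point killed by `5` depend on the multiplier modulo `5`. -/
theorem mod_five_nsmul {G : Type*} [AddMonoid G] {R : G} (hR : 5 • R = 0) (n : ℕ) :
    (n % 5) • R = n • R := by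
  conv_rhs => rw [← Nat.mod_add_div n 5, add_nsmul, mul_nsmul, hR, nsmul_zero, add_zero]

/-- The short curve with given invariants. -/
def shortCurve (C4 C6 : K) : WeierstrassCurve K := ⟨0, 0, 0, -C4 / 48, -C6 / 864⟩

omit [DecidableEq K] in
theorem shortCurve_c₄ (C4 C6 : K) : (shortCurve C4 C6).c₄ = C4 := by
  simp [shortCurve, c₄, b₂, b₄]; ring

omit [DecidableEq K] in
theorem shortCurve_c₆ (C4 C6 : K) : (shortCurve C4 C6).c₆ = C6 := by
  simp [shortCurve, c₆, b₂, b₄, b₆]; ring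

omit [DecidableEq K] in
theorem Δ_ne_zero_of_gF {E : WeierstrassCurve K} {u v : K} (h4 : E.c₄ = gH u v)
    (h6 : E.c₆ = gT u v) (hf : gF u v ≠ 0) : E.Δ ≠ 0 := by
  intro h0
  have := E.c_relation
  rw [h0, h4, h6, gH_cube_sub_gT_sq] at this
  exact hf (by simpa using this.symm)

/-- Two sections whose multiples have distinct abscissae. -/
def Indep (o t : Sec K) : Prop :=
  ∀ i j : ℕ, i ≠ 0 → i < 5 → j ≠ 0 → j < 5 → o.mulX i ≠ t.mulX j

/-- The two sections are independent. -/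
theorem indep_secOne_secTwo {e u v : K} (he : e ^ 4 + e ^ 3 + e ^ 2 + e + 1 = 0)
    (hf : gF u v ≠ 0) : Indep (secOne u v) (secTwo 5⁻¹ e u v) := by
  intro i j hi0 hi hj0 hj heq
  -- auxiliary curve carrying the two sections
  set E₀ : WeierstrassCurve K := shortCurve (gH u v) (gT u v)
  have h4 : E₀.c₄ = gH u v := shortCurve_c₄ _ _
  have h6 : E₀.c₆ = gT u v := shortCurve_c₆ _ _
  have hΔ : E₀.Δ ≠ 0 := Δ_ne_zero_of_gF h4 h6 hf
  have ho := isFive_secOne h4 h6
  have ht := isFive_secTwo he h4 h6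
  set P := secPt hΔ ho
  set Q := secPt hΔ ht
  obtain ⟨hPi, ePi⟩ := nsmul_secPt hΔ ho hi0 hi
  obtain ⟨hQj, eQj⟩ := nsmul_secPt hΔ ht hj0 hj
  have hsign : i • P = j • Q ∨ i • P = -(j • Q) := by
    rw [ePi, eQj, shortPoint_neg, shortPoint_eq_iff, shortPoint_eq_iff]
    have hsq : (secOne u v).mulY i ^ 2 = (secTwo 5⁻¹ e u v).mulY j ^ 2 := by
      rw [OnShort] at hPi hQj; rw [hPi, hQj, heq]
    rcases sq_eq_sq_iff_eq_or_eq_neg.1 hsq with h | h
    exacts [Or.inl ⟨heq, h⟩, Or.inr ⟨heq, h⟩]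
  -- so `Q` is a multiple of `P`
  obtain ⟨k, hk⟩ : ∃ k : ℕ, j * k % 5 = 1 := by
    interval_cases j
    · exact absurd rfl hj0
    exacts [⟨1, rfl⟩, ⟨3, rfl⟩, ⟨2, rfl⟩, ⟨4, rfl⟩]
  have hQ : k • (j • Q) = Q := by
    rw [← mul_nsmul, ← mod_five_nsmul (five_nsmul_secPt hΔ ht), hk, one_nsmul]
  obtain ⟨m, hm⟩ : ∃ m : ℕ, Q = m • P := by
    rcases hsign with h | h
    · exact ⟨i * k, by rw [mul_nsmul, h, hQ]⟩
    · refine ⟨4 * (i * k), ?_⟩
      rw [show 4 * (i * k) = i * k * 4 by ring, mul_nsmul, mul_nsmul, h, smul_neg, hQ, smul_neg,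
        four_nsmul_secPt, neg_neg]
  rw [← mod_five_nsmul (five_nsmul_secPt hΔ ho)] at hm
  by_cases hm0 : m % 5 = 0
  · rw [hm0, zero_nsmul] at hm; exact shortPoint_ne_zero hΔ _ hm
  obtain ⟨hPm, ePm⟩ := nsmul_secPt hΔ ho hm0 (Nat.mod_lt _ (by norm_num))
  rw [ePm] at hm
  obtain ⟨hX, -⟩ := (shortPoint_eq_iff hΔ _ _).1 hm
  have hlt : m % 5 < 5 := Nat.mod_lt _ (by norm_num)
  interval_cases hh : m % 5 <;>
    simp only [Sec.mulX, secOne, secTwo] at hX <;>
    first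
      | exact absurd rfl hm0
      | exact twoX_ne_oneX he hf hX
      | exact twoX_ne_oneXd he hf hX

/-- Two independent sections generate a subgroup isomorphic to `(ℤ/5)²`. -/
theorem eq_zero_of_comb (hΔ : E.Δ ≠ 0) {o t : Sec K} (ho : IsFive E o) (ht : IsFive E t)
    (hI : Indep o t) {i j : ℕ} (hi : i < 5) (hj : j < 5)
    (h : i • secPt hΔ ho + j • secPt hΔ ht = 0) : i = 0 ∧ j = 0 := by
  by_cases hi0 : i = 0 <;> by_cases hj0 : j = 0
  · exact ⟨hi0, hj0⟩
  · obtain ⟨_, e⟩ := nsmul_secPt hΔ ht hj0 hj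
    rw [hi0, zero_nsmul, zero_add, e] at h
    exact absurd h (shortPoint_ne_zero hΔ _)
  · obtain ⟨_, e⟩ := nsmul_secPt hΔ ho hi0 hi
    rw [hj0, zero_nsmul, add_zero, e] at h
    exact absurd h (shortPoint_ne_zero hΔ _)
  · obtain ⟨h1, e1⟩ := nsmul_secPt hΔ ho hi0 hi
    obtain ⟨h2, e2⟩ := nsmul_secPt hΔ ht hj0 hj
    rw [e1, e2, add_eq_zero_iff_eq_neg, shortPoint_neg, shortPoint_eq_iff] at h
    exact absurd h.1 (hI i j hi0 hi hj0 hj)

/-- An equality `i P + j Q = A` is expressed by polynomial relations in the coordinates. -/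
theorem comb_eq_iff_rel (hΔ : E.Δ ≠ 0) {o t : Sec K} (ho : IsFive E o) (ht : IsFive E t)
    (hI : Indep o t) {i j : ℕ} (hi : i < 5) (hj : j < 5) {AX AY : K} (hA : OnShort E AX AY) :
    i • secPt hΔ ho + j • secPt hΔ ht = shortPoint hΔ AX AY hA ↔ Rel o t i j AX AY := by
  by_cases hi0 : i = 0 <;> by_cases hj0 : j = 0
  · simp [Rel, relVals, hi0, hj0, Ne.symm (shortPoint_ne_zero hΔ hA)]
  · obtain ⟨h2, e2⟩ := nsmul_secPt hΔ ht hj0 hj
    rw [e2, hi0, zero_nsmul, zero_add, shortPoint_eq_iff]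
    simp only [Rel, relVals, hj0, if_true, if_false, sub_eq_zero]
    exact ⟨fun h => ⟨h.1.symm, h.2.symm⟩, fun h => ⟨h.1.symm, h.2.symm⟩⟩
  · obtain ⟨h1, e1⟩ := nsmul_secPt hΔ ho hi0 hi
    rw [e1, hj0, zero_nsmul, add_zero, shortPoint_eq_iff]
    simp only [Rel, relVals, hi0, if_true, if_false, sub_eq_zero]
    exact ⟨fun h => ⟨h.1.symm, h.2.symm⟩, fun h => ⟨h.1.symm, h.2.symm⟩⟩
  · obtain ⟨h1, e1⟩ := nsmul_secPt hΔ ho hi0 hi
    obtain ⟨h2, e2⟩ := nsmul_secPt hΔ ht hj0 hj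
    rw [e1, e2, shortPoint_add hΔ h1 h2 hA (hI i j hi0 hi hj0 hj)]
    simp [Rel, relVals, hi0, hj0]

end field

end Fermat.Agent.Switch
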