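import Mathlib.Algebra.Algebra.Basic
import Mathlib.Tactic.FieldSimp
import Mathlib.Tactic.LinearCombination
import Mathlib.Tactic.Ring

/-!
The Klein icosahedral binary forms `gF`, `gH`, `gT` (degrees 12, 20, 30) with
`gH ^ 3 - gT ^ 2 = 1728 * gF ^ 5`, and their elementary properties.
-/

namespace Fermat.Agent.Switch

variable {R : Type*} [CommRing R] {S : Type*} [CommRing S]

/-- The icosahedral form of degree 12. -/
def gF (u v : R) : R := u * v * (u ^ 10 - 11 * u ^ 5 * v ^ 5 - v ^ 10)

/-- Partial derivative of `gF` in the first variable. -/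
def gFu (u v : R) : R := 11 * u ^ 10 * v - 66 * u ^ 5 * v ^ 6 - v ^ 11

/-- Partial derivative of `gF` in the second variable. -/
def gFv (u v : R) : R := u ^ 11 - 66 * u ^ 6 * v ^ 5 - 11 * u * v ^ 10

/-- The icosahedral form of degree 20 (the invariant `c₄`). -/
def gH (u v : R) : R :=
  u ^ 20 + 228 * u ^ 15 * v ^ 5 + 494 * u ^ 10 * v ^ 10 - 228 * u ^ 5 * v ^ 15 + v ^ 20

/-- Partial derivative of `gH` in the first variable. -/
def gHu (u v : R) : R :=
  20 * u ^ 19 + 3420 * u ^ 14 * v ^ 5 + 4940 * u ^ 9 * v ^ 10 - 1140 * u ^ 4 * v ^ 15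

/-- Partial derivative of `gH` in the second variable. -/
def gHv (u v : R) : R :=
  1140 * u ^ 15 * v ^ 4 + 4940 * u ^ 10 * v ^ 9 - 3420 * u ^ 5 * v ^ 14 + 20 * v ^ 19

/-- The icosahedral form of degree 30 (the invariant `c₆`). -/
def gT (u v : R) : R :=
  -u ^ 30 + 522 * u ^ 25 * v ^ 5 + 10005 * u ^ 20 * v ^ 10 + 10005 * u ^ 10 * v ^ 20 -
    522 * u ^ 5 * v ^ 25 - v ^ 30

/-- Partial derivative of `gT` in the first variable. -/
def gTu (u v : R) : R :=
  -30 * u ^ 29 + 13050 * u ^ 24 * v ^ 5 + 200100 * u ^ 19 * v ^ 10 + 100050 * u ^ 9 * v ^ 20 -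
    2610 * u ^ 4 * v ^ 25

/-- Partial derivative of `gT` in the second variable. -/
def gTv (u v : R) : R :=
  2610 * u ^ 25 * v ^ 4 + 100050 * u ^ 20 * v ^ 9 + 200100 * u ^ 10 * v ^ 19 -
    13050 * u ^ 5 * v ^ 24 - 30 * v ^ 29

theorem gH_cube_sub_gT_sq (u v : R) : gH u v ^ 3 - gT u v ^ 2 = 1728 * gF u v ^ 5 := by
  simp only [gH, gT, gF]; ring

theorem gF_euler (u v : R) : u * gFu u v + v * gFv u v = 12 * gF u v := by
  simp only [gFu, gFv, gF]; ring

theorem gH_euler (u v : R) : u * gHu u v + v * gHv u v = 20 * gH u v := by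
  simp only [gHu, gHv, gH]; ring

theorem gT_euler (u v : R) : u * gTu u v + v * gTv u v = 30 * gT u v := by
  simp only [gTu, gTv, gT]; ring

theorem gH_jacobian (u v : R) : gFv u v * gHu u v - gFu u v * gHv u v = -20 * gT u v := by
  simp only [gFu, gFv, gHu, gHv, gT]; ring

theorem gT_jacobian (u v : R) : gFv u v * gTu u v - gFu u v * gTv u v = -30 * gH u v ^ 2 := by
  simp only [gFu, gFv, gTu, gTv, gH]; ring

section map

variable (φ : R →+* S)

theorem map_gF (u v : R) : φ (gF u v) = gF (φ u) (φ v) := by simp [gF, map_ofNat]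
theorem map_gFu (u v : R) : φ (gFu u v) = gFu (φ u) (φ v) := by simp [gFu, map_ofNat]
theorem map_gFv (u v : R) : φ (gFv u v) = gFv (φ u) (φ v) := by simp [gFv, map_ofNat]
theorem map_gH (u v : R) : φ (gH u v) = gH (φ u) (φ v) := by simp [gH, map_ofNat]
theorem map_gT (u v : R) : φ (gT u v) = gT (φ u) (φ v) := by simp [gT, map_ofNat]

end map

theorem gF_scale (s u v : R) : gF (s * u) (s * v) = s ^ 12 * gF u v := by
  simp only [gF]; ring

theorem gH_scale (s u v : R) : gH (s * u) (s * v) = s ^ 20 * gH u v := by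
  simp only [gH]; ring

theorem gT_scale (s u v : R) : gT (s * u) (s * v) = s ^ 30 * gT u v := by
  simp only [gT]; ring

section Field

variable {K : Type*} [Field K] [CharZero K]

omit [CharZero K] in
/-- Outside the axes, a zero of `gF` has `x = (u/v)^5` a root of `x^2 - 11x - 1`. -/
theorem gF_eq_zero_iff {u v : K} :
    gF u v = 0 ↔ u = 0 ∨ v = 0 ∨ (u ^ 5) ^ 2 - 11 * u ^ 5 * v ^ 5 - (v ^ 5) ^ 2 = 0 := by
  have e : u ^ 10 - 11 * u ^ 5 * v ^ 5 - v ^ 10 =
      (u ^ 5) ^ 2 - 11 * u ^ 5 * v ^ 5 - (v ^ 5) ^ 2 := by ring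
  rw [gF, mul_eq_zero, mul_eq_zero, e, or_assoc]

/-- `gF` and `gH` have no common zero but the origin. -/
theorem eq_zero_of_gF_gH {u v : K} (hf : gF u v = 0) (hh : gH u v = 0) : u = 0 ∧ v = 0 := by
  rcases gF_eq_zero_iff.1 hf with rfl | rfl | hq
  · simpa [gH] using hh
  · simpa [gH] using hh
  · simp only [gH] at hh
    generalize hp : u ^ 5 = p at hq
    generalize hr : v ^ 5 = r at hq
    have hh' : p ^ 4 + 228 * p ^ 3 * r + 494 * p ^ 2 * r ^ 2 - 228 * p * r ^ 3 + r ^ 4 = 0 := by
      rw [← hp, ← hr]; linear_combination hh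
    -- reduce the quartic modulo the quadratic
    have h1 : 3125 * r ^ 3 * (11 * p + r) = 0 := by
      have : p ^ 4 + 228 * p ^ 3 * r + 494 * p ^ 2 * r ^ 2 - 228 * p * r ^ 3 + r ^ 4 =
          (p ^ 2 - 11 * p * r - r ^ 2) * (p ^ 2 + 239 * p * r + 3124 * r ^ 2) +
            3125 * r ^ 3 * (11 * p + r) := by ring
      rw [hh', hq] at this
      linear_combination -this
    have hr0 : r = 0 := by
      by_contra hr0
      have h2 : 11 * p + r = 0 := by simpa [hr0] using h1
      have : r ^ 2 * 1 = 0 := by linear_combination 121 * hq - (11 * p - 122 * r) * h2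
      simp [hr0] at this
    subst hr0
    have hp0 : p = 0 := by simpa using hq
    exact ⟨by simpa [hp0] using hp, by simpa using hr⟩

/-- `gF` has only simple zeros. -/
theorem eq_zero_of_grad {u v : K} (hu : gFu u v = 0) (hv : gFv u v = 0) : u = 0 ∧ v = 0 := by
  have hf : gF u v = 0 := by
    have := gF_euler u v
    rw [hu, hv] at this
    simpa using this.symm
  rcases gF_eq_zero_iff.1 hf with rfl | rfl | hq
  · simpa [gFu] using hu
  · simpa [gFv] using hv
  · have h : (11 * (u ^ 5) ^ 2 - 66 * u ^ 5 * v ^ 5 - (v ^ 5) ^ 2) * v = 0 := by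
      rw [← hu, gFu]; ring
    generalize hp : u ^ 5 = p at hq h
    generalize hr : v ^ 5 = r at hq h
    rcases mul_eq_zero.1 h with h | h
    · have h1 : r * (11 * p + 2 * r) = 0 := by linear_combination (h - 11 * hq) / 5
      have hr0 : r = 0 := by
        by_contra hr0
        have h2 : 11 * p + 2 * r = 0 := by simpa [hr0] using h1
        have : r ^ 2 * 125 = 0 := by
          linear_combination 121 * hq - (11 * p - 123 * r) * h2
        simp [hr0] at this
      subst hr0
      have hp0 : p = 0 := by simpa using hq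
      exact ⟨by simpa [hp0] using hp, by simpa using hr⟩
    · subst h
      have hr0 : r = 0 := by simpa using hr.symm
      subst hr0
      have hp0 : p = 0 := by simpa using hq
      exact ⟨by simpa [hp0] using hp, rfl⟩

end Field

end Fermat.Agent.Switch
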