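import Mathlib
import Fermat.Agent.Switch.Forms

/-!
Rationality of the Rubin–Silverberg line: for `ξ = (gFv, -gFu)` the coefficients of
`gH (x + t ξ)` are polynomials in `gH x`, `gT x`, and those of `gF (x + t ξ)` are
`gF x` times such polynomials.
-/

open Polynomial

namespace Fermat.Agent.Switch

/-- Polynomials in two variables over `ℚ`. -/
abbrev PQ := MvPolynomial (Fin 2) ℚ

/-- The first variable. -/
noncomputable def pU : PQ := MvPolynomial.X 0
/-- The second variable. -/
noncomputable def pV : PQ := MvPolynomial.X 1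

/-- The derivation along `(gFv, -gFu)`. -/
noncomputable def xiDer : Derivation ℚ PQ PQ :=
  MvPolynomial.mkDerivation ℚ ![gFv pU pV, -gFu pU pV]

section leibniz

variable {A : Type*} [CommRing A] [Algebra ℚ A] (d : Derivation ℚ A A)

theorem der_ofNat (n : ℕ) [n.AtLeastTwo] : d (ofNat(n) : A) = 0 := by
  rw [← Nat.cast_ofNat]; exact d.map_natCast n

theorem der_gH (a b : A) : d (gH a b) = gHu a b * d a + gHv a b * d b := by
  simp only [gH, gHu, gHv, map_add, map_sub, Derivation.leibniz, Derivation.leibniz_pow,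
    der_ofNat, smul_eq_mul, nsmul_eq_mul]
  push_cast; ring

theorem der_gT (a b : A) : d (gT a b) = gTu a b * d a + gTv a b * d b := by
  simp only [gT, gTu, gTv, map_add, map_sub, map_neg, Derivation.leibniz, Derivation.leibniz_pow,
    der_ofNat, smul_eq_mul, nsmul_eq_mul]
  push_cast; ring

theorem der_gF (a b : A) : d (gF a b) = gFu a b * d a + gFv a b * d b := by
  simp only [gF, gFu, gFv, map_sub, Derivation.leibniz, Derivation.leibniz_pow,
    der_ofNat, smul_eq_mul, nsmul_eq_mul]
  push_cast; ring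

theorem der_gFu (a b : A) : d (gFu a b) =
    (110 * a ^ 9 * b - 330 * a ^ 4 * b ^ 6) * d a +
      (11 * a ^ 10 - 396 * a ^ 5 * b ^ 5 - 11 * b ^ 10) * d b := by
  simp only [gFu, map_sub, Derivation.leibniz, Derivation.leibniz_pow,
    der_ofNat, smul_eq_mul, nsmul_eq_mul]
  push_cast; ring

theorem der_gFv (a b : A) : d (gFv a b) =
    (11 * a ^ 10 - 396 * a ^ 5 * b ^ 5 - 11 * b ^ 10) * d a +
      (-330 * a ^ 6 * b ^ 4 - 110 * a * b ^ 9) * d b := by
  simp only [gFv, map_sub, Derivation.leibniz, Derivation.leibniz_pow,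
    der_ofNat, smul_eq_mul, nsmul_eq_mul]
  push_cast; ring

/-- The coefficientwise extension of a derivation, as a linear map. -/
noncomputable def coeffDerLin : A[X] →ₗ[ℚ] A[X] :=
  Polynomial.lsum fun n => ((Polynomial.monomial n).restrictScalars ℚ).comp d.toLinearMap

theorem coeffDerLin_monomial (n : ℕ) (a : A) :
    coeffDerLin d (monomial n a) = monomial n (d a) := by
  simp [coeffDerLin, Polynomial.sum_monomial_index]

/-- The coefficientwise extension of a derivation. -/
noncomputable def coeffDer : Derivation ℚ A[X] A[X] :=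
  Derivation.mk' (coeffDerLin d) fun p q => by
    induction p using Polynomial.induction_on' with
    | add p₁ p₂ h₁ h₂ => simp only [smul_eq_mul] at *; rw [add_mul, map_add, h₁, h₂, map_add]; ring
    | monomial n a =>
      induction q using Polynomial.induction_on' with
      | add q₁ q₂ h₁ h₂ =>
        simp only [smul_eq_mul] at *; rw [mul_add, map_add, h₁, h₂, map_add]; ring
      | monomial m b =>
        simp only [smul_eq_mul, monomial_mul_monomial, coeffDerLin_monomial, Derivation.leibniz,
          map_add]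
        rw [mul_comm b, add_comm m n]

theorem coeffDer_C (a : A) : coeffDer d (Polynomial.C a) = Polynomial.C (d a) := by
  rw [← monomial_zero_left, ← monomial_zero_left]
  exact coeffDerLin_monomial d 0 a

theorem coeff_coeffDer (p : A[X]) (n : ℕ) : (coeffDer d p).coeff n = d (p.coeff n) := by
  induction p using Polynomial.induction_on' with
  | add p q hp hq => simp [hp, hq]
  | monomial m a =>
    show (coeffDerLin d (monomial m a)).coeff n = _
    rw [coeffDerLin_monomial, coeff_monomial, coeff_monomial]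
    split_ifs <;> simp

theorem coeffDer_X : coeffDer d (Polynomial.X : A[X]) = 0 := by
  ext n
  rw [coeff_coeffDer, coeff_X]
  split_ifs <;> simp

end leibniz

theorem xiDer_pU : xiDer pU = gFv pU pV := by simp [xiDer, pU, MvPolynomial.mkDerivation_X]

theorem xiDer_pV : xiDer pV = -gFu pU pV := by simp [xiDer, pV, MvPolynomial.mkDerivation_X]

theorem xiDer_gF : xiDer (gF pU pV) = 0 := by
  rw [der_gF, xiDer_pU, xiDer_pV]; ring

theorem xiDer_gH : xiDer (gH pU pV) = -20 * gT pU pV := by
  rw [der_gH, xiDer_pU, xiDer_pV, ← gH_jacobian]; ring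

theorem xiDer_gT : xiDer (gT pU pV) = -30 * gH pU pV ^ 2 := by
  rw [der_gT, xiDer_pU, xiDer_pV, ← gT_jacobian]; ring

theorem xiDer_xi₁ : xiDer (gFv pU pV) = 11 * gH pU pV * pU := by
  rw [der_gFv, xiDer_pU, xiDer_pV]
  simp only [gFu, gFv, gH]; ring

theorem xiDer_xi₂ : xiDer (-gFu pU pV) = 11 * gH pU pV * pV := by
  rw [map_neg, der_gFu, xiDer_pU, xiDer_pV]
  simp only [gFu, gFv, gH]; ring

/-- The moving point, first coordinate. -/
noncomputable def lineU : PQ[X] := Polynomial.C pU + Polynomial.X * Polynomial.C (gFv pU pV)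
/-- The moving point, second coordinate. -/
noncomputable def lineV : PQ[X] := Polynomial.C pV + Polynomial.X * Polynomial.C (-gFu pU pV)

/-- The subalgebra generated by `gH` and `gT`. -/
noncomputable def invAlg : Subalgebra ℚ PQ := Algebra.adjoin ℚ {gH pU pV, gT pU pV}

theorem gH_mem_invAlg : gH pU pV ∈ invAlg := Algebra.subset_adjoin (by simp)
theorem gT_mem_invAlg : gT pU pV ∈ invAlg := Algebra.subset_adjoin (by simp)

theorem xiDer_mem_invAlg {p : PQ} (hp : p ∈ invAlg) : xiDer p ∈ invAlg := by
  refine Algebra.adjoin_induction ?_ ?_ ?_ ?_ hp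
  · rintro x (rfl | rfl)
    · rw [xiDer_gH]
      exact mul_mem (neg_mem (ofNat_mem _ 20)) gT_mem_invAlg
    · rw [xiDer_gT]
      exact mul_mem (neg_mem (ofNat_mem _ 30)) (pow_mem gH_mem_invAlg 2)
  · intro r; simp
  · intro x y _ _ hx hy; rw [map_add]; exact add_mem hx hy
  · intro x y hx hy hx' hy'
    rw [Derivation.leibniz, smul_eq_mul, smul_eq_mul]
    exact add_mem (mul_mem hx hy') (mul_mem hy hx')

/-- Coefficient recursion from the Euler relation and the derivation. -/
theorem coeff_recursion {d : ℕ} {G : PQ[X]}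
    (h : coeffDer xiDer G = derivative G +
      Polynomial.C (11 * gH pU pV) * Polynomial.X * ((d : PQ[X]) * G - Polynomial.X * derivative G))
    (i : ℕ) :
    xiDer (G.coeff 0) = G.coeff 1 ∧
    xiDer (G.coeff (i + 1)) = ((i : PQ) + 2) * G.coeff (i + 2) +
      11 * gH pU pV * (((d : PQ) - i) * G.coeff i) := by
  refine ⟨?_, ?_⟩
  · have := congrArg (fun p => Polynomial.coeff p 0) h
    simpa [coeff_coeffDer, coeff_derivative, mul_assoc, mul_coeff_zero] using this
  · have := congrArg (fun p => Polynomial.coeff p (i + 1)) h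
    simp only [coeff_coeffDer, coeff_add, coeff_derivative, mul_assoc, coeff_C_mul,
      coeff_X_mul, coeff_sub] at this
    rw [← Polynomial.C_eq_natCast, coeff_C_mul] at this
    have e : (Polynomial.X * derivative G).coeff i = (i : PQ) * G.coeff i := by
      cases i with
      | zero => simp
      | succ i => rw [coeff_X_mul, coeff_derivative]; push_cast; ring
    rw [e] at this
    rw [this]; push_cast; ring

/-- A recursion along the vector field keeps the coefficients in `c` times the invariant algebra. -/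
theorem coeff_eq_mul_of_recursion {d : ℕ} {G : PQ[X]} (c : PQ) (hc : xiDer c = 0)
    (h : coeffDer xiDer G = derivative G +
      Polynomial.C (11 * gH pU pV) * Polynomial.X * ((d : PQ[X]) * G - Polynomial.X * derivative G))
    (s₀ : PQ) (hs₀ : s₀ ∈ invAlg) (h0 : G.coeff 0 = c * s₀) :
    ∀ i, ∃ s ∈ invAlg, G.coeff i = c * s := by
  have key : ∀ i, (∃ s ∈ invAlg, G.coeff i = c * s) ∧ (∃ s ∈ invAlg, G.coeff (i + 1) = c * s) := by
    intro i
    induction i with
    | zero =>
      refine ⟨⟨s₀, hs₀, h0⟩, xiDer s₀, xiDer_mem_invAlg hs₀, ?_⟩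
      rw [← (coeff_recursion h 0).1, h0, Derivation.leibniz, hc, smul_eq_mul, smul_eq_mul]
      ring
    | succ i ih =>
      obtain ⟨⟨a, ha, hai⟩, ⟨b, hb, hbi⟩⟩ := ih
      refine ⟨⟨b, hb, hbi⟩, ?_⟩
      have hr := (coeff_recursion h i).2
      rw [hbi, hai, Derivation.leibniz, hc, smul_eq_mul, smul_eq_mul, mul_zero, add_zero] at hr
      set n : PQ := (i : PQ) + 2 with hn
      refine ⟨((i : ℚ) + 2)⁻¹ • (xiDer b - 11 * gH pU pV * (((d : PQ) - i) * a)), ?_, ?_⟩
      · exact invAlg.smul_mem (sub_mem (xiDer_mem_invAlg hb)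
          (mul_mem (mul_mem (ofNat_mem _ 11) gH_mem_invAlg)
            (mul_mem (sub_mem (natCast_mem _ d) (natCast_mem _ i)) ha))) _
      · have hne : ((i : ℚ) + 2) ≠ 0 := by positivity
        have e : ∀ p : PQ, n * p = ((i : ℚ) + 2) • p := fun p => by
          rw [Algebra.smul_def, map_add, map_natCast, map_ofNat]
        calc G.coeff (i + 1 + 1)
            = ((i : ℚ) + 2)⁻¹ • (n * G.coeff (i + 2)) := by rw [e, inv_smul_smul₀ hne]
          _ = _ := by rw [mul_smul_comm]; congr 1; linear_combination -hr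
  exact fun i => (key i).1

theorem coeffDer_lineU : coeffDer xiDer lineU =
    Polynomial.C (gFv pU pV) +
      Polynomial.X * Polynomial.C (11 * gH pU pV) * Polynomial.C pU := by
  rw [lineU, map_add, coeffDer_C, Derivation.leibniz, coeffDer_X, coeffDer_C, xiDer_pU,
    xiDer_xi₁]
  simp [mul_assoc]

theorem coeffDer_lineV : coeffDer xiDer lineV =
    Polynomial.C (-gFu pU pV) +
      Polynomial.X * Polynomial.C (11 * gH pU pV) * Polynomial.C pV := by
  rw [lineV, map_add, coeffDer_C, Derivation.leibniz, coeffDer_X, coeffDer_C, xiDer_pV,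
    xiDer_xi₂]
  simp [mul_assoc]

/-- The derivation identity for a form with prescribed partial derivatives and degree. -/
theorem coeffDer_form {d : ℕ} (G Gu Gv : PQ[X] → PQ[X] → PQ[X])
    (hd : ∀ (D : Derivation ℚ PQ[X] PQ[X]) a b, D (G a b) = Gu a b * D a + Gv a b * D b)
    (he : ∀ a b, a * Gu a b + b * Gv a b = (d : PQ[X]) * G a b) :
    coeffDer xiDer (G lineU lineV) = derivative (G lineU lineV) +
      Polynomial.C (11 * gH pU pV) * Polynomial.X *
        ((d : PQ[X]) * G lineU lineV - Polynomial.X * derivative (G lineU lineV)) := by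
  have hder : derivative (G lineU lineV) =
      Gu lineU lineV * Polynomial.C (gFv pU pV) + Gv lineU lineV * Polynomial.C (-gFu pU pV) := by
    have := hd ((Polynomial.derivative' (R := PQ)).restrictScalars ℚ) lineU lineV
    simpa [lineU, lineV] using this
  have h := he lineU lineV
  rw [hd, coeffDer_lineU, coeffDer_lineV, hder, ← h]
  generalize Gu lineU lineV = a
  generalize Gv lineU lineV = b
  simp only [lineU, lineV]
  ring

theorem coeff_gH_line_mem (i : ℕ) : ∃ s ∈ invAlg, (gH lineU lineV).coeff i = 1 * s := by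
  refine coeff_eq_mul_of_recursion (d := 20) 1 (Derivation.map_one_eq_zero _)
    (coeffDer_form gH gHu gHv (fun D a b => der_gH D a b) fun a b => ?_) _ gH_mem_invAlg ?_ i
  · rw [gH_euler]; norm_num
  · rw [Polynomial.coeff_zero_eq_eval_zero, ← Polynomial.coe_evalRingHom, map_gH]
    simp [lineU, lineV]

theorem coeff_gT_line_mem (i : ℕ) : ∃ s ∈ invAlg, (gT lineU lineV).coeff i = 1 * s := by
  refine coeff_eq_mul_of_recursion (d := 30) 1 (Derivation.map_one_eq_zero _)
    (coeffDer_form gT gTu gTv (fun D a b => der_gT D a b) fun a b => ?_) _ gT_mem_invAlg ?_ i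
  · rw [gT_euler]; norm_num
  · rw [Polynomial.coeff_zero_eq_eval_zero, ← Polynomial.coe_evalRingHom, map_gT]
    simp [lineU, lineV]

theorem coeff_gF_line_mem (i : ℕ) :
    ∃ s ∈ invAlg, (gF lineU lineV).coeff i = gF pU pV * s := by
  refine coeff_eq_mul_of_recursion (d := 12) (gF pU pV) xiDer_gF
    (coeffDer_form gF gFu gFv (fun D a b => der_gF D a b) fun a b => ?_) 1 (one_mem _) ?_ i
  · rw [gF_euler]; norm_num
  · rw [Polynomial.coeff_zero_eq_eval_zero, ← Polynomial.coe_evalRingHom, map_gF]
    simp [lineU, lineV]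

/-- Evaluation of `PQ` at a point. -/
noncomputable def evalAt {K : Type*} [CommRing K] [Algebra ℚ K] (u v : K) : PQ →ₐ[ℚ] K :=
  MvPolynomial.aeval ![u, v]

theorem evalAt_pU {K : Type*} [CommRing K] [Algebra ℚ K] (u v : K) : evalAt u v pU = u := by
  simp [evalAt, pU]

theorem evalAt_pV {K : Type*} [CommRing K] [Algebra ℚ K] (u v : K) : evalAt u v pV = v := by
  simp [evalAt, pV]

theorem natDegree_forms {A : Type*} [CommRing A] (a b c d : A) :
    (gH (Polynomial.C a + Polynomial.X * Polynomial.C b)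
      (Polynomial.C c + Polynomial.X * Polynomial.C d)).natDegree < 21 ∧
    (gT (Polynomial.C a + Polynomial.X * Polynomial.C b)
      (Polynomial.C c + Polynomial.X * Polynomial.C d)).natDegree < 31 ∧
    (gF (Polynomial.C a + Polynomial.X * Polynomial.C b)
      (Polynomial.C c + Polynomial.X * Polynomial.C d)).natDegree < 13 := by
  refine ⟨Nat.lt_succ_of_le ?_, Nat.lt_succ_of_le ?_, Nat.lt_succ_of_le ?_⟩
  · simp only [gH]; compute_degree
  · simp only [gT]; compute_degree
  · simp only [gF]; compute_degree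

section specialise

variable {K : Type*} [Field K] [CharZero K]

/-- Homogenisation of an expansion along a line. -/
theorem exists_coeff_of_line {u v : K} {c : K} {d : ℕ} (G : ∀ {A : Type _} [CommRing A], A → A → A)
    (hmap : ∀ {A B : Type _} [CommRing A] [CommRing B] (φ : A →+* B) (x y : A),
      φ (G x y) = G (φ x) (φ y))
    (hscale : ∀ s x y : K, G (s * x) (s * y) = s ^ d * G x y)
    (w₁ w₂ : K) (a : ℕ → ℚ)
    (hdeg : (G (Polynomial.C u + Polynomial.X * Polynomial.C w₁)
      (Polynomial.C v + Polynomial.X * Polynomial.C w₂)).natDegree < d + 1)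
    (hcoeff : ∀ i, (G (Polynomial.C u + Polynomial.X * Polynomial.C w₁)
      (Polynomial.C v + Polynomial.X * Polynomial.C w₂)).coeff i = c * (a i : K)) (r s : K) :
    G (s * u + r * w₁) (s * v + r * w₂) =
      c * ∑ i ∈ Finset.range (d + 1), (a i : K) * r ^ i * s ^ (d - i) := by
  have h1 : ∀ t : K, G (u + t * w₁) (v + t * w₂) =
      c * ∑ i ∈ Finset.range (d + 1), (a i : K) * t ^ i := by
    intro t
    have := Polynomial.eval_eq_sum_range' hdeg t
    rw [← Polynomial.coe_evalRingHom, hmap] at this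
    simp only [map_add, map_mul, Polynomial.coe_evalRingHom, Polynomial.eval_C,
      Polynomial.eval_X] at this
    rw [this, Finset.mul_sum]
    refine Finset.sum_congr rfl fun i _ => ?_
    rw [hcoeff]; ring
  set P : K[X] := G (Polynomial.X * Polynomial.C u + Polynomial.C (r * w₁))
    (Polynomial.X * Polynomial.C v + Polynomial.C (r * w₂)) with hP
  set Q : K[X] := Polynomial.C c * ∑ i ∈ Finset.range (d + 1),
    Polynomial.C ((a i : K) * r ^ i) * Polynomial.X ^ (d - i) with hQ
  have hPe : ∀ x : K, P.eval x = G (x * u + r * w₁) (x * v + r * w₂) := by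
    intro x
    rw [hP, ← Polynomial.coe_evalRingHom, hmap]
    simp [mul_comm x]
  have hQe : ∀ x : K, Q.eval x =
      c * ∑ i ∈ Finset.range (d + 1), (a i : K) * r ^ i * x ^ (d - i) := by
    intro x; simp [hQ, Polynomial.eval_finsetSum]
  rw [← hPe, ← hQe]
  have : P = Q := by
    refine Polynomial.eq_of_infinite_eval_eq P Q
      (((Set.finite_singleton (0 : K)).infinite_compl).mono fun x hx => ?_)
    have hx : x ≠ 0 := hx
    show P.eval x = Q.eval x
    rw [hPe, hQe, show x * u + r * w₁ = x * (u + r / x * w₁) by field_simp,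
      show x * v + r * w₂ = x * (v + r / x * w₂) by field_simp, hscale, h1, ← mul_assoc,
      mul_comm (x ^ d), mul_assoc, Finset.mul_sum (a := x ^ d)]
    congr 1
    refine Finset.sum_congr rfl fun i hi => ?_
    have hi : i ≤ d := Nat.lt_succ_iff.1 (Finset.mem_range.1 hi)
    rw [div_pow, ← Nat.sub_add_cancel hi, pow_add, Nat.add_sub_cancel]
    field_simp
  rw [this]

theorem mem_range_of_invAlg {u v : K} {C4 C6 : ℚ} (h4 : gH u v = C4) (h6 : gT u v = C6)
    {p : PQ} (hp : p ∈ invAlg) : ∃ q : ℚ, evalAt u v p = (q : K) := by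
  have hle : invAlg ≤ (⊥ : Subalgebra ℚ K).comap (evalAt u v) := by
    refine Algebra.adjoin_le ?_
    rintro x (rfl | rfl)
    · refine Algebra.mem_bot.2 ⟨C4, ?_⟩
      show algebraMap ℚ K C4 = evalAt u v (gH pU pV)
      rw [← AlgHom.coe_toRingHom, map_gH, AlgHom.coe_toRingHom, evalAt_pU, evalAt_pV, h4,
        eq_ratCast]
    · refine Algebra.mem_bot.2 ⟨C6, ?_⟩
      show algebraMap ℚ K C6 = evalAt u v (gT pU pV)
      rw [← AlgHom.coe_toRingHom, map_gT, AlgHom.coe_toRingHom, evalAt_pU, evalAt_pV, h6,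
        eq_ratCast]
  obtain ⟨q, hq⟩ := Algebra.mem_bot.1 (hle hp)
  exact ⟨q, by rw [← eq_ratCast (algebraMap ℚ K) q]; exact hq.symm⟩

/-- First coordinate of the point with parameters `(r : s)` on the line. -/
def lineX (u v r s : K) : K := s * u + r * gFv u v
/-- Second coordinate of the point with parameters `(r : s)` on the line. -/
def lineY (u v r s : K) : K := s * v + r * (-gFu u v)

theorem map_line (u v : K) :
    lineU.map (evalAt u v).toRingHom = Polynomial.C u + Polynomial.X * Polynomial.C (gFv u v) ∧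
    lineV.map (evalAt u v).toRingHom = Polynomial.C v + Polynomial.X * Polynomial.C (-gFu u v) := by
  refine ⟨?_, ?_⟩
  · rw [lineU, Polynomial.map_add, Polynomial.map_mul, Polynomial.map_C, Polynomial.map_C,
      Polynomial.map_X, map_gFv]
    simp only [AlgHom.toRingHom_eq_coe, AlgHom.coe_toRingHom, evalAt_pU, evalAt_pV]
  · rw [lineV, Polynomial.map_add, Polynomial.map_mul, Polynomial.map_C, Polynomial.map_C,
      Polynomial.map_X, map_neg, map_gFu]
    simp only [AlgHom.toRingHom_eq_coe, AlgHom.coe_toRingHom, evalAt_pU, evalAt_pV]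

/-- The line through `(u, v)` in direction `ξ` is defined over `ℚ`. -/
theorem exists_rat_coeffs {u v : K} {C4 C6 : ℚ} (h4 : gH u v = C4) (h6 : gT u v = C6)
    (hf : gF u v ≠ 0) :
    ∃ a b c : ℕ → ℚ, a 0 = C4 ∧ b 0 = 1 ∧ c 0 = C6 ∧ ∀ r s : K,
      gH (lineX u v r s) (lineY u v r s) =
        ∑ i ∈ Finset.range 21, (a i : K) * r ^ i * s ^ (20 - i) ∧
      gF (lineX u v r s) (lineY u v r s) =
        gF u v * ∑ i ∈ Finset.range 13, (b i : K) * r ^ i * s ^ (12 - i) ∧
      gT (lineX u v r s) (lineY u v r s) =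
        ∑ i ∈ Finset.range 31, (c i : K) * r ^ i * s ^ (30 - i) := by
  obtain ⟨hU, hV⟩ := map_line u v
  set φ := (evalAt u v).toRingHom with hφ
  have hA : ∀ i, ∃ q : ℚ, (gH (lineU.map φ) (lineV.map φ)).coeff i = (q : K) := by
    intro i
    obtain ⟨s, hs, he⟩ := coeff_gH_line_mem i
    obtain ⟨q, hq⟩ := mem_range_of_invAlg h4 h6 hs
    refine ⟨q, ?_⟩
    rw [← Polynomial.coe_mapRingHom, ← map_gH, Polynomial.coe_mapRingHom, coeff_map, he, one_mul]
    exact hq
  have hC : ∀ i, ∃ q : ℚ, (gT (lineU.map φ) (lineV.map φ)).coeff i = (q : K) := by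
    intro i
    obtain ⟨s, hs, he⟩ := coeff_gT_line_mem i
    obtain ⟨q, hq⟩ := mem_range_of_invAlg h4 h6 hs
    refine ⟨q, ?_⟩
    rw [← Polynomial.coe_mapRingHom, ← map_gT, Polynomial.coe_mapRingHom, coeff_map, he, one_mul]
    exact hq
  have hB : ∀ i, ∃ q : ℚ, (gF (lineU.map φ) (lineV.map φ)).coeff i = gF u v * (q : K) := by
    intro i
    obtain ⟨s, hs, he⟩ := coeff_gF_line_mem i
    obtain ⟨q, hq⟩ := mem_range_of_invAlg h4 h6 hs
    refine ⟨q, ?_⟩
    rw [← Polynomial.coe_mapRingHom, ← map_gF, Polynomial.coe_mapRingHom, coeff_map, he, map_mul,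
      map_gF]
    simp only [hφ, AlgHom.toRingHom_eq_coe, AlgHom.coe_toRingHom, evalAt_pU, evalAt_pV] at hq ⊢
    rw [hq]
  choose a ha using hA
  choose b hb using hB
  choose c hc using hC
  rw [hU, hV] at ha hb hc
  have zeroEval : ∀ p : K[X], p.coeff 0 = p.eval 0 := fun p => coeff_zero_eq_eval_zero p
  have a0 : a 0 = C4 := by
    have := ha 0
    rw [zeroEval, ← Polynomial.coe_evalRingHom, map_gH] at this
    simp [h4] at this
    exact_mod_cast this.symm
  have c0 : c 0 = C6 := by
    have := hc 0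
    rw [zeroEval, ← Polynomial.coe_evalRingHom, map_gT] at this
    simp [h6] at this
    exact_mod_cast this.symm
  have b0 : b 0 = 1 := by
    have := hb 0
    rw [zeroEval, ← Polynomial.coe_evalRingHom, map_gF] at this
    simp [hf] at this
    exact_mod_cast this
  obtain ⟨d4, d6, dF⟩ := natDegree_forms u (gFv u v) v (-gFu u v)
  refine ⟨a, b, c, a0, b0, c0, fun r s => ⟨?_, ?_, ?_⟩⟩
  · have := exists_coeff_of_line (c := 1) (d := 20) (fun {A} _ => gH) (fun φ x y => map_gH φ x y)
      gH_scale _ _ a d4 (fun i => by rw [ha, one_mul]) r s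
    rwa [one_mul] at this
  · exact exists_coeff_of_line (c := gF u v) (d := 12) (fun {A} _ => gF)
      (fun φ x y => map_gF φ x y) gF_scale _ _ b dF hb r s
  · have := exists_coeff_of_line (c := 1) (d := 30) (fun {A} _ => gT) (fun φ x y => map_gT φ x y)
      gT_scale _ _ c d6 (fun i => by rw [hc, one_mul]) r s
    rwa [one_mul] at this

/-- A line through a point off the zeros of `gF` does not pass through the origin. -/
theorem line_ne_zero {u v : K} (hf : gF u v ≠ 0) {r s : K} (h : r ≠ 0 ∨ s ≠ 0) :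
    lineX u v r s ≠ 0 ∨ lineY u v r s ≠ 0 := by
  by_contra hh
  simp only [not_or, not_not, lineX, lineY] at hh
  obtain ⟨h1, h2⟩ := hh
  have e : r * (12 * gF u v) = 0 := by
    rw [← gF_euler]; linear_combination v * h1 - u * h2
  have hr : r = 0 := by simpa [hf] using e
  subst hr
  have hs : s ≠ 0 := by simpa using h
  have hu : u = 0 := by simpa [hs] using h1
  exact hf (by simp [gF, hu])

end specialise

end Fermat.Agent.Switch
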