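import Fermat.Prelude.Def_EllipticCurve_FrobeniusTrace
import Fermat.Agent.EC.TorsionCard
import Fermat.Agent.Switch.Curve
import Fermat.Agent.Switch.Family

/-!
The Galois-equivariant isomorphism of 5-torsion along the Rubin–Silverberg line.
-/

open WeierstrassCurve
open scoped WeierstrassCurve.Affine

namespace Fermat.Agent.Switch

section field

variable {K : Type*} [Field K] [CharZero K] [DecidableEq K] [IsAlgClosed K]

/-- The two sections span the 5-torsion. -/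
theorem exists_comb {E : WeierstrassCurve K} (hΔ : E.Δ ≠ 0) {o t : Sec K} (ho : IsFive E o)
    (ht : IsFive E t) (hI : Indep o t) (P : E.toAffine.Point) (hP : 5 • P = 0) :
    ∃ i j : ℕ, i < 5 ∧ j < 5 ∧ i • secPt hΔ ho + j • secPt hΔ ht = P := by
  have : E.IsElliptic := ⟨hΔ.isUnit⟩
  have : E.toAffine.IsElliptic := ⟨hΔ.isUnit⟩
  set a := secPt hΔ ho with ha'
  set b := secPt hΔ ht with hb'
  have ha : 5 • a = 0 := five_nsmul_secPt hΔ ho
  have hb : 5 • b = 0 := five_nsmul_secPt hΔ ht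
  let f : Fin 5 × Fin 5 → {Q : E.toAffine.Point // 5 • Q = 0} := fun p =>
    ⟨p.1.val • a + p.2.val • b, by
      rw [nsmul_add, smul_comm, ha, smul_zero, smul_comm, hb, smul_zero, add_zero]⟩
  have hcard : Nat.card {Q : E.toAffine.Point // 5 • Q = 0} = 5 ^ 2 :=
    EC.card_nsmul_eq_zero E.toAffine (Nat.cast_ne_zero.2 (by norm_num))
  have : Finite {Q : E.toAffine.Point // 5 • Q = 0} :=
    Nat.finite_of_card_ne_zero (by rw [hcard]; norm_num)
  have hinj : Function.Injective f := by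
    rintro ⟨i, j⟩ ⟨i', j'⟩ h
    have h : i.val • a + j.val • b = i'.val • a + j'.val • b := congrArg Subtype.val h
    have h0 : (i.val + 4 * i'.val) • a + (j.val + 4 * j'.val) • b = 0 := by
      rw [add_nsmul, add_nsmul, add_add_add_comm, h, ← add_add_add_comm, ← add_nsmul, ← add_nsmul]
      rw [show i'.val + 4 * i'.val = 5 * i'.val by ring,
        show j'.val + 4 * j'.val = 5 * j'.val by ring,
        mul_nsmul, mul_nsmul, ha, hb, nsmul_zero, nsmul_zero, add_zero]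
    rw [← mod_five_nsmul ha, ← mod_five_nsmul hb] at h0
    obtain ⟨h1, h2⟩ := eq_zero_of_comb hΔ ho ht hI (Nat.mod_lt _ (by norm_num))
      (Nat.mod_lt _ (by norm_num)) h0
    refine Prod.ext (Fin.ext ?_) (Fin.ext ?_) <;> simp only <;> omega
  have hbij := (Nat.bijective_iff_injective_and_card f).2 ⟨hinj, by
    rw [hcard, Nat.card_prod, Nat.card_fin]; norm_num⟩
  obtain ⟨⟨i, j⟩, hij⟩ := hbij.2 ⟨P, hP⟩
  exact ⟨i.val, j.val, i.isLt, j.isLt, congrArg Subtype.val hij⟩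

/-- Along a polynomial family a torsion section is a fixed combination of the basis. -/
theorem exists_comb_section {e : K} (he : e ^ 4 + e ^ 3 + e ^ 2 + e + 1 = 0)
    (U V : Polynomial K) (hg : gF U V ≠ 0) (a : Sec (Polynomial K))
    (ha : ∀ (x : K) (E : WeierstrassCurve K), E.c₄ = gH (U.eval x) (V.eval x) →
      E.c₆ = gT (U.eval x) (V.eval x) → IsFive E (a.map (Polynomial.evalRingHom x))) :
    ∃ i j : ℕ, i < 5 ∧ j < 5 ∧ ∀ (x : K) (E : WeierstrassCurve K) (hΔ : E.Δ ≠ 0),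
      gF (U.eval x) (V.eval x) ≠ 0 →
      ∀ (ho : IsFive E (secOne (U.eval x) (V.eval x)))
        (ht : IsFive E (secTwo 5⁻¹ e (U.eval x) (V.eval x)))
        (hA : IsFive E (a.map (Polynomial.evalRingHom x))),
        i • secPt hΔ ho + j • secPt hΔ ht = secPt hΔ hA := by
  classical
  set o : Sec (Polynomial K) := secOne U V with ho'
  set t : Sec (Polynomial K) :=
    secTwo (Polynomial.C 5⁻¹) (Polynomial.C e) U V with ht'
  have hev : ∀ x : K, o.map (Polynomial.evalRingHom x) = secOne (U.eval x) (V.eval x) ∧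
      t.map (Polynomial.evalRingHom x) = secTwo 5⁻¹ e (U.eval x) (V.eval x) := fun x => by
    simp [ho', ht', map_secOne, map_secTwo]
  have hrel : ∀ (x : K) (i j : ℕ),
      Rel (secOne (U.eval x) (V.eval x)) (secTwo 5⁻¹ e (U.eval x) (V.eval x)) i j
        (a.map (Polynomial.evalRingHom x)).X (a.map (Polynomial.evalRingHom x)).Y ↔
      (relVals o t i j a.X a.Y).1.eval x = 0 ∧ (relVals o t i j a.X a.Y).2.eval x = 0 := by
    intro x i j
    obtain ⟨e1, e2⟩ := hev x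
    have := map_relVals (Polynomial.evalRingHom x) o t i j a.X a.Y
    rw [e1, e2] at this
    unfold Rel
    rw [show (a.map (Polynomial.evalRingHom x)).X = Polynomial.evalRingHom x a.X from rfl,
      show (a.map (Polynomial.evalRingHom x)).Y = Polynomial.evalRingHom x a.Y from rfl, ← this]
    rfl
  by_cases hid : ∃ i j : ℕ, i < 5 ∧ j < 5 ∧ relVals o t i j a.X a.Y = 0
  · obtain ⟨i, j, hi, hj, h0⟩ := hid
    refine ⟨i, j, hi, hj, fun x E hΔ hf ho ht hA => ?_⟩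
    rw [secPt, secPt, secPt]
    refine (comb_eq_iff_rel hΔ ho ht (indep_secOne_secTwo he hf) hi hj hA.1).2 ?_
    rw [hrel, h0]; simp
  · exfalso
    simp only [not_exists, not_and] at hid
    have hsel : ∀ p : Fin 5 × Fin 5, ∃ q : Polynomial K, q ≠ 0 ∧
        ∀ x, q.eval x ≠ 0 →
          ¬((relVals o t p.1.val p.2.val a.X a.Y).1.eval x = 0 ∧
            (relVals o t p.1.val p.2.val a.X a.Y).2.eval x = 0) := by
      intro p
      have h := hid _ _ p.1.isLt p.2.isLt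
      by_cases h1 : (relVals o t p.1.val p.2.val a.X a.Y).1 = 0
      · refine ⟨(relVals o t p.1.val p.2.val a.X a.Y).2, fun h2 => h (Prod.ext h1 h2),
          fun x hx hh => hx hh.2⟩
      · exact ⟨_, h1, fun x hx hh => hx hh.1⟩
    choose q hq0 hq using hsel
    have hprod : gF U V * ∏ p, q p ≠ 0 :=
      mul_ne_zero hg (Finset.prod_ne_zero_iff.2 fun p _ => hq0 p)
    obtain ⟨x, hx⟩ : ∃ x, (gF U V * ∏ p, q p).eval x ≠ 0 := by
      by_contra h
      simp only [not_exists, not_not] at h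
      exact hprod (Polynomial.funext fun x => by rw [h x, Polynomial.eval_zero])
    rw [Polynomial.eval_mul, ← Polynomial.coe_evalRingHom, map_gF, mul_ne_zero_iff] at hx
    obtain ⟨hf, hqx⟩ := hx
    simp only [Polynomial.coe_evalRingHom, Polynomial.eval_prod, Finset.prod_ne_zero_iff] at hf hqx
    set E := shortCurve (gH (U.eval x) (V.eval x)) (gT (U.eval x) (V.eval x)) with hE
    have h4 : E.c₄ = gH (U.eval x) (V.eval x) := shortCurve_c₄ _ _
    have h6 : E.c₆ = gT (U.eval x) (V.eval x) := shortCurve_c₆ _ _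
    have hΔ : E.Δ ≠ 0 := Δ_ne_zero_of_gF h4 h6 hf
    have ho := isFive_secOne h4 h6
    have ht := isFive_secTwo he h4 h6
    have hA := ha x E h4 h6
    obtain ⟨i, j, hi, hj, hij⟩ :=
      exists_comb hΔ ho ht (indep_secOne_secTwo he hf) _ (five_nsmul_secPt hΔ hA)
    rw [secPt, secPt, secPt] at hij
    exact hq ⟨⟨i, hi⟩, ⟨j, hj⟩⟩ x (hqx _ (Finset.mem_univ _))
      ((hrel x i j).1 ((comb_eq_iff_rel hΔ ho ht (indep_secOne_secTwo he hf) hi hj hA.1).1 hij))

end field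

section galois

variable {K : Type*} [Field K] [CharZero K] [DecidableEq K] [IsAlgClosed K]
  [Algebra ℚ K]

/-- A section as an element of the 5-torsion submodule. -/
noncomputable def secTor (W : WeierstrassCurve ℚ) (hΔ : (W⁄K).Δ ≠ 0) {s : Sec K}
    (hs : IsFive (W⁄K) s) : Submodule.torsionBy ℤ (W⁄K).Point (5 : ℕ) :=
  ⟨secPt hΔ hs, by
    rw [Submodule.mem_torsionBy_iff, natCast_zsmul]; exact five_nsmul_secPt hΔ hs⟩

omit [CharZero K] [DecidableEq K] [IsAlgClosed K] in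
theorem galois_toX (W : WeierstrassCurve ℚ) (σ : K ≃ₐ[ℚ] K) (X : K) :
    σ (toX (W⁄K) X) = toX (W⁄K) (σ X) := by
  simp [toX, baseChange, map_ofNat]

omit [CharZero K] [DecidableEq K] [IsAlgClosed K] in
theorem galois_toY (W : WeierstrassCurve ℚ) (σ : K ≃ₐ[ℚ] K) (X Y : K) :
    σ (toY (W⁄K) X Y) = toY (W⁄K) (σ X) (σ Y) := by
  simp [toY, galois_toX]
  simp [baseChange, map_ofNat]

omit [IsAlgClosed K] in
theorem smul_secTor (W : WeierstrassCurve ℚ) (hΔ : (W⁄K).Δ ≠ 0) (σ : K ≃ₐ[ℚ] K) {s : Sec K}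
    (hs : IsFive (W⁄K) s) (hs' : IsFive (W⁄K) (s.map (σ : K ≃+* K).toRingHom)) :
    σ • secTor W hΔ hs = secTor W hΔ hs' := by
  refine Subtype.ext ?_
  show σ • secPt hΔ hs = secPt hΔ hs'
  simp only [secPt, shortPoint, Affine.Point.algEquiv_smul_def, Affine.Point.map_some,
    Affine.Point.some.injEq]
  exact ⟨galois_toX W σ s.X, galois_toY W σ s.X s.Y⟩

omit [IsAlgClosed K] in
/-- The Galois image of a section, from a relation satisfied by the conjugate section. -/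
theorem smul_secTor_eq (W : WeierstrassCurve ℚ) (hΔ : (W⁄K).Δ ≠ 0) (σ : K ≃ₐ[ℚ] K)
    {s s' o t : Sec K}
    (hs : IsFive (W⁄K) s) (e : s.map (σ : K ≃+* K).toRingHom = s') (hs' : IsFive (W⁄K) s')
    (ho : IsFive (W⁄K) o) (ht : IsFive (W⁄K) t) {i j : ℕ}
    (h : i • secPt hΔ ho + j • secPt hΔ ht = secPt hΔ hs') :
    σ • secTor W hΔ hs = i • secTor W hΔ ho + j • secTor W hΔ ht := by
  subst e
  rw [smul_secTor W hΔ σ hs hs']
  refine Subtype.ext ?_
  simp only [secTor, Submodule.coe_add, Submodule.coe_smul_of_tower]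
  exact h.symm

/-- The basis of the 5-torsion given by two independent sections. -/
theorem exists_basisEquiv (W : WeierstrassCurve ℚ) (hΔ : (W⁄K).Δ ≠ 0) {o t : Sec K}
    (ho : IsFive (W⁄K) o) (ht : IsFive (W⁄K) t) (hI : Indep o t) :
    ∃ ψ : (ZMod 5 × ZMod 5) ≃ₗ[ZMod 5] Submodule.torsionBy ℤ (W⁄K).Point (5 : ℕ),
      ∀ p, ψ p = p.1.val • secTor W hΔ ho + p.2.val • secTor W hΔ ht := by
  set f : (ZMod 5 × ZMod 5) →ₗ[ZMod 5] Submodule.torsionBy ℤ (W⁄K).Point (5 : ℕ) :=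
    (LinearMap.toSpanSingleton (ZMod 5) _ (secTor W hΔ ho)).coprod
      (LinearMap.toSpanSingleton (ZMod 5) _ (secTor W hΔ ht)) with hf
  have hval : ∀ p : ZMod 5 × ZMod 5,
      f p = p.1.val • secTor W hΔ ho + p.2.val • secTor W hΔ ht := fun p => by
    simp only [hf, LinearMap.coprod_apply, LinearMap.toSpanSingleton_apply]
    rw [← Nat.cast_smul_eq_nsmul (ZMod 5), ← Nat.cast_smul_eq_nsmul (ZMod 5),
      ZMod.natCast_zmod_val, ZMod.natCast_zmod_val]
  have hbij : Function.Bijective f := by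
    constructor
    · rw [injective_iff_map_eq_zero]
      intro p hp
      rw [hval] at hp
      have hp' : p.1.val • secPt hΔ ho + p.2.val • secPt hΔ ht = 0 := congrArg Subtype.val hp
      obtain ⟨h1, h2⟩ := eq_zero_of_comb hΔ ho ht hI (ZMod.val_lt _) (ZMod.val_lt _) hp'
      exact Prod.ext ((ZMod.val_eq_zero _).1 h1) ((ZMod.val_eq_zero _).1 h2)
    · rintro ⟨P, hP⟩
      rw [Submodule.mem_torsionBy_iff, natCast_zsmul] at hP
      obtain ⟨i, j, hi, hj, h⟩ := exists_comb hΔ ho ht hI P hP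
      refine ⟨((i : ZMod 5), (j : ZMod 5)), ?_⟩
      rw [hval, ZMod.val_cast_of_lt hi, ZMod.val_cast_of_lt hj]
      exact Subtype.ext h
  exact ⟨LinearEquiv.ofBijective f hbij, hval⟩

/-- Two curves on one rational Rubin–Silverberg line have equal traces on their 5-torsion. -/
theorem galoisTrace_eq (W W' : WeierstrassCurve ℚ) (u v e : K)
    (he : e ^ 4 + e ^ 3 + e ^ 2 + e + 1 = 0)
    (h4 : gH u v = (W⁄K).c₄) (h6 : gT u v = (W⁄K).c₆) (hf : gF u v ≠ 0)
    (a b : ℕ → ℚ) (ha : ∀ r s : K, gH (lineX u v r s) (lineY u v r s) =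
      ∑ i ∈ Finset.range 21, (a i : K) * r ^ i * s ^ (20 - i))
    (hb : ∀ r s : K, gT (lineX u v r s) (lineY u v r s) =
      ∑ i ∈ Finset.range 31, (b i : K) * r ^ i * s ^ (30 - i))
    (r₀ s₀ : ℚ) (hf' : gF (lineX u v (r₀ : K) s₀) (lineY u v (r₀ : K) s₀) ≠ 0)
    (h4' : (W'⁄K).c₄ = gH (lineX u v (r₀ : K) s₀) (lineY u v (r₀ : K) s₀))
    (h6' : (W'⁄K).c₆ = gT (lineX u v (r₀ : K) s₀) (lineY u v (r₀ : K) s₀)) (σ : K ≃ₐ[ℚ] K) :
    Affine.Point.galoisTrace ℚ W.toAffine 5 σ = Affine.Point.galoisTrace ℚ W'.toAffine 5 σ := by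
  classical
  have hΔ : (W⁄K).Δ ≠ 0 := Δ_ne_zero_of_gF h4.symm h6.symm hf
  have hΔ' : (W'⁄K).Δ ≠ 0 := Δ_ne_zero_of_gF h4' h6' hf'
  set σ' : K →+* K := (σ : K ≃+* K).toRingHom with hσ'
  have σapp : ∀ x, σ' x = σ x := fun _ => rfl
  have σq : ∀ q : ℚ, σ' (q : K) = q := fun q => map_ratCast σ' q
  have σline : ∀ r s : K, σ' (lineX u v r s) = lineX (σ' u) (σ' v) (σ' r) (σ' s) ∧
      σ' (lineY u v r s) = lineY (σ' u) (σ' v) (σ' r) (σ' s) := fun r s => by
    simp [lineX, lineY, map_gFu, map_gFv]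
  have hline : ∀ r s : K,
      gH (lineX (σ' u) (σ' v) r s) (lineY (σ' u) (σ' v) r s) =
        gH (lineX u v r s) (lineY u v r s) ∧
      gT (lineX (σ' u) (σ' v) r s) (lineY (σ' u) (σ' v) r s) =
        gT (lineX u v r s) (lineY u v r s) := by
    intro r s
    obtain ⟨r', rfl⟩ : ∃ r', σ' r' = r := ⟨σ.symm r, σ.apply_symm_apply r⟩
    obtain ⟨s', rfl⟩ : ∃ s', σ' s' = s := ⟨σ.symm s, σ.apply_symm_apply s⟩
    obtain ⟨e1, e2⟩ := σline r' s'
    rw [← e1, ← e2, ← map_gH, ← map_gT, ha, hb, ha, hb, map_sum, map_sum]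
    simp [σq]
  -- the polynomial path from `(0, 1)` to `(r₀, s₀)`
  let pr : Polynomial K := Polynomial.X * Polynomial.C (r₀ : K)
  let ps : Polynomial K := 1 + Polynomial.X * Polynomial.C ((s₀ : K) - 1)
  let U : K → K → Polynomial K := fun u v =>
    ps * Polynomial.C u + pr * Polynomial.C (gFv u v)
  let V : K → K → Polynomial K := fun u v =>
    ps * Polynomial.C v + pr * Polynomial.C (-gFu u v)
  have hevU : ∀ u v x : K, (U u v).eval x = lineX u v (x * r₀) (1 + x * (s₀ - 1)) := fun u v x => by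
    simp only [U, pr, ps, lineX, Polynomial.eval_add, Polynomial.eval_mul, Polynomial.eval_C,
      Polynomial.eval_X, Polynomial.eval_one]
  have hevV : ∀ u v x : K, (V u v).eval x = lineY u v (x * r₀) (1 + x * (s₀ - 1)) := fun u v x => by
    simp only [V, pr, ps, lineY, Polynomial.eval_add, Polynomial.eval_mul, Polynomial.eval_C,
      Polynomial.eval_X, Polynomial.eval_one]
  have hg : gF (U u v) (V u v) ≠ 0 := fun h => hf (by
    have := congrArg (Polynomial.evalRingHom 0) h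
    rw [map_gF, map_zero] at this
    simpa [hevU, hevV, lineX, lineY] using this)
  have at0 : ∀ u v : K, (U u v).eval 0 = u ∧ (V u v).eval 0 = v := fun u v => by
    simp [hevU, hevV, lineX, lineY]
  have at1 : ∀ u v : K, (U u v).eval 1 = lineX u v r₀ s₀ ∧ (V u v).eval 1 = lineY u v r₀ s₀ :=
    fun u v => by simp [hevU, hevV]
  have he' : (σ' e) ^ 4 + (σ' e) ^ 3 + (σ' e) ^ 2 + σ' e + 1 = 0 := by
    simpa using congrArg σ' he
  have σcurve : ∀ (X : WeierstrassCurve ℚ),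
      σ' (X⁄K).c₄ = (X⁄K).c₄ ∧ σ' (X⁄K).c₆ = (X⁄K).c₆ := fun X => by
    simp only [baseChange, map_c₄, map_c₆, σapp, AlgEquiv.commutes, and_self]
  have ho0 : IsFive (W⁄K) (secOne u v) := isFive_secOne h4.symm h6.symm
  have ht0 : IsFive (W⁄K) (secTwo 5⁻¹ e u v) := isFive_secTwo he h4.symm h6.symm
  have ho1 := isFive_secOne (E := W'⁄K) h4' h6'
  have ht1 := isFive_secTwo (E := W'⁄K) he h4' h6'
  have σ4 : (W⁄K).c₄ = gH (σ' u) (σ' v) := by rw [← map_gH, h4, (σcurve W).1]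
  have σ6 : (W⁄K).c₆ = gT (σ' u) (σ' v) := by rw [← map_gT, h6, (σcurve W).2]
  have σ4' : (W'⁄K).c₄ = gH (lineX (σ' u) (σ' v) r₀ s₀) (lineY (σ' u) (σ' v) r₀ s₀) := by
    rw [(hline _ _).1, h4']
  have σ6' : (W'⁄K).c₆ = gT (lineX (σ' u) (σ' v) r₀ s₀) (lineY (σ' u) (σ' v) r₀ s₀) := by
    rw [(hline _ _).2, h6']
  have so1 : (secOne (lineX u v (r₀ : K) s₀) (lineY u v (r₀ : K) s₀)).map σ' =
      secOne (lineX (σ' u) (σ' v) r₀ s₀) (lineY (σ' u) (σ' v) r₀ s₀) := by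
    rw [map_secOne, (σline _ _).1, (σline _ _).2, σq, σq]
  have st1 : (secTwo 5⁻¹ e (lineX u v (r₀ : K) s₀) (lineY u v (r₀ : K) s₀)).map σ' =
      secTwo 5⁻¹ (σ' e) (lineX (σ' u) (σ' v) r₀ s₀) (lineY (σ' u) (σ' v) r₀ s₀) := by
    rw [map_secTwo, (σline _ _).1, (σline _ _).2, σq, σq, map_inv₀, map_ofNat]
  have so0 : (secOne u v).map σ' = secOne (σ' u) (σ' v) := map_secOne _ _ _
  have st0 : (secTwo 5⁻¹ e u v).map σ' = secTwo 5⁻¹ (σ' e) (σ' u) (σ' v) := by
    rw [map_secTwo, map_inv₀, map_ofNat]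
  obtain ⟨i₁, j₁, hi₁, hj₁, hc₁⟩ := exists_comb_section he (U u v) (V u v) hg
    (secOne (U (σ' u) (σ' v)) (V (σ' u) (σ' v))) (fun x E e4 e6 => by
      rw [map_secOne]
      refine isFive_secOne ?_ ?_
      · simp only [Polynomial.coe_evalRingHom, hevU, hevV] at e4 ⊢; rw [e4, (hline _ _).1]
      · simp only [Polynomial.coe_evalRingHom, hevU, hevV] at e6 ⊢; rw [e6, (hline _ _).2])
  obtain ⟨i₂, j₂, hi₂, hj₂, hc₂⟩ := exists_comb_section he (U u v) (V u v) hg
    (secTwo (Polynomial.C 5⁻¹) (Polynomial.C (σ' e)) (U (σ' u) (σ' v)) (V (σ' u) (σ' v)))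
    (fun x E e4 e6 => by
      rw [map_secTwo]
      simp only [Polynomial.coe_evalRingHom, Polynomial.eval_C]
      refine isFive_secTwo he' ?_ ?_
      · simp only [hevU, hevV] at e4 ⊢; rw [e4, (hline _ _).1]
      · simp only [hevU, hevV] at e6 ⊢; rw [e6, (hline _ _).2])
  obtain ⟨ψ₀, hψ₀⟩ := exists_basisEquiv W hΔ ho0 ht0 (indep_secOne_secTwo he hf)
  obtain ⟨ψ₁, hψ₁⟩ := exists_basisEquiv W' hΔ' ho1 ht1 (indep_secOne_secTwo he hf')
  set Φ := ψ₀.symm.trans ψ₁ with hΦ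
  have hΦcomb : ∀ i j : ℕ, i < 5 → j < 5 →
      Φ (i • secTor W hΔ ho0 + j • secTor W hΔ ht0) =
        i • secTor W' hΔ' ho1 + j • secTor W' hΔ' ht1 := by
    intro i j hi hj
    have e0 := hψ₀ ((i : ZMod 5), (j : ZMod 5))
    have e1 := hψ₁ ((i : ZMod 5), (j : ZMod 5))
    rw [ZMod.val_cast_of_lt hi, ZMod.val_cast_of_lt hj] at e0 e1
    rw [← e0, hΦ, LinearEquiv.trans_apply, LinearEquiv.symm_apply_apply, e1]
  -- images of the first generator
  have hP0 : σ • secTor W hΔ ho0 = i₁ • secTor W hΔ ho0 + j₁ • secTor W hΔ ht0 := by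
    have hA := isFive_secOne σ4 σ6
    have := hc₁ 0 (W⁄K) hΔ (by rw [(at0 u v).1, (at0 u v).2]; exact hf)
    simp only [map_secOne, Polynomial.coe_evalRingHom, at0] at this
    exact smul_secTor_eq W hΔ σ ho0 so0 hA ho0 ht0 (this ho0 ht0 hA)
  have hQ0 : σ • secTor W hΔ ht0 = i₂ • secTor W hΔ ho0 + j₂ • secTor W hΔ ht0 := by
    have hA := isFive_secTwo he' σ4 σ6
    have := hc₂ 0 (W⁄K) hΔ (by rw [(at0 u v).1, (at0 u v).2]; exact hf)
    simp only [map_secTwo, Polynomial.coe_evalRingHom, Polynomial.eval_C, at0] at this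
    exact smul_secTor_eq W hΔ σ ht0 st0 hA ho0 ht0 (this ho0 ht0 hA)
  have hP1 : σ • secTor W' hΔ' ho1 = i₁ • secTor W' hΔ' ho1 + j₁ • secTor W' hΔ' ht1 := by
    have hA := isFive_secOne σ4' σ6'
    have := hc₁ 1 (W'⁄K) hΔ' (by rw [(at1 u v).1, (at1 u v).2]; exact hf')
    simp only [map_secOne, Polynomial.coe_evalRingHom, at1] at this
    exact smul_secTor_eq W' hΔ' σ ho1 so1 hA ho1 ht1 (this ho1 ht1 hA)
  have hQ1 : σ • secTor W' hΔ' ht1 = i₂ • secTor W' hΔ' ho1 + j₂ • secTor W' hΔ' ht1 := by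
    have hA := isFive_secTwo he' σ4' σ6'
    have := hc₂ 1 (W'⁄K) hΔ' (by rw [(at1 u v).1, (at1 u v).2]; exact hf')
    simp only [map_secTwo, Polynomial.coe_evalRingHom, Polynomial.eval_C, at1] at this
    exact smul_secTor_eq W' hΔ' σ ht1 st1 hA ho1 ht1 (this ho1 ht1 hA)
  have hconj : Φ.conj (Affine.Point.galoisRepModuleEnd ℚ W.toAffine 5 σ) =
      Affine.Point.galoisRepModuleEnd ℚ W'.toAffine 5 σ := by
    apply LinearMap.ext
    intro y
    obtain ⟨⟨i, j⟩, rfl⟩ := ψ₁.surjective y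
    rw [LinearEquiv.conj_apply_apply]
    have hs : Φ.symm (ψ₁ (i, j)) = ψ₀ (i, j) := by simp [hΦ]
    rw [hs, hψ₀, hψ₁]
    simp only [map_add, map_nsmul, Affine.Point.galoisRepModuleEnd_apply, hP0, hQ0, hP1, hQ1,
      hΦcomb _ _ hi₁ hj₁, hΦcomb _ _ hi₂ hj₂]
  rw [Affine.Point.galoisTrace_def, Affine.Point.galoisTrace_def, ← hconj,
    LinearMap.trace_conj']

end galois

end Fermat.Agent.Switch
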