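import Fermat.Prelude.Def_EllipticCurve_FrobeniusTrace
import Fermat.Agent.Switch.Choose
import Fermat.Agent.Switch.Galois

/-!
The 3–5 switch: a semistable curve with irreducible mod 3 representation and the same traces
on the 5-torsion.
-/

open WeierstrassCurve
open scoped WeierstrassCurve.Affine

namespace Fermat.Agent.Switch

/-- A semistable curve with irreducible 3-torsion and the traces of `W` on the 5-torsion. -/
theorem exists_switch (W : WeierstrassCurve ℤ) (hΔ : W.Δ ≠ 0) (hW : W.IsSemistableModel) :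
    ∃ W' : WeierstrassCurve ℤ, W'.Δ ≠ 0 ∧ W'.IsSemistableModel ∧ W'.ModRepIsIrreducible 3 ∧
      ∀ σ : AlgebraicClosure ℚ ≃ₐ[ℚ] AlgebraicClosure ℚ,
        Affine.Point.galoisTrace ℚ (W.map (Int.castRingHom ℚ)).toAffine 5 σ =
          Affine.Point.galoisTrace ℚ (W'.map (Int.castRingHom ℚ)).toAffine 5 σ := by
  classical
  have hne : (W.c₄ : AlgebraicClosure ℚ) ^ 3 ≠ (W.c₆ : AlgebraicClosure ℚ) ^ 2 := by
    intro e
    have e' : W.c₄ ^ 3 = W.c₆ ^ 2 := by exact_mod_cast e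
    have h := W.c_relation
    rw [e', sub_self] at h
    exact hΔ (by simpa using h)
  obtain ⟨u, v, h4, h6⟩ := exists_param hne
  have hf : gF u v ≠ 0 := by
    intro e
    refine hne (sub_eq_zero.1 ?_)
    rw [← h4, ← h6, gH_cube_sub_gT_sq, e]
    ring
  obtain ⟨a, b, c, ha0, hb0, hc0, hline⟩ :=
    exists_rat_coeffs (C4 := (W.c₄ : ℚ)) (C6 := (W.c₆ : ℚ)) (by rw [h4, Rat.cast_intCast])
      (by rw [h6, Rat.cast_intCast]) hf
  have D : LineData u v a b c :=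
    ⟨hf, hb0, fun r s => (hline r s).1, fun r s => (hline r s).2.1, fun r s => (hline r s).2.2⟩
  obtain ⟨W', r, s, h'Δ, h'ss, h'irr, h'f, h'4, h'6⟩ :=
    exists_switch_curve W hΔ hW h4 h6 D ha0 hc0
  obtain ⟨ζ, hζ⟩ := IsAlgClosed.exists_root
    (Polynomial.X ^ 4 + Polynomial.X ^ 3 + Polynomial.X ^ 2 + Polynomial.X + 1 :
      Polynomial (AlgebraicClosure ℚ))
      (ne_of_eq_of_ne (b := (4 : WithBot ℕ)) (by compute_degree!) (by decide))
  have he : ζ ^ 4 + ζ ^ 3 + ζ ^ 2 + ζ + 1 = 0 := by simpa using hζ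
  refine ⟨W', h'Δ, h'ss, h'irr, fun σ => ?_⟩
  exact galoisTrace_eq (W.map (Int.castRingHom ℚ)) (W'.map (Int.castRingHom ℚ)) u v ζ he
    (by rw [h4]; simp [baseChange]) (by rw [h6]; simp [baseChange]) hf a c
    (fun r s => (hline r s).1) (fun r s => (hline r s).2.2) r s h'f
    (by rw [← h'4]; simp [baseChange]) (by rw [← h'6]; simp [baseChange]) σ

/-- The 3–5 switch, given that the trace of Frobenius on the 5-torsion is the trace of the
reduction. -/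
theorem threeFiveSwitch
    (hFrob : ∀ (V : WeierstrassCurve ℤ) (ℓ : ℕ), ℓ.Prime → ℓ ≠ 5 → V.IsGoodPrimeFor ℓ →
      ∀ (A : ValuationSubring (AlgebraicClosure ℚ))
        (σ : AlgebraicClosure ℚ ≃ₐ[ℚ] AlgebraicClosure ℚ),
        A.LiesOverPrime ℓ → A.IsFrobeniusAt σ ℓ →
        Affine.Point.galoisTrace ℚ (V.map (Int.castRingHom ℚ)).toAffine 5 σ =
            (V.apOfModel ℓ : ZMod 5))
    (hex : ∀ ℓ : ℕ, ℓ.Prime → ∃ (A : ValuationSubring (AlgebraicClosure ℚ))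
      (σ : AlgebraicClosure ℚ ≃ₐ[ℚ] AlgebraicClosure ℚ), A.LiesOverPrime ℓ ∧ A.IsFrobeniusAt σ ℓ)
    (W : WeierstrassCurve ℤ) (hΔ : W.Δ ≠ 0) (hW : W.IsSemistableModel) :
    ∃ W' : WeierstrassCurve ℤ, W'.Δ ≠ 0 ∧ W'.IsSemistableModel ∧ W'.ModRepIsIrreducible 3 ∧
      ∀ ℓ : ℕ, ℓ.Prime → W.IsGoodPrimeFor ℓ → W'.IsGoodPrimeFor ℓ → ℓ ≠ 5 →
        (5 : ℤ) ∣ (W'.apOfModel ℓ - W.apOfModel ℓ) := by
  obtain ⟨W', h1, h2, h3, h4⟩ := exists_switch W hΔ hW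
  refine ⟨W', h1, h2, h3, fun ℓ hℓ hg hg' h5 => ?_⟩
  obtain ⟨A, σ, hA, hσ⟩ := hex ℓ hℓ
  have e := h4 σ
  rw [hFrob W ℓ hℓ h5 hg A σ hA hσ, hFrob W' ℓ hℓ h5 hg' A σ hA hσ] at e
  exact (ZMod.intCast_eq_intCast_iff_dvd_sub _ _ 5).1 e

end Fermat.Agent.Switch
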