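import Fermat.Agent.Switch.Family
import Fermat.Agent.Switch.Hilbert

/-!
Rational homogeneous forms on the Rubin–Silverberg line and their properties.
-/

open Polynomial

namespace Fermat.Agent.Switch

section hom

variable {R : Type*} [CommRing R] {S : Type*} [CommRing S]

/-- A binary form given by its coefficients. -/
def homForm (n : ℕ) (a : ℕ → R) (r s : R) : R :=
  ∑ i ∈ Finset.range (n + 1), a i * r ^ i * s ^ (n - i)

theorem map_homForm (φ : R →+* S) (n : ℕ) (a : ℕ → R) (r s : R) :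
    φ (homForm n a r s) = homForm n (fun i => φ (a i)) (φ r) (φ s) := by
  simp [homForm]

/-- Homogeneity of `homForm`. -/
theorem homForm_scale (n : ℕ) (a : ℕ → R) (x r s : R) :
    homForm n a (x * r) (x * s) = x ^ n * homForm n a r s := by
  rw [homForm, homForm, Finset.mul_sum]
  refine Finset.sum_congr rfl fun i hi => ?_
  have hi : i ≤ n := Nat.lt_succ_iff.1 (Finset.mem_range.1 hi)
  rw [← Nat.add_sub_cancel' hi, pow_add, Nat.add_sub_cancel_left, mul_pow, mul_pow]
  ring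

theorem dvd_homForm_sub (n : ℕ) (a : ℕ → R) (r s : R) : r ∣ homForm n a r s - a 0 * s ^ n := by
  rw [homForm, Finset.sum_range_succ', pow_zero, mul_one, Nat.sub_zero, add_sub_cancel_right]
  exact Finset.dvd_sum fun i _ =>
    Dvd.dvd.mul_right (Dvd.dvd.mul_left (dvd_pow_self r (Nat.succ_ne_zero i)) _) _

theorem homForm_zero (n : ℕ) (a : ℕ → R) (r : R) : homForm n a r 0 = a n * r ^ n := by
  rw [homForm, Finset.sum_range_succ, Nat.sub_self, pow_zero, mul_one, add_eq_right]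
  refine Finset.sum_eq_zero fun i hi => ?_
  rw [zero_pow (Nat.sub_ne_zero_of_lt (Finset.mem_range.1 hi)), mul_zero]

/-- The dehomogenised form. -/
noncomputable def dehom (n : ℕ) (a : ℕ → R) : R[X] :=
  homForm n (fun i => Polynomial.C (a i)) Polynomial.X 1

theorem eval_dehom (n : ℕ) (a : ℕ → R) (x : R) : (dehom n a).eval x = homForm n a x 1 := by
  simp [dehom, homForm, eval_finsetSum]

theorem map_dehom (φ : R →+* S) (n : ℕ) (a : ℕ → R) :
    (dehom n a).map φ = dehom n (fun i => φ (a i)) := by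
  simp [dehom, homForm, Polynomial.map_sum]

end hom

/-- An integral combination with integral value close to the constant coefficient. -/
theorem exists_int_homForm {n : ℕ} {a : ℕ → ℚ} {A : ℕ → ℤ} {L N₀ a₀ : ℤ} (hL : L ≠ 0)
    (hA : ∀ i ≤ n, (A i : ℚ) = L * a i) (h0 : a 0 = a₀) {r s : ℤ} (hr : L * N₀ ∣ r)
    (hs : N₀ ∣ s - 1) :
    ∃ z : ℤ, (z : ℚ) = homForm n a (r : ℚ) (s : ℚ) ∧ N₀ ∣ z - a₀ ∧ homForm n A r s = L * z := by
  have hA0 : A 0 = L * a₀ := by
    have := hA 0 (Nat.zero_le n); rw [h0] at this; exact_mod_cast this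
  obtain ⟨w, hw⟩ := hr.trans (dvd_homForm_sub n A r s)
  have hcast : ((homForm n A r s : ℤ) : ℚ) = L * homForm n a (r : ℚ) (s : ℚ) := by
    rw [← eq_intCast (Int.castRingHom ℚ), map_homForm, homForm, homForm, Finset.mul_sum]
    refine Finset.sum_congr rfl fun i hi => ?_
    simp only [eq_intCast]
    rw [hA i (Nat.lt_succ_iff.1 (Finset.mem_range.1 hi))]; ring
  have hz : homForm n A r s = L * (a₀ * s ^ n + N₀ * w) := by
    linear_combination hw + s ^ n * hA0
  refine ⟨a₀ * s ^ n + N₀ * w, ?_, ?_, hz⟩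
  · rw [hz] at hcast
    refine mul_left_cancel₀ (Int.cast_ne_zero.2 hL : (L : ℚ) ≠ 0) ?_
    rw [← hcast]; push_cast; ring
  · rw [show a₀ * s ^ n + N₀ * w - a₀ = a₀ * (s ^ n - 1) + N₀ * w by ring]
    refine dvd_add (Dvd.dvd.mul_left (hs.trans ?_) _) (dvd_mul_right _ _)
    simpa using sub_dvd_pow_sub_pow s 1 n

/-- A common denominator. -/
theorem exists_common_den (n : ℕ) (a : ℕ → ℚ) :
    ∃ L : ℕ, 0 < L ∧ ∀ i ≤ n, (a i).den ∣ L :=
  ⟨∏ i ∈ Finset.range (n + 1), (a i).den, Finset.prod_pos fun _ _ => Rat.den_pos _,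
    fun _ hi => Finset.dvd_prod_of_mem _ (Finset.mem_range.2 (Nat.lt_succ_of_le hi))⟩

/-- Clearing denominators of a sequence of rationals. -/
theorem exists_int_coeffs {n : ℕ} {a : ℕ → ℚ} {L : ℕ} (h : ∀ i ≤ n, (a i).den ∣ L) :
    ∃ A : ℕ → ℤ, ∀ i ≤ n, (A i : ℚ) = (L : ℤ) * a i := by
  refine ⟨fun i => (a i).num * ((L / (a i).den : ℕ) : ℤ), fun i hi => ?_⟩
  have hd : ((a i).den : ℚ) ≠ 0 := Nat.cast_ne_zero.2 (a i).den_nz
  obtain ⟨k, hk⟩ := h i hi
  dsimp only
  rw [hk, Nat.mul_div_cancel_left _ (a i).den_pos]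
  push_cast
  calc ((a i).num : ℚ) * k = (a i * (a i).den) * k := by rw [Rat.mul_den_eq_num]
    _ = _ := by ring

/-- An integral Bézout relation. -/
theorem exists_int_bezout {P Q : ℤ[X]}
    (h : IsCoprime (P.map (Int.castRingHom ℚ)) (Q.map (Int.castRingHom ℚ))) :
    ∃ N₁ : ℤ, N₁ ≠ 0 ∧ ∃ U V : ℤ[X], U * P + V * Q = Polynomial.C N₁ := by
  obtain ⟨u, v, huv⟩ := h
  obtain ⟨b, hb, eu⟩ := IsLocalization.integerNormalization_spec (nonZeroDivisors ℤ) u
  obtain ⟨d, hd, ev⟩ := IsLocalization.integerNormalization_spec (nonZeroDivisors ℤ) v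
  set U := IsLocalization.integerNormalization (nonZeroDivisors ℤ) u
  set V := IsLocalization.integerNormalization (nonZeroDivisors ℤ) v
  refine ⟨b * d, mul_ne_zero (nonZeroDivisors.ne_zero hb) (nonZeroDivisors.ne_zero hd),
    Polynomial.C d * U, Polynomial.C b * V, ?_⟩
  apply Polynomial.map_injective (Int.castRingHom ℚ) Int.cast_injective
  simp only [algebraMap_int_eq] at eu ev
  simp only [Polynomial.map_add, Polynomial.map_mul, Polynomial.map_C, eu, ev,
    Int.coe_castRingHom]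
  rw [← smul_C_mul, ← smul_C_mul]
  rw [Int.cast_mul, map_mul]
  linear_combination (Polynomial.C (b : ℚ) * Polynomial.C (d : ℚ)) * huv
where
  smul_C_mul {b : ℤ} {p : ℚ[X]} : Polynomial.C (b : ℚ) * p = b • p := by
    rw [← Polynomial.smul_eq_C_mul, Int.cast_smul_eq_zsmul]

/-- A nonzero rational polynomial is nonzero at some natural number. -/
theorem exists_natCast_ne_root {P : ℚ[X]} (hP : P ≠ 0) : ∃ k : ℕ, P.eval (k : ℚ) ≠ 0 := by
  by_contra h
  simp only [not_exists, not_not] at h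
  exact hP (Polynomial.eq_zero_of_infinite_isRoot P
    ((Set.infinite_range_of_injective Nat.cast_injective).mono
      (by rintro _ ⟨k, rfl⟩; exact h k)))

section field

variable {K : Type*} [Field K] [CharZero K] [IsAlgClosed K]

/-- Every pair of invariants of a nonsingular curve occurs in the icosahedral family. -/
theorem exists_param {C4 C6 : K} (h : C4 ^ 3 ≠ C6 ^ 2) : ∃ u v : K, gH u v = C4 ∧ gT u v = C6 := by
  set P : K[X] := Polynomial.C (C6 ^ 2) * gH Polynomial.X 1 ^ 3 -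
    Polynomial.C (C4 ^ 3) * gT Polynomial.X 1 ^ 2 with hP
  have hdeg : P.degree ≠ 0 := by
    have hc : P.coeff 60 = C6 ^ 2 - C4 ^ 3 := by
      rw [hP, gH, gT]
      simp only [one_pow, mul_one]
      compute_degree!
    intro h0
    rw [coeff_eq_zero_of_degree_lt (by rw [h0]; exact Nat.cast_pos.2 (by norm_num : 0 < 60))] at hc
    exact h (sub_eq_zero.1 hc.symm).symm
  obtain ⟨z, hz⟩ := IsAlgClosed.exists_root P hdeg
  have hz : C6 ^ 2 * gH z 1 ^ 3 = C4 ^ 3 * gT z 1 ^ 2 := by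
    have hz' : P.eval z = 0 := hz
    rw [hP, eval_sub, eval_mul, eval_mul, eval_pow, eval_pow, eval_C, eval_C,
      ← coe_evalRingHom, map_gH, map_gT] at hz'
    simp only [coe_evalRingHom, eval_X, eval_one] at hz'
    exact sub_eq_zero.1 hz'
  set A := gH z 1 with hA
  set B := gT z 1 with hB
  have hAB : A ≠ 0 ∨ B ≠ 0 := by
    by_contra hh
    simp only [not_or, not_not] at hh
    have := gH_cube_sub_gT_sq z (1 : K)
    rw [← hA, ← hB, hh.1, hh.2] at this
    have hf : gF z (1 : K) = 0 := by simpa using this.symm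
    exact one_ne_zero (eq_zero_of_gF_gH hf hh.1).2
  obtain ⟨w, hw2, hw3⟩ : ∃ w : K, A * w ^ 2 = C4 ∧ B * w ^ 3 = C6 := by
    by_cases hA0 : A = 0
    · have hB0 : B ≠ 0 := hAB.resolve_left (not_not.2 hA0)
      have hC4 : C4 = 0 := by simpa [hA0, hB0] using hz.symm
      obtain ⟨w, hw⟩ := IsAlgClosed.exists_pow_nat_eq (C6 / B) (by norm_num : 0 < 3)
      exact ⟨w, by simp [hA0, hC4], by rw [hw]; field_simp⟩
    by_cases hC4 : C4 = 0
    · have hC6 : C6 ≠ 0 := fun e => h (by simp [hC4, e])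
      exact absurd (by simpa [hC4, hC6] using hz) hA0
    by_cases hB0 : B = 0
    · have hC6 : C6 = 0 := by simpa [hA0, hB0] using hz
      obtain ⟨w, hw⟩ := IsAlgClosed.exists_pow_nat_eq (C4 / A) (by norm_num : 0 < 2)
      exact ⟨w, by rw [hw]; field_simp, by simp [hB0, hC6]⟩
    refine ⟨(C6 / B) / (C4 / A), ?_, ?_⟩
    · field_simp; linear_combination hz
    · field_simp; linear_combination C6 * hz
  obtain ⟨x, hx⟩ := IsAlgClosed.exists_pow_nat_eq w (by norm_num : 0 < 10)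
  refine ⟨x * z, x * 1, ?_, ?_⟩
  · rw [gH_scale, ← hA, ← hw2, ← hx]; ring
  · rw [gT_scale, ← hB, ← hw3, ← hx]; ring

end field

/-- If `C ^ 3 - D ^ 2 = κ Q ^ 5` with `Q` separable of degree `12` and prime to `C`, the quartic
attached to `C` and `D` has no root of degree at most `10`. -/
theorem quartic_ne_zero_of_coprime {F : Type*} [Field F] [CharZero F] {C D Q U : F[X]} {κ : F}
    (hκ : κ ≠ 0) (h : C ^ 3 - D ^ 2 = Polynomial.C κ * Q ^ 5) (hCQ : IsCoprime C Q)
    (hQ : Q.Separable) (hdQ : Q.natDegree = 12) (hdC : C.natDegree ≤ 20) (hdU : U.natDegree ≤ 10) :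
    quartic C D U ≠ 0 := by
  intro hroot
  unfold quartic at hroot
  have key : (U ^ 2 - C) ^ 3 * (U ^ 2 - 9 * C) = -(64 * Polynomial.C κ) * U ^ 2 * Q ^ 5 := by
    linear_combination (U ^ 4 - 6 * C * U ^ 2 - 3 * C ^ 2 + 8 * D * U) * hroot - 64 * U ^ 2 * h
  have hQ0 : Q ≠ 0 := by rintro rfl; simp at hdQ
  have h8 : IsUnit (8 : F[X]) := by
    rw [← map_ofNat Polynomial.C 8]
    exact Polynomial.isUnit_C.2 (Ne.isUnit (by norm_num))
  have hcop : IsCoprime Q (U ^ 2 - C) := by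
    rw [← isRelPrime_iff_isCoprime]
    refine WfDvdMonoid.isRelPrime_of_no_irreducible_factors (fun e => hQ0 e.1)
      fun p hp hpQ hpUC => ?_
    have hp' : Prime p := hp.prime
    have hpC : ¬ p ∣ C := fun e => hp'.not_isUnit (hCQ.isUnit_of_dvd' e hpQ)
    have hpU : ¬ p ∣ U := fun e => hpC (by
      have := dvd_sub (dvd_pow e two_ne_zero) hpUC
      rwa [sub_sub_cancel] at this)
    have hpUC9 : ¬ p ∣ U ^ 2 - 9 * C := fun e => hpC (by
      have := dvd_sub hpUC e
      rw [show U ^ 2 - C - (U ^ 2 - 9 * C) = 8 * C by ring] at this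
      exact (hp'.dvd_or_dvd this).resolve_left fun e' => hp'.not_isUnit (isUnit_of_dvd_unit e' h8))
    obtain ⟨Q', hQ'⟩ := hpQ
    have hpQ' : ¬ p ∣ Q' := fun ⟨q, hq⟩ =>
      hp'.not_isUnit (hQ.squarefree p ⟨q, by rw [hQ', hq]; ring⟩)
    obtain ⟨W, hW⟩ := hpUC
    rw [hW, hQ'] at key
    have key' : W ^ 3 * (U ^ 2 - 9 * C) = p ^ 2 * (-(64 * Polynomial.C κ) * U ^ 2 * Q' ^ 5) :=
      mul_left_cancel₀ (pow_ne_zero 3 hp'.ne_zero) (by linear_combination key)
    have hpW : p ∣ W := hp'.dvd_of_dvd_pow ((hp'.dvd_or_dvd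
      (by rw [key']; exact Dvd.dvd.mul_right (dvd_pow_self p two_ne_zero) _)).resolve_right hpUC9)
    obtain ⟨W', hW'⟩ := hpW
    rw [hW'] at key'
    have key'' : p * (W' ^ 3 * (U ^ 2 - 9 * C)) = -(64 * Polynomial.C κ) * U ^ 2 * Q' ^ 5 :=
      mul_left_cancel₀ (pow_ne_zero 2 hp'.ne_zero) (by linear_combination key')
    have hd : p ∣ -(64 * Polynomial.C κ) * U ^ 2 * Q' ^ 5 := Dvd.intro _ key''
    have hu : IsUnit (-(64 * Polynomial.C κ)) := by
      rw [IsUnit.neg_iff, ← map_ofNat Polynomial.C 64, ← map_mul, Polynomial.isUnit_C]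
      exact (mul_ne_zero (by norm_num) hκ).isUnit
    rcases hp'.dvd_or_dvd hd with hd | hd
    · exact hpU (hp'.dvd_of_dvd_pow ((hp'.dvd_or_dvd hd).resolve_left
        fun e => hp'.not_isUnit (isUnit_of_dvd_unit e hu)))
    · exact hpQ' (hp'.dvd_of_dvd_pow hd)
  have hdvd : Q ^ 5 ∣ U ^ 2 - 9 * C :=
    (hcop.pow (m := 5) (n := 3)).dvd_of_dvd_mul_left (by rw [key]; exact dvd_mul_left _ _)
  have hzero : U ^ 2 - 9 * C = 0 := by
    refine eq_zero_of_dvd_of_natDegree_lt hdvd ?_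
    rw [natDegree_pow, hdQ]
    refine lt_of_le_of_lt (natDegree_sub_le _ _) ?_
    have h1 : (U ^ 2).natDegree ≤ 2 * U.natDegree := natDegree_pow_le
    have h2 : (9 * C).natDegree ≤ C.natDegree := by
      rw [← map_ofNat Polynomial.C 9]; exact natDegree_C_mul_le _ _
    omega
  rw [hzero, mul_zero, eq_comm] at key
  have hU : U = 0 := by simpa [hκ, hQ0] using key
  subst hU
  have hC : C = 0 := by simpa using hzero
  subst hC
  have := natDegree_eq_zero_of_isUnit (isCoprime_zero_left.1 hCQ)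
  omega

end Fermat.Agent.Switch
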