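import Mathlib
import Fermat.Agent.Switch.Forms

/-!
Explicit binary forms giving a basis of the 5-torsion of the icosahedral family
`Y ^ 2 = X ^ 3 - 27 * gH u v * X - 54 * gT u v`, with the certificates for the doubling
relations. The first section is defined over `ℚ`, the second over `ℚ(e)`, `e` a primitive
fifth root of unity.
-/

namespace Fermat.Agent.Switch

variable {R : Type*} [CommRing R] {S : Type*} [CommRing S]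

/-- Abscissa of the first section. -/
def oneX (u v : R) : R :=
  3 * u ^ 10 + 36 * u ^ 9 * v + 72 * u ^ 8 * v ^ 2 + 108 * u ^ 7 * v ^ 3 +
    180 * u ^ 6 * v ^ 4 + 90 * u ^ 5 * v ^ 5 + 72 * u ^ 4 * v ^ 6 -
    36 * u ^ 3 * v ^ 7 + 36 * u ^ 2 * v ^ 8 + 3 * v ^ 10

/-- Ordinate of the first section. -/
def oneY (u v : R) : R :=
  108 * u ^ 14 * v + 432 * u ^ 13 * v ^ 2 + 972 * u ^ 12 * v ^ 3 +
    1620 * u ^ 11 * v ^ 4 + 2700 * u ^ 10 * v ^ 5 + 3132 * u ^ 9 * v ^ 6 +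
    2268 * u ^ 8 * v ^ 7 + 648 * u ^ 7 * v ^ 8 + 540 * u ^ 6 * v ^ 9 +
    432 * u ^ 4 * v ^ 11 + 108 * u ^ 3 * v ^ 12 + 108 * u ^ 2 * v ^ 13

/-- Tangent slope at the first section. -/
def oneL (u v : R) : R :=
  3 * u ^ 5 + 12 * u ^ 4 * v + 6 * u ^ 3 * v ^ 2 + 18 * u ^ 2 * v ^ 3 - 6 * u * v ^ 4 +
    3 * v ^ 5

/-- Abscissa of the double of the first section. -/
def oneXd (u v : R) : R :=
  3 * u ^ 10 + 36 * u ^ 8 * v ^ 2 + 36 * u ^ 7 * v ^ 3 + 72 * u ^ 6 * v ^ 4 -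
    90 * u ^ 5 * v ^ 5 + 180 * u ^ 4 * v ^ 6 - 108 * u ^ 3 * v ^ 7 +
    72 * u ^ 2 * v ^ 8 - 36 * u * v ^ 9 + 3 * v ^ 10

/-- Ordinate of the double of the first section. -/
def oneYd (u v : R) : R :=
  108 * u ^ 13 * v ^ 2 - 108 * u ^ 12 * v ^ 3 + 432 * u ^ 11 * v ^ 4 +
    540 * u ^ 9 * v ^ 6 - 648 * u ^ 8 * v ^ 7 + 2268 * u ^ 7 * v ^ 8 -
    3132 * u ^ 6 * v ^ 9 + 2700 * u ^ 5 * v ^ 10 - 1620 * u ^ 4 * v ^ 11 +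
    972 * u ^ 3 * v ^ 12 - 432 * u ^ 2 * v ^ 13 + 108 * u * v ^ 14

/-- Tangent slope at the double of the first section. -/
def oneLd (u v : R) : R :=
  3 * u ^ 5 + 6 * u ^ 4 * v + 18 * u ^ 3 * v ^ 2 - 6 * u ^ 2 * v ^ 3 + 12 * u * v ^ 4 -
    3 * v ^ 5

/-- Abscissa of the second section (`c` stands for `1/5`). -/
def twoX (c e u v : R) : R :=
  c * ((-57 + 36 * e ^ 2 + 36 * e ^ 3) * u ^ 10 +
      (-198 - 396 * e ^ 2 - 396 * e ^ 3) * u ^ 5 * v ^ 5 +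
      (-93 - 36 * e ^ 2 - 36 * e ^ 3) * v ^ 10)

/-- Ordinate of the second section (`c` stands for `1/5`). -/
def twoY (c e u v : R) : R :=
  c * ((-216 - 432 * e - 324 * e ^ 2 - 108 * e ^ 3) * u ^ 15 +
      (2484 + 4968 * e + 3456 * e ^ 2 + 1512 * e ^ 3) * u ^ 10 * v ^ 5 +
      (-972 - 1944 * e + 1512 * e ^ 2 - 3456 * e ^ 3) * u ^ 5 * v ^ 10 +
      (-108 - 216 * e + 108 * e ^ 2 - 324 * e ^ 3) * v ^ 15)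

/-- Tangent slope at the second section (`c` stands for `1/5`). -/
def twoL (c e u v : R) : R :=
  c * ((21 + 42 * e + 18 * e ^ 2 + 24 * e ^ 3) * u ^ 5 +
      (-3 - 6 * e - 24 * e ^ 2 + 18 * e ^ 3) * v ^ 5)

/-- Abscissa of the double of the second section (`c` stands for `1/5`). -/
def twoXd (c e u v : R) : R :=
  c * ((-93 - 36 * e ^ 2 - 36 * e ^ 3) * u ^ 10 +
      (198 + 396 * e ^ 2 + 396 * e ^ 3) * u ^ 5 * v ^ 5 +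
      (-57 + 36 * e ^ 2 + 36 * e ^ 3) * v ^ 10)

/-- Ordinate of the double of the second section (`c` stands for `1/5`). -/
def twoYd (c e u v : R) : R :=
  c * ((108 + 216 * e - 108 * e ^ 2 + 324 * e ^ 3) * u ^ 15 +
      (-972 - 1944 * e + 1512 * e ^ 2 - 3456 * e ^ 3) * u ^ 10 * v ^ 5 +
      (-2484 - 4968 * e - 3456 * e ^ 2 - 1512 * e ^ 3) * u ^ 5 * v ^ 10 +
      (-216 - 432 * e - 324 * e ^ 2 - 108 * e ^ 3) * v ^ 15)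

/-- Tangent slope at the double of the second section (`c` stands for `1/5`). -/
def twoLd (c e u v : R) : R :=
  c * ((3 + 6 * e + 24 * e ^ 2 - 18 * e ^ 3) * u ^ 5 +
      (21 + 42 * e + 18 * e ^ 2 + 24 * e ^ 3) * v ^ 5)

section map

variable (φ : R →+* S)

theorem map_oneX (u v : R) : φ (oneX u v) = oneX (φ u) (φ v) := by
  simp [oneX, map_ofNat]
theorem map_oneY (u v : R) : φ (oneY u v) = oneY (φ u) (φ v) := by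
  simp [oneY, map_ofNat]
theorem map_oneXd (u v : R) : φ (oneXd u v) = oneXd (φ u) (φ v) := by
  simp [oneXd, map_ofNat]
theorem map_oneYd (u v : R) : φ (oneYd u v) = oneYd (φ u) (φ v) := by
  simp [oneYd, map_ofNat]
theorem map_twoX (c e u v : R) : φ (twoX c e u v) = twoX (φ c) (φ e) (φ u) (φ v) := by
  simp [twoX, map_ofNat]
theorem map_twoY (c e u v : R) : φ (twoY c e u v) = twoY (φ c) (φ e) (φ u) (φ v) := by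
  simp [twoY, map_ofNat]
theorem map_twoXd (c e u v : R) : φ (twoXd c e u v) = twoXd (φ c) (φ e) (φ u) (φ v) := by
  simp [twoXd, map_ofNat]
theorem map_twoYd (c e u v : R) : φ (twoYd c e u v) = twoYd (φ c) (φ e) (φ u) (φ v) := by
  simp [twoYd, map_ofNat]

end map

section Field

variable {K : Type*} [Field K]

theorem one_eqn (u v : K) :
    oneY u v ^ 2 = oneX u v ^ 3 - 27 * gH u v * oneX u v - 54 * gT u v := by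
  simp only [oneX, oneY, gH, gT]; ring

theorem one_slope (u v : K) :
    2 * oneL u v * oneY u v = 3 * oneX u v ^ 2 - 27 * gH u v := by
  simp only [oneX, oneY, oneL, gH]; ring

theorem one_Xd (u v : K) :
    oneXd u v = oneL u v ^ 2 - 2 * oneX u v := by
  simp only [oneX, oneL, oneXd]; ring

theorem one_Yd (u v : K) :
    oneYd u v = oneL u v * (oneX u v - oneXd u v) - oneY u v := by
  simp only [oneX, oneY, oneL, oneXd, oneYd]; ring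

theorem one_slope_d (u v : K) :
    2 * oneLd u v * oneYd u v = 3 * oneXd u v ^ 2 - 27 * gH u v := by
  simp only [oneXd, oneYd, oneLd, gH]; ring

theorem one_Xdd (u v : K) :
    oneX u v = oneLd u v ^ 2 - 2 * oneXd u v := by
  simp only [oneX, oneXd, oneLd]; ring

theorem one_Ydd (u v : K) :
    -oneY u v = oneLd u v * (oneXd u v - oneX u v) - oneYd u v := by
  simp only [oneX, oneY, oneXd, oneYd, oneLd]; ring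

variable [CharZero K] {e : K} (he : e ^ 4 + e ^ 3 + e ^ 2 + e + 1 = 0)
include he

theorem two_eqn (u v : K) :
    twoY 5⁻¹ e u v ^ 2 =
      twoX 5⁻¹ e u v ^ 3 - 27 * gH u v * twoX 5⁻¹ e u v - 54 * gT u v := by
  simp only [twoX, twoY, gH, gT]
  linear_combination
    (373248 / 125 * u ^ 30 + 559872 / 125 * e * u ^ 30 + 373248 / 125 * e ^ 2 * u ^ 30 -
      93312 / 125 * e ^ 4 * u ^ 30 - 46656 / 125 * e ^ 5 * u ^ 30 -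
      8817984 / 125 * u ^ 25 * v ^ 5 - 12643776 / 125 * e * u ^ 25 * v ^ 5 -
      8817984 / 125 * e ^ 2 * u ^ 25 * v ^ 5 +
      3079296 / 125 * e ^ 4 * u ^ 25 * v ^ 5 +
      1539648 / 125 * e ^ 5 * u ^ 25 * v ^ 5 + 11710656 / 25 * u ^ 20 * v ^ 10 +
      14649984 / 25 * e * u ^ 20 * v ^ 10 + 11710656 / 25 * e ^ 2 * u ^ 20 * v ^ 10 -
      6718464 / 25 * e ^ 4 * u ^ 20 * v ^ 10 -
      3359232 / 25 * e ^ 5 * u ^ 20 * v ^ 10 - 16282944 / 25 * u ^ 15 * v ^ 15 -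
      2846016 / 25 * e * u ^ 15 * v ^ 15 - 16282944 / 25 * e ^ 2 * u ^ 15 * v ^ 15 +
      23607936 / 25 * e ^ 4 * u ^ 15 * v ^ 15 +
      11803968 / 25 * e ^ 5 * u ^ 15 * v ^ 15 + 16282944 / 25 * u ^ 10 * v ^ 20 -
      14649984 / 25 * e * u ^ 10 * v ^ 20 + 16282944 / 25 * e ^ 2 * u ^ 10 * v ^ 20 +
      6718464 / 25 * e ^ 4 * u ^ 10 * v ^ 20 +
      3359232 / 25 * e ^ 5 * u ^ 10 * v ^ 20 + 16842816 / 125 * u ^ 5 * v ^ 25 -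
      12643776 / 125 * e * u ^ 5 * v ^ 25 + 16842816 / 125 * e ^ 2 * u ^ 5 * v ^ 25 +
      3079296 / 125 * e ^ 4 * u ^ 5 * v ^ 25 +
      1539648 / 125 * e ^ 5 * u ^ 5 * v ^ 25 + 793152 / 125 * v ^ 30 -
      559872 / 125 * e * v ^ 30 + 793152 / 125 * e ^ 2 * v ^ 30 +
      93312 / 125 * e ^ 4 * v ^ 30 + 46656 / 125 * e ^ 5 * v ^ 30) * he

theorem two_slope (u v : K) :
    2 * twoL 5⁻¹ e u v * twoY 5⁻¹ e u v = 3 * twoX 5⁻¹ e u v ^ 2 - 27 * gH u v := by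
  simp only [twoX, twoY, twoL, gH]
  linear_combination
    (-18144 / 25 * u ^ 20 - 18144 / 25 * e * u ^ 20 - 9072 / 25 * e ^ 2 * u ^ 20 +
      191808 / 25 * u ^ 15 * v ^ 5 + 230688 / 25 * e * u ^ 15 * v ^ 5 +
      154224 / 25 * e ^ 2 * u ^ 15 * v ^ 5 + 128304 / 25 * u ^ 10 * v ^ 10 -
      351216 / 25 * e * u ^ 10 * v ^ 10 - 574128 / 25 * e ^ 2 * u ^ 10 * v ^ 10 -
      263088 / 25 * u ^ 5 * v ^ 15 + 268272 / 25 * e * u ^ 5 * v ^ 15 -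
      225504 / 25 * e ^ 2 * u ^ 5 * v ^ 15 - 24624 / 25 * v ^ 20 +
      27216 / 25 * e * v ^ 20 - 15552 / 25 * e ^ 2 * v ^ 20) * he

theorem two_Xd (u v : K) :
    twoXd 5⁻¹ e u v = twoL 5⁻¹ e u v ^ 2 - 2 * twoX 5⁻¹ e u v := by
  simp only [twoX, twoL, twoXd]
  linear_combination
    (-1476 / 25 * u ^ 10 - 288 / 25 * e * u ^ 10 - 576 / 25 * e ^ 2 * u ^ 10 -
      864 / 25 * u ^ 5 * v ^ 5 + 1368 / 25 * e * u ^ 5 * v ^ 5 -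
      864 / 25 * e ^ 2 * u ^ 5 * v ^ 5 - 1224 / 25 * v ^ 10 + 1188 / 25 * e * v ^ 10 -
      324 / 25 * e ^ 2 * v ^ 10) * he

theorem two_Yd (u v : K) :
    twoYd 5⁻¹ e u v =
      twoL 5⁻¹ e u v * (twoX 5⁻¹ e u v - twoXd 5⁻¹ e u v) - twoY 5⁻¹ e u v := by
  simp only [twoX, twoY, twoL, twoXd, twoYd]
  linear_combination
    (-1296 / 25 * u ^ 15 - 1296 / 25 * e * u ^ 15 - 1728 / 25 * e ^ 2 * u ^ 15 +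
      15984 / 25 * u ^ 10 * v ^ 5 + 15984 / 25 * e * u ^ 10 * v ^ 5 +
      17712 / 25 * e ^ 2 * u ^ 10 * v ^ 5 - 17712 / 25 * u ^ 5 * v ^ 10 -
      17712 / 25 * e * u ^ 5 * v ^ 10 + 15984 / 25 * e ^ 2 * u ^ 5 * v ^ 10 -
      1728 / 25 * v ^ 15 - 1728 / 25 * e * v ^ 15 + 1296 / 25 * e ^ 2 * v ^ 15) * he

theorem two_slope_d (u v : K) :
    2 * twoLd 5⁻¹ e u v * twoYd 5⁻¹ e u v = 3 * twoXd 5⁻¹ e u v ^ 2 - 27 * gH u v := by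
  simp only [twoXd, twoYd, twoLd, gH]
  linear_combination
    (-24624 / 25 * u ^ 20 + 27216 / 25 * e * u ^ 20 - 15552 / 25 * e ^ 2 * u ^ 20 +
      263088 / 25 * u ^ 15 * v ^ 5 - 268272 / 25 * e * u ^ 15 * v ^ 5 +
      225504 / 25 * e ^ 2 * u ^ 15 * v ^ 5 + 128304 / 25 * u ^ 10 * v ^ 10 -
      351216 / 25 * e * u ^ 10 * v ^ 10 - 574128 / 25 * e ^ 2 * u ^ 10 * v ^ 10 -
      191808 / 25 * u ^ 5 * v ^ 15 - 230688 / 25 * e * u ^ 5 * v ^ 15 -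
      154224 / 25 * e ^ 2 * u ^ 5 * v ^ 15 - 18144 / 25 * v ^ 20 -
      18144 / 25 * e * v ^ 20 - 9072 / 25 * e ^ 2 * v ^ 20) * he

theorem two_Xdd (u v : K) :
    twoX 5⁻¹ e u v = twoLd 5⁻¹ e u v ^ 2 - 2 * twoXd 5⁻¹ e u v := by
  simp only [twoX, twoXd, twoLd]
  linear_combination
    (-1224 / 25 * u ^ 10 + 1188 / 25 * e * u ^ 10 - 324 / 25 * e ^ 2 * u ^ 10 +
      864 / 25 * u ^ 5 * v ^ 5 - 1368 / 25 * e * u ^ 5 * v ^ 5 +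
      864 / 25 * e ^ 2 * u ^ 5 * v ^ 5 - 1476 / 25 * v ^ 10 - 288 / 25 * e * v ^ 10 -
      576 / 25 * e ^ 2 * v ^ 10) * he

theorem two_Ydd (u v : K) :
    -twoY 5⁻¹ e u v =
      twoLd 5⁻¹ e u v * (twoXd 5⁻¹ e u v - twoX 5⁻¹ e u v) - twoYd 5⁻¹ e u v := by
  simp only [twoX, twoY, twoXd, twoYd, twoLd]
  linear_combination
    (1728 / 25 * u ^ 15 + 1728 / 25 * e * u ^ 15 - 1296 / 25 * e ^ 2 * u ^ 15 -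
      17712 / 25 * u ^ 10 * v ^ 5 - 17712 / 25 * e * u ^ 10 * v ^ 5 +
      15984 / 25 * e ^ 2 * u ^ 10 * v ^ 5 - 15984 / 25 * u ^ 5 * v ^ 10 -
      15984 / 25 * e * u ^ 5 * v ^ 10 - 17712 / 25 * e ^ 2 * u ^ 5 * v ^ 10 -
      1296 / 25 * v ^ 15 - 1296 / 25 * e * v ^ 15 - 1728 / 25 * e ^ 2 * v ^ 15) * he

-- roots of `z ^ 10 - 11 z ^ 5 - 1` occurring in the differences of the abscissae of the sections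
omit [CharZero K] in
theorem root_0 :
    ((1 + e + e ^ 2) ^ 5) ^ 2 - 11 * (1 + e + e ^ 2) ^ 5 - 1 = (0 : K) := by
  linear_combination
    (-11 - 34 * e - 65 * e ^ 2 - 10 * e ^ 3 + 240 * e ^ 4 + 760 * e ^ 5 + 1430 * e ^ 6 +
      1990 * e ^ 7 + 2180 * e ^ 8 + 1935 * e ^ 9 + 1407 * e ^ 10 + 838 * e ^ 11 +
      405 * e ^ 12 + 155 * e ^ 13 + 45 * e ^ 14 + 9 * e ^ 15 + 1 * e ^ 16) * he

omit [CharZero K] in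
theorem root_1 :
    ((e + e ^ 2 + e ^ 3) ^ 5) ^ 2 - 11 * (e + e ^ 2 + e ^ 3) ^ 5 - 1 = (0 : K) := by
  linear_combination
    (-1 + 1 * e - 12 * e ^ 5 - 43 * e ^ 6 - 110 * e ^ 7 - 165 * e ^ 8 - 165 * e ^ 9 -
      77 * e ^ 10 + 32 * e ^ 11 + 100 * e ^ 12 + 155 * e ^ 13 + 350 * e ^ 14 +
      804 * e ^ 15 + 1441 * e ^ 16 + 1990 * e ^ 17 + 2180 * e ^ 18 + 1935 * e ^ 19 +
      1407 * e ^ 20 + 838 * e ^ 21 + 405 * e ^ 22 + 155 * e ^ 23 + 45 * e ^ 24 +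
      9 * e ^ 25 + 1 * e ^ 26) * he

omit [CharZero K] in
theorem root_2 :
    ((-1 - e) ^ 5) ^ 2 - 11 * (-1 - e) ^ 5 - 1 = (0 : K) := by
  linear_combination
    (11 + 54 * e + 90 * e ^ 2 + 75 * e ^ 3 + 35 * e ^ 4 + 9 * e ^ 5 + 1 * e ^ 6) * he

omit [CharZero K] in
theorem root_3 :
    ((-e - e ^ 2) ^ 5) ^ 2 - 11 * (-e - e ^ 2) ^ 5 - 1 = (0 : K) := by
  linear_combination
    (-1 + 1 * e + 10 * e ^ 5 + 45 * e ^ 6 + 55 * e ^ 7 - 55 * e ^ 9 - 33 * e ^ 10 +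
      43 * e ^ 11 + 90 * e ^ 12 + 75 * e ^ 13 + 35 * e ^ 14 + 9 * e ^ 15 +
      1 * e ^ 16) * he

omit [CharZero K] in
theorem root_4 :
    ((-1 - e ^ 2) ^ 5) ^ 2 - 11 * (-1 - e ^ 2) ^ 5 - 1 = (0 : K) := by
  linear_combination
    (11 - 11 * e + 65 * e ^ 2 - 65 * e ^ 3 + 155 * e ^ 4 - 144 * e ^ 5 + 219 * e ^ 6 -
      165 * e ^ 7 + 200 * e ^ 8 - 110 * e ^ 9 + 119 * e ^ 10 - 44 * e ^ 11 +
      45 * e ^ 12 - 10 * e ^ 13 + 10 * e ^ 14 - 1 * e ^ 15 + 1 * e ^ 16) * he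

omit [CharZero K] in
theorem root_5 :
    ((-e - e ^ 3) ^ 5) ^ 2 - 11 * (-e - e ^ 3) ^ 5 - 1 = (0 : K) := by
  linear_combination
    (-1 + 1 * e + 10 * e ^ 5 - 10 * e ^ 6 + 55 * e ^ 7 - 55 * e ^ 8 + 110 * e ^ 9 -
      99 * e ^ 10 + 99 * e ^ 11 - 45 * e ^ 12 - 10 * e ^ 13 + 100 * e ^ 14 -
      133 * e ^ 15 + 208 * e ^ 16 - 165 * e ^ 17 + 200 * e ^ 18 - 110 * e ^ 19 +
      119 * e ^ 20 - 44 * e ^ 21 + 45 * e ^ 22 - 10 * e ^ 23 + 10 * e ^ 24 -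
      1 * e ^ 25 + 1 * e ^ 26) * he

omit [CharZero K] in
theorem root_6 :
    ((1 + e + e ^ 3) ^ 5) ^ 2 - 11 * (1 + e + e ^ 3) ^ 5 - 1 = (0 : K) := by
  linear_combination
    (-11 - 34 * e - 20 * e ^ 2 + 30 * e ^ 3 + 60 * e ^ 4 + 235 * e ^ 5 + 460 * e ^ 6 +
      570 * e ^ 7 + 910 * e ^ 8 + 1095 * e ^ 9 + 1096 * e ^ 10 + 1349 * e ^ 11 +
      1175 * e ^ 12 + 1050 * e ^ 13 + 1045 * e ^ 14 + 662 * e ^ 15 + 598 * e ^ 16 +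
      425 * e ^ 17 + 210 * e ^ 18 + 205 * e ^ 19 + 74 * e ^ 20 + 46 * e ^ 21 +
      35 * e ^ 22 + 10 * e ^ 24 - 1 * e ^ 25 + 1 * e ^ 26) * he

omit [CharZero K] in
theorem root_7 :
    ((-1 - e ^ 3) ^ 5) ^ 2 - 11 * (-1 - e ^ 3) ^ 5 - 1 = (0 : K) := by
  linear_combination
    (11 - 11 * e + 65 * e ^ 3 - 65 * e ^ 4 + 11 * e ^ 5 + 144 * e ^ 6 - 155 * e ^ 7 +
      65 * e ^ 8 + 165 * e ^ 9 - 219 * e ^ 10 + 144 * e ^ 11 + 110 * e ^ 12 -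
      200 * e ^ 13 + 165 * e ^ 14 + 44 * e ^ 15 - 119 * e ^ 16 + 110 * e ^ 17 +
      10 * e ^ 18 - 45 * e ^ 19 + 44 * e ^ 20 + 1 * e ^ 21 - 10 * e ^ 22 +
      10 * e ^ 23 - 1 * e ^ 25 + 1 * e ^ 26) * he

omit [CharZero K] he in
theorem gF_eq_zero_of_root {z u v : K} (hz : (z ^ 5) ^ 2 - 11 * z ^ 5 - 1 = 0)
    (h : u - z * v = 0) : gF u v = 0 := by
  obtain rfl : u = z * v := sub_eq_zero.1 h
  simp only [gF]; linear_combination z * v ^ 12 * hz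

theorem coeff_sub_ne_zero : (-72 + 36 * e ^ 2 + 36 * e ^ 3 : K) ≠ 0 := by
  intro h
  have : (180 : K) = 0 := by
    linear_combination 36 * (e ^ 2 + e - 1) * he - (e ^ 3 + e ^ 2 + 3) * h
  norm_num at this

theorem twoX_ne_oneX {u v : K} (hf : gF u v ≠ 0) :
    twoX 5⁻¹ e u v ≠ oneX u v := by
  intro h
  have key : twoX 5⁻¹ e u v - oneX u v = 5⁻¹ * (-72 + 36 * e ^ 2 + 36 * e ^ 3) *
      (u - (1 + e + e ^ 2) * v) *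
      (u - (e + e ^ 2 + e ^ 3) * v) *
      (u - (-1 - e) * v) *
      (u - (-e - e ^ 2) * v) *
      (u - (-1 - e ^ 2) * v) *
      (u - (-1 - e ^ 2) * v) *
      (u - (-e - e ^ 3) * v) *
      (u - (1 + e + e ^ 3) * v) *
      (u - (-1 - e ^ 3) * v) *
      (u - (-1 - e ^ 3) * v) := by
    simp only [twoX, oneX]
    linear_combination
      (36 / 5 * u ^ 9 * v - 36 / 5 * e * u ^ 9 * v - 36 / 5 * e ^ 2 * u ^ 9 * v -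
      288 / 5 * u ^ 8 * v ^ 2 + 72 / 5 * e * u ^ 8 * v ^ 2 -
      36 / 5 * e ^ 2 * u ^ 8 * v ^ 2 + 108 / 5 * e ^ 3 * u ^ 8 * v ^ 2 +
      72 / 5 * e ^ 5 * u ^ 8 * v ^ 2 - 180 * u ^ 7 * v ^ 3 + 36 * e * u ^ 7 * v ^ 3 -
      324 / 5 * e ^ 2 * u ^ 7 * v ^ 3 + 72 / 5 * e ^ 3 * u ^ 7 * v ^ 3 +
      72 / 5 * e ^ 4 * u ^ 7 * v ^ 3 + 72 * e ^ 5 * u ^ 7 * v ^ 3 +
      216 / 5 * e ^ 6 * u ^ 7 * v ^ 3 + 144 / 5 * e ^ 7 * u ^ 7 * v ^ 3 +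
      72 / 5 * e ^ 8 * u ^ 7 * v ^ 3 - 252 * u ^ 6 * v ^ 4 +
      612 / 5 * e * u ^ 6 * v ^ 4 - 36 * e ^ 2 * u ^ 6 * v ^ 4 +
      252 / 5 * e ^ 3 * u ^ 6 * v ^ 4 + 324 / 5 * e ^ 4 * u ^ 6 * v ^ 4 -
      36 / 5 * e ^ 5 * u ^ 6 * v ^ 4 + 144 / 5 * e ^ 6 * u ^ 6 * v ^ 4 -
      36 * e ^ 7 * u ^ 6 * v ^ 4 + 144 / 5 * e ^ 8 * u ^ 6 * v ^ 4 -
      36 / 5 * e ^ 9 * u ^ 6 * v ^ 4 + 72 / 5 * e ^ 10 * u ^ 6 * v ^ 4 -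
      36 / 5 * e ^ 11 * u ^ 6 * v ^ 4 - 576 / 5 * u ^ 5 * v ^ 5 +
      864 / 5 * e * u ^ 5 * v ^ 5 + 576 / 5 * e ^ 2 * u ^ 5 * v ^ 5 +
      1656 / 5 * e ^ 3 * u ^ 5 * v ^ 5 + 2232 / 5 * e ^ 4 * u ^ 5 * v ^ 5 +
      828 / 5 * e ^ 5 * u ^ 5 * v ^ 5 + 324 / 5 * e ^ 6 * u ^ 5 * v ^ 5 -
      1332 / 5 * e ^ 7 * u ^ 5 * v ^ 5 - 1404 / 5 * e ^ 8 * u ^ 5 * v ^ 5 -
      1584 / 5 * e ^ 9 * u ^ 5 * v ^ 5 - 180 * e ^ 10 * u ^ 5 * v ^ 5 -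
      576 / 5 * e ^ 11 * u ^ 5 * v ^ 5 - 252 / 5 * e ^ 12 * u ^ 5 * v ^ 5 -
      108 / 5 * e ^ 13 * u ^ 5 * v ^ 5 - 36 / 5 * e ^ 14 * u ^ 5 * v ^ 5 -
      144 / 5 * u ^ 4 * v ^ 6 + 936 / 5 * e * u ^ 4 * v ^ 6 +
      1476 / 5 * e ^ 2 * u ^ 4 * v ^ 6 + 2268 / 5 * e ^ 3 * u ^ 4 * v ^ 6 +
      504 * e ^ 4 * u ^ 4 * v ^ 6 + 1548 / 5 * e ^ 5 * u ^ 4 * v ^ 6 +
      1836 / 5 * e ^ 6 * u ^ 4 * v ^ 6 - 1152 / 5 * e ^ 8 * u ^ 4 * v ^ 6 -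
      2196 / 5 * e ^ 9 * u ^ 4 * v ^ 6 - 2556 / 5 * e ^ 10 * u ^ 4 * v ^ 6 -
      1944 / 5 * e ^ 11 * u ^ 4 * v ^ 6 - 288 * e ^ 12 * u ^ 4 * v ^ 6 -
      648 / 5 * e ^ 13 * u ^ 4 * v ^ 6 - 396 / 5 * e ^ 14 * u ^ 4 * v ^ 6 -
      108 / 5 * e ^ 15 * u ^ 4 * v ^ 6 - 72 / 5 * e ^ 16 * u ^ 4 * v ^ 6 +
      252 / 5 * u ^ 3 * v ^ 7 + 36 * e * u ^ 3 * v ^ 7 +
      612 / 5 * e ^ 2 * u ^ 3 * v ^ 7 + 504 / 5 * e ^ 3 * u ^ 3 * v ^ 7 -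
      288 / 5 * e ^ 4 * u ^ 3 * v ^ 7 - 1584 / 5 * e ^ 5 * u ^ 3 * v ^ 7 -
      2088 / 5 * e ^ 6 * u ^ 3 * v ^ 7 - 2448 / 5 * e ^ 7 * u ^ 3 * v ^ 7 -
      1548 / 5 * e ^ 8 * u ^ 3 * v ^ 7 + 864 / 5 * e ^ 10 * u ^ 3 * v ^ 7 +
      288 * e ^ 11 * u ^ 3 * v ^ 7 + 1296 / 5 * e ^ 12 * u ^ 3 * v ^ 7 +
      1224 / 5 * e ^ 13 * u ^ 3 * v ^ 7 + 792 / 5 * e ^ 14 * u ^ 3 * v ^ 7 +
      108 * e ^ 15 * u ^ 3 * v ^ 7 + 216 / 5 * e ^ 16 * u ^ 3 * v ^ 7 +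
      72 / 5 * e ^ 17 * u ^ 3 * v ^ 7 - 36 * u ^ 2 * v ^ 8 +
      252 / 5 * e * u ^ 2 * v ^ 8 - 72 / 5 * e ^ 2 * u ^ 2 * v ^ 8 -
      828 / 5 * e ^ 3 * u ^ 2 * v ^ 8 - 2592 / 5 * e ^ 4 * u ^ 2 * v ^ 8 -
      5364 / 5 * e ^ 5 * u ^ 2 * v ^ 8 - 7128 / 5 * e ^ 6 * u ^ 2 * v ^ 8 -
      8568 / 5 * e ^ 7 * u ^ 2 * v ^ 8 - 7596 / 5 * e ^ 8 * u ^ 2 * v ^ 8 -
      4428 / 5 * e ^ 9 * u ^ 2 * v ^ 8 - 576 / 5 * e ^ 10 * u ^ 2 * v ^ 8 +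
      792 * e ^ 11 * u ^ 2 * v ^ 8 + 6732 / 5 * e ^ 12 * u ^ 2 * v ^ 8 +
      7776 / 5 * e ^ 13 * u ^ 2 * v ^ 8 + 6984 / 5 * e ^ 14 * u ^ 2 * v ^ 8 +
      1044 * e ^ 15 * u ^ 2 * v ^ 8 + 684 * e ^ 16 * u ^ 2 * v ^ 8 +
      360 * e ^ 17 * u ^ 2 * v ^ 8 + 828 / 5 * e ^ 18 * u ^ 2 * v ^ 8 +
      252 / 5 * e ^ 19 * u ^ 2 * v ^ 8 + 72 / 5 * e ^ 20 * u ^ 2 * v ^ 8 -
      72 / 5 * e ^ 2 * u * v ^ 9 - 504 / 5 * e ^ 3 * u * v ^ 9 -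
      324 * e ^ 4 * u * v ^ 9 - 3384 / 5 * e ^ 5 * u * v ^ 9 -
      5616 / 5 * e ^ 6 * u * v ^ 9 - 1512 * e ^ 7 * u * v ^ 9 -
      8352 / 5 * e ^ 8 * u * v ^ 9 - 7596 / 5 * e ^ 9 * u * v ^ 9 -
      1008 * e ^ 10 * u * v ^ 9 - 1332 / 5 * e ^ 11 * u * v ^ 9 +
      2736 / 5 * e ^ 12 * u * v ^ 9 + 6084 / 5 * e ^ 13 * u * v ^ 9 +
      7812 / 5 * e ^ 14 * u * v ^ 9 + 1584 * e ^ 15 * u * v ^ 9 +
      6624 / 5 * e ^ 16 * u * v ^ 9 + 4716 / 5 * e ^ 17 * u * v ^ 9 +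
      576 * e ^ 18 * u * v ^ 9 + 1476 / 5 * e ^ 19 * u * v ^ 9 +
      612 / 5 * e ^ 20 * u * v ^ 9 + 36 * e ^ 21 * u * v ^ 9 +
      36 / 5 * e ^ 22 * u * v ^ 9 - 108 / 5 * v ^ 10 + 108 / 5 * e * v ^ 10 -
      36 / 5 * e ^ 2 * v ^ 10 - 72 / 5 * e ^ 3 * v ^ 10 - 252 / 5 * e ^ 4 * v ^ 10 -
      792 / 5 * e ^ 5 * v ^ 10 - 1224 / 5 * e ^ 6 * v ^ 10 -
      2052 / 5 * e ^ 7 * v ^ 10 - 2628 / 5 * e ^ 8 * v ^ 10 -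
      2916 / 5 * e ^ 9 * v ^ 10 - 2808 / 5 * e ^ 10 * v ^ 10 -
      1944 / 5 * e ^ 11 * v ^ 10 - 828 / 5 * e ^ 12 * v ^ 10 +
      576 / 5 * e ^ 13 * v ^ 10 + 360 * e ^ 14 * v ^ 10 + 2592 / 5 * e ^ 15 * v ^ 10 +
      2916 / 5 * e ^ 16 * v ^ 10 + 2664 / 5 * e ^ 17 * v ^ 10 +
      2124 / 5 * e ^ 18 * v ^ 10 + 288 * e ^ 19 * v ^ 10 + 828 / 5 * e ^ 20 * v ^ 10 +
      396 / 5 * e ^ 21 * v ^ 10 + 144 / 5 * e ^ 22 * v ^ 10 +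
      36 / 5 * e ^ 23 * v ^ 10) * he
  rw [h, sub_self] at key
  replace key := key.symm
  simp only [mul_eq_zero, inv_eq_zero, OfNat.ofNat_ne_zero, coeff_sub_ne_zero he, false_or,
    or_assoc] at key
  rcases key with h | h | h | h | h | h | h | h | h | h
  · exact hf (gF_eq_zero_of_root (root_0 he) h)
  · exact hf (gF_eq_zero_of_root (root_1 he) h)
  · exact hf (gF_eq_zero_of_root (root_2 he) h)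
  · exact hf (gF_eq_zero_of_root (root_3 he) h)
  · exact hf (gF_eq_zero_of_root (root_4 he) h)
  · exact hf (gF_eq_zero_of_root (root_4 he) h)
  · exact hf (gF_eq_zero_of_root (root_5 he) h)
  · exact hf (gF_eq_zero_of_root (root_6 he) h)
  · exact hf (gF_eq_zero_of_root (root_7 he) h)
  · exact hf (gF_eq_zero_of_root (root_7 he) h)

theorem twoX_ne_oneXd {u v : K} (hf : gF u v ≠ 0) :
    twoX 5⁻¹ e u v ≠ oneXd u v := by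
  intro h
  have key : twoX 5⁻¹ e u v - oneXd u v = 5⁻¹ * (-72 + 36 * e ^ 2 + 36 * e ^ 3) *
      (u - (1 + e + e ^ 2) * v) *
      (u - (e + e ^ 2 + e ^ 3) * v) *
      (u - (-1 - e) * v) *
      (u - (-e - e ^ 2) * v) *
      (u - (-1 - e ^ 2) * v) *
      (u - (-e - e ^ 3) * v) *
      (u - (-e - e ^ 3) * v) *
      (u - (1 + e + e ^ 3) * v) *
      (u - (1 + e + e ^ 3) * v) *
      (u - (-1 - e ^ 3) * v) := by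
    simp only [twoX, oneXd]
    linear_combination
      (-396 / 5 * u ^ 8 * v ^ 2 + 108 / 5 * e * u ^ 8 * v ^ 2 -
      36 / 5 * e ^ 2 * u ^ 8 * v ^ 2 + 144 / 5 * e ^ 3 * u ^ 8 * v ^ 2 +
      36 / 5 * e ^ 4 * u ^ 8 * v ^ 2 + 108 / 5 * e ^ 5 * u ^ 8 * v ^ 2 -
      36 * u ^ 7 * v ^ 3 + 36 / 5 * e * u ^ 7 * v ^ 3 -
      72 / 5 * e ^ 4 * u ^ 7 * v ^ 3 + 72 / 5 * e ^ 5 * u ^ 7 * v ^ 3 +
      72 / 5 * e ^ 6 * u ^ 7 * v ^ 3 + 36 / 5 * e ^ 7 * u ^ 7 * v ^ 3 -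
      144 / 5 * u ^ 6 * v ^ 4 + 144 * e * u ^ 6 * v ^ 4 +
      612 / 5 * e ^ 2 * u ^ 6 * v ^ 4 + 144 * e ^ 3 * u ^ 6 * v ^ 4 +
      684 / 5 * e ^ 4 * u ^ 6 * v ^ 4 - 576 / 5 * e ^ 5 * u ^ 6 * v ^ 4 -
      252 / 5 * e ^ 6 * u ^ 6 * v ^ 4 - 864 / 5 * e ^ 7 * u ^ 6 * v ^ 4 -
      72 * e ^ 8 * u ^ 6 * v ^ 4 - 432 / 5 * e ^ 9 * u ^ 6 * v ^ 4 -
      72 / 5 * e ^ 10 * u ^ 6 * v ^ 4 - 108 / 5 * e ^ 11 * u ^ 6 * v ^ 4 +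
      252 / 5 * u ^ 5 * v ^ 5 + 36 / 5 * e * u ^ 5 * v ^ 5 +
      36 / 5 * e ^ 2 * u ^ 5 * v ^ 5 + 576 / 5 * e ^ 3 * u ^ 5 * v ^ 5 +
      1116 / 5 * e ^ 4 * u ^ 5 * v ^ 5 + 612 / 5 * e ^ 5 * u ^ 5 * v ^ 5 +
      288 / 5 * e ^ 6 * u ^ 5 * v ^ 5 - 108 * e ^ 7 * u ^ 5 * v ^ 5 -
      684 / 5 * e ^ 8 * u ^ 5 * v ^ 5 - 828 / 5 * e ^ 9 * u ^ 5 * v ^ 5 -
      432 / 5 * e ^ 10 * u ^ 5 * v ^ 5 - 324 / 5 * e ^ 11 * u ^ 5 * v ^ 5 -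
      144 / 5 * e ^ 12 * u ^ 5 * v ^ 5 - 72 / 5 * e ^ 13 * u ^ 5 * v ^ 5 -
      972 / 5 * u ^ 4 * v ^ 6 + 684 / 5 * e * u ^ 4 * v ^ 6 -
      108 * e ^ 2 * u ^ 4 * v ^ 6 - 1296 / 5 * e ^ 3 * u ^ 4 * v ^ 6 -
      2196 / 5 * e ^ 4 * u ^ 4 * v ^ 6 - 3348 / 5 * e ^ 5 * u ^ 4 * v ^ 6 -
      1548 / 5 * e ^ 6 * u ^ 4 * v ^ 6 - 144 * e ^ 7 * u ^ 4 * v ^ 6 +
      792 / 5 * e ^ 8 * u ^ 4 * v ^ 6 + 1872 / 5 * e ^ 9 * u ^ 4 * v ^ 6 +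
      1764 / 5 * e ^ 10 * u ^ 4 * v ^ 6 + 432 * e ^ 11 * u ^ 4 * v ^ 6 +
      1296 / 5 * e ^ 12 * u ^ 4 * v ^ 6 + 1116 / 5 * e ^ 13 * u ^ 4 * v ^ 6 +
      396 / 5 * e ^ 14 * u ^ 4 * v ^ 6 + 288 / 5 * e ^ 15 * u ^ 4 * v ^ 6 +
      36 / 5 * e ^ 16 * u ^ 4 * v ^ 6 + 36 / 5 * e ^ 17 * u ^ 4 * v ^ 6 +
      108 * u ^ 3 * v ^ 7 - 684 / 5 * e * u ^ 3 * v ^ 7 -
      432 / 5 * e ^ 2 * u ^ 3 * v ^ 7 - 1008 / 5 * e ^ 3 * u ^ 3 * v ^ 7 -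
      2088 / 5 * e ^ 4 * u ^ 3 * v ^ 7 - 2664 / 5 * e ^ 5 * u ^ 3 * v ^ 7 -
      4644 / 5 * e ^ 6 * u ^ 3 * v ^ 7 - 4248 / 5 * e ^ 7 * u ^ 3 * v ^ 7 -
      2736 / 5 * e ^ 8 * u ^ 3 * v ^ 7 - 216 / 5 * e ^ 9 * u ^ 3 * v ^ 7 +
      2304 / 5 * e ^ 10 * u ^ 3 * v ^ 7 + 3672 / 5 * e ^ 11 * u ^ 3 * v ^ 7 +
      3996 / 5 * e ^ 12 * u ^ 3 * v ^ 7 + 3456 / 5 * e ^ 13 * u ^ 3 * v ^ 7 +
      2376 / 5 * e ^ 14 * u ^ 3 * v ^ 7 + 288 * e ^ 15 * u ^ 3 * v ^ 7 +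
      648 / 5 * e ^ 16 * u ^ 3 * v ^ 7 + 288 / 5 * e ^ 17 * u ^ 3 * v ^ 7 +
      72 / 5 * e ^ 18 * u ^ 3 * v ^ 7 + 36 / 5 * e ^ 19 * u ^ 3 * v ^ 7 -
      72 * u ^ 2 * v ^ 8 + 72 * e * u ^ 2 * v ^ 8 + 144 / 5 * e ^ 3 * u ^ 2 * v ^ 8 +
      648 / 5 * e ^ 4 * u ^ 2 * v ^ 8 + 1008 / 5 * e ^ 5 * u ^ 2 * v ^ 8 +
      2556 / 5 * e ^ 6 * u ^ 2 * v ^ 8 + 2556 / 5 * e ^ 7 * u ^ 2 * v ^ 8 +
      2232 / 5 * e ^ 8 * u ^ 2 * v ^ 8 + 288 * e ^ 9 * u ^ 2 * v ^ 8 -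
      396 / 5 * e ^ 10 * u ^ 2 * v ^ 8 - 792 / 5 * e ^ 11 * u ^ 2 * v ^ 8 -
      1692 / 5 * e ^ 12 * u ^ 2 * v ^ 8 - 1836 / 5 * e ^ 13 * u ^ 2 * v ^ 8 -
      1656 / 5 * e ^ 14 * u ^ 2 * v ^ 8 - 1548 / 5 * e ^ 15 * u ^ 2 * v ^ 8 -
      1044 / 5 * e ^ 16 * u ^ 2 * v ^ 8 - 864 / 5 * e ^ 17 * u ^ 2 * v ^ 8 -
      432 / 5 * e ^ 18 * u ^ 2 * v ^ 8 - 288 / 5 * e ^ 19 * u ^ 2 * v ^ 8 -
      72 / 5 * e ^ 20 * u ^ 2 * v ^ 8 - 36 / 5 * e ^ 21 * u ^ 2 * v ^ 8 +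
      36 * u * v ^ 9 - 36 * e * u * v ^ 9 + 144 / 5 * e ^ 3 * u * v ^ 9 +
      144 * e ^ 4 * u * v ^ 9 + 2196 / 5 * e ^ 5 * u * v ^ 9 +
      3924 / 5 * e ^ 6 * u * v ^ 9 + 6444 / 5 * e ^ 7 * u * v ^ 9 +
      8352 / 5 * e ^ 8 * u * v ^ 9 + 8784 / 5 * e ^ 9 * u * v ^ 9 +
      7344 / 5 * e ^ 10 * u * v ^ 9 + 3708 / 5 * e ^ 11 * u * v ^ 9 -
      612 / 5 * e ^ 12 * u * v ^ 9 - 936 * e ^ 13 * u * v ^ 9 -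
      7344 / 5 * e ^ 14 * u * v ^ 9 - 8064 / 5 * e ^ 15 * u * v ^ 9 -
      1476 * e ^ 16 * u * v ^ 9 - 5688 / 5 * e ^ 17 * u * v ^ 9 -
      3816 / 5 * e ^ 18 * u * v ^ 9 - 2232 / 5 * e ^ 19 * u * v ^ 9 -
      1116 / 5 * e ^ 20 * u * v ^ 9 - 468 / 5 * e ^ 21 * u * v ^ 9 -
      144 / 5 * e ^ 22 * u * v ^ 9 - 36 / 5 * e ^ 23 * u * v ^ 9 - 108 / 5 * v ^ 10 +
      108 / 5 * e * v ^ 10 - 36 / 5 * e ^ 2 * v ^ 10 + 108 / 5 * e ^ 4 * v ^ 10 +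
      252 / 5 * e ^ 5 * v ^ 10 + 216 * e ^ 6 * v ^ 10 + 396 * e ^ 7 * v ^ 10 +
      3276 / 5 * e ^ 8 * v ^ 10 + 4392 / 5 * e ^ 9 * v ^ 10 +
      4788 / 5 * e ^ 10 * v ^ 10 + 900 * e ^ 11 * v ^ 10 +
      2988 / 5 * e ^ 12 * v ^ 10 + 180 * e ^ 13 * v ^ 10 - 288 * e ^ 14 * v ^ 10 -
      684 * e ^ 15 * v ^ 10 - 4464 / 5 * e ^ 16 * v ^ 10 -
      4644 / 5 * e ^ 17 * v ^ 10 - 792 * e ^ 18 * v ^ 10 -
      2916 / 5 * e ^ 19 * v ^ 10 - 1836 / 5 * e ^ 20 * v ^ 10 -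
      972 / 5 * e ^ 21 * v ^ 10 - 432 / 5 * e ^ 22 * v ^ 10 -
      144 / 5 * e ^ 23 * v ^ 10 - 36 / 5 * e ^ 24 * v ^ 10) * he
  rw [h, sub_self] at key
  replace key := key.symm
  simp only [mul_eq_zero, inv_eq_zero, OfNat.ofNat_ne_zero, coeff_sub_ne_zero he, false_or,
    or_assoc] at key
  rcases key with h | h | h | h | h | h | h | h | h | h
  · exact hf (gF_eq_zero_of_root (root_0 he) h)
  · exact hf (gF_eq_zero_of_root (root_1 he) h)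
  · exact hf (gF_eq_zero_of_root (root_2 he) h)
  · exact hf (gF_eq_zero_of_root (root_3 he) h)
  · exact hf (gF_eq_zero_of_root (root_4 he) h)
  · exact hf (gF_eq_zero_of_root (root_5 he) h)
  · exact hf (gF_eq_zero_of_root (root_5 he) h)
  · exact hf (gF_eq_zero_of_root (root_6 he) h)
  · exact hf (gF_eq_zero_of_root (root_6 he) h)
  · exact hf (gF_eq_zero_of_root (root_7 he) h)

end Field

end Fermat.Agent.Switch
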